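/-
S24, package B4: the ring `RN N` of modular functions of level `N` (owner: helper68).

`RN N` (defined in `S24/ModDefs.lean`) is the subring of functions `ℍ → ℂ` generated by the
constants `iota c` (`c ∈ Q̄`) and the functions `τ ↦ j(d · γτ)` (`d ∣ N`, `γ ∈ SL₂(ℤ)`).

Main results:
* `modGens_finite`, `exists_eq_jM_of_mem_modGens` : the generating set is finite; every generator
  is a function `τ ↦ j((aτ+b)/e)` with `a e ∣ N`, `b < e`;
* `instIsHolStableRN` : `RN N` consists of holomorphic functions and is `SL₂(ℤ)`-stable;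
* `periodic_of_mem_RN` : every element is `N`-periodic;
* `RN_le_merCusp` : every element is meromorphic at the cusp `i∞` (in the sense of
  `Lib/CuspLaurent`), with period `N`;
* `laurent_coeff_mem_range` / `mem_ratCusp` : the Laurent expansion in `t = exp(2πiτ/N)` of every
  element has coefficients in `iota Q̄`;
* `laurentRN`, `laurentKRN` : the expansion maps `RN N →+* LaurentSeries ℂ`,
  `RN N →+* LaurentSeries Q̄`, both injective.
-/
import Mathlib
import Fermat.Agent.S24.ModDefs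
import Fermat.Agent.Lib.JqAnalytic
import Fermat.Agent.Lib.CuspLaurent

set_option autoImplicit false

noncomputable section

namespace Fermat.Agent.S24.ModRing

open UpperHalfPlane Filter Topology CongruenceSubgroup
open scoped MatrixGroups Manifold Real
open Fermat.Agent.Lib.JStab Fermat.Agent.Lib.DeltaLevelN Fermat.Agent.S24.Basic
open Fermat.Agent.S24 Fermat.Agent.Lib.CuspLaurent

local notation "𝕢" => Function.Periodic.qParam

/-! ## The generators in affine form -/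

lemma jC_eq_jInv : jC = jInv := rfl

/-- Every generator is one of the functions `τ ↦ j((aτ+b)/e)`. -/
lemma exists_eq_jM {d : ℕ} (hd : d ≠ 0) (γ : SL(2, ℤ)) :
    ∃ a b e : ℕ, a * e = d ∧ b < e ∧ modGen d γ = jM a b e := by
  haveI : NeZero d := ⟨hd⟩
  obtain ⟨a, b, e, hae, hbe, -, h⟩ := jN_smul d γ
  exact ⟨a, b, e, hae, hbe, funext h⟩

theorem exists_eq_jM_of_mem_modGens {N : ℕ} (hN : N ≠ 0) {f : ℍ → ℂ} (hf : f ∈ modGens N) :
    ∃ a b e : ℕ, a ≠ 0 ∧ e ≠ 0 ∧ a * e ∣ N ∧ b < e ∧ f = jM a b e := by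
  obtain ⟨d, hd, γ, rfl⟩ := hf
  have hd0 : d ≠ 0 := fun h => hN (by rw [h] at hd; exact Nat.eq_zero_of_zero_dvd hd)
  obtain ⟨a, b, e, hae, hbe, h⟩ := exists_eq_jM hd0 γ
  refine ⟨a, b, e, ?_, ?_, hae ▸ hd, hbe, h⟩
  · rintro rfl; simp at hae; exact hd0 hae.symm
  · rintro rfl; simp at hae; exact hd0 hae.symm

/-- The generating set is finite. -/
theorem modGens_finite (N : ℕ) [NeZero N] : (modGens N).Finite := by
  have hN : N ≠ 0 := NeZero.ne N
  refine Set.Finite.subset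
    ((Finset.range (N + 1) ×ˢ Finset.range (N + 1) ×ˢ Finset.range (N + 1)).finite_toSet.image
      (fun p : ℕ × ℕ × ℕ => jM p.1 p.2.1 p.2.2)) ?_
  intro f hf
  obtain ⟨a, b, e, ha, he, hae, hbe, rfl⟩ := exists_eq_jM_of_mem_modGens hN hf
  have hle : a * e ≤ N := Nat.le_of_dvd (Nat.pos_of_ne_zero hN) hae
  have ha1 : 1 ≤ a := Nat.one_le_iff_ne_zero.mpr ha
  have he1 : 1 ≤ e := Nat.one_le_iff_ne_zero.mpr he
  have haN : a ≤ N := le_trans (Nat.le_mul_of_pos_right a he1) hle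
  have heN : e ≤ N := le_trans (Nat.le_mul_of_pos_left e ha1) hle
  refine ⟨(a, b, e), ?_, rfl⟩
  simp only [Finset.coe_product, Finset.coe_range, Set.mem_prod, Set.mem_Iio]
  omega

/-- The generating set is stable under `SL₂(ℤ)`. -/
theorem comp_smul_mem_modGens {N : ℕ} {f : ℍ → ℂ} (hf : f ∈ modGens N) (γ : SL(2, ℤ)) :
    (fun τ : ℍ => f (γ • τ)) ∈ modGens N := by
  obtain ⟨d, hd, γ', rfl⟩ := hf
  exact ⟨d, hd, γ' * γ, by funext τ; simp [modGen, mul_smul]⟩

/-! ## Holomorphy and stability under `SL₂(ℤ)` -/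

theorem mdiff_of_mem_RN {N : ℕ} [NeZero N] {f : ℍ → ℂ} (hf : f ∈ RN N) : MDiff f := by
  have hN : N ≠ 0 := NeZero.ne N
  induction hf using Subring.closure_induction with
  | mem x hx =>
    rcases hx with ⟨c, rfl⟩ | ⟨d, hd, γ, rfl⟩
    · exact mdifferentiable_const
    · have hd0 : d ≠ 0 := fun h => hN (by rw [h] at hd; exact Nat.eq_zero_of_zero_dvd hd)
      haveI : NeZero d := ⟨hd0⟩
      exact mdifferentiable_jN_smul d γ
  | zero => exact mdifferentiable_const
  | one => exact mdifferentiable_const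
  | add x y _ _ hx hy => exact hx.add hy
  | neg x _ hx => exact hx.neg
  | mul x y _ _ hx hy => exact hx.mul hy

theorem comp_smul_mem_RN {N : ℕ} {f : ℍ → ℂ} (hf : f ∈ RN N) (γ : SL(2, ℤ)) :
    (fun τ : ℍ => f (γ • τ)) ∈ RN N := by
  induction hf using Subring.closure_induction with
  | mem x hx =>
    rcases hx with ⟨c, rfl⟩ | hx
    · exact constFun_mem_RN N c
    · exact Subring.subset_closure (Or.inr (comp_smul_mem_modGens hx γ))
  | zero => exact zero_mem _
  | one => exact one_mem _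
  | add x y _ _ hx hy => exact add_mem hx hy
  | neg x _ hx => exact neg_mem hx
  | mul x y _ _ hx hy => exact mul_mem hx hy

instance instIsHolStableRN (N : ℕ) [NeZero N] : IsHolStable (RN N) where
  mdiff _ hf := mdiff_of_mem_RN hf
  const_mem c := constFun_mem_RN N c
  smul_mem γ _ hf := comp_smul_mem_RN hf γ

/-! ## Roots of unity are in the range of `iota` -/

lemma mem_range_iota_of_pow_eq_one {z : ℂ} {n : ℕ} (hn : n ≠ 0) (hz : z ^ n = 1) :
    z ∈ iota.fieldRange := by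
  haveI : NeZero n := ⟨hn⟩
  haveI : NeZero ((n : ℕ) : ℚ) := ⟨by exact_mod_cast hn⟩
  obtain ⟨ξ, hξ⟩ := HasEnoughRootsOfUnity.exists_primitiveRoot (AlgebraicClosure ℚ) n
  have hξ' : IsPrimitiveRoot (iota ξ) n := hξ.map_of_injective iota_injective
  obtain ⟨i, -, hi⟩ := hξ'.eq_pow_of_pow_eq_one hz
  exact ⟨ξ ^ i, by rw [map_pow, hi]⟩

lemma ratCast_mem_range_iota (q : ℚ) : (q : ℂ) ∈ iota.fieldRange :=
  ⟨(q : AlgebraicClosure ℚ), map_ratCast iota q⟩

/-! ## The affine maps `τ ↦ (aτ+b)/e` -/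

/-- The point `(aτ+b)/e` of the upper half plane. -/
def aff (a b e : ℕ) (τ : ℍ) : ℍ := ofComplex (((a : ℂ) * τ + b) / e)

lemma jM_eq (a b e : ℕ) (τ : ℍ) : jM a b e τ = jInv (aff a b e τ) := rfl

lemma jM_eq_comp (a b e : ℕ) : jM a b e = jInv ∘ aff a b e := rfl

lemma coe_aff {a e : ℕ} (ha : a ≠ 0) (he : e ≠ 0) (b : ℕ) (τ : ℍ) :
    (aff a b e τ : ℂ) = ((a : ℂ) * τ + b) / e := by
  rw [aff, ofComplex_apply_of_im_pos (Fermat.Agent.Lib.DeltaSlash.im_affine_pos ha he b τ)]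

lemma coe_aff' {a e : ℕ} (ha : a ≠ 0) (he : e ≠ 0) (b : ℕ) (τ : ℍ) :
    (aff a b e τ : ℂ) = ((a : ℂ) * τ + ((b : ℤ) : ℂ)) / e := by
  rw [coe_aff ha he, Int.cast_natCast]

lemma qParam_aff {a e N : ℕ} (ha : a ≠ 0) (he : e ≠ 0) (heN : e ∣ N) (hN : N ≠ 0) (b : ℕ)
    (τ : ℍ) :
    𝕢 1 (aff a b e τ) = Complex.exp (2 * π * Complex.I * b / e) * 𝕢 N τ ^ (a * (N / e)) := by
  rw [Function.Periodic.qParam, Function.Periodic.qParam, coe_aff ha he, ← Complex.exp_nat_mul,
    ← Complex.exp_add]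
  congr 1
  obtain ⟨c, rfl⟩ := heN
  have hc : c ≠ 0 := fun h => hN (by simp [h])
  have hdiv : e * c / e = c := Nat.mul_div_cancel_left c (Nat.pos_of_ne_zero he)
  rw [hdiv]
  have heC : (e : ℂ) ≠ 0 := by exact_mod_cast he
  have hcC : (c : ℂ) ≠ 0 := by exact_mod_cast hc
  push_cast
  field_simp
  ring

lemma jInv_vadd_nat (m : ℕ) (w : ℍ) : jInv ((m : ℝ) +ᵥ w) = jInv w := by
  have h := jInv_smul (ModularGroup.T ^ (m : ℤ)) w
  rwa [UpperHalfPlane.modular_T_zpow_smul, Int.cast_natCast] at h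

lemma aff_vadd {a e N : ℕ} (ha : a ≠ 0) (he : e ≠ 0) (heN : e ∣ N) (b : ℕ) (τ : ℍ) :
    aff a b e ((N : ℝ) +ᵥ τ) = ((a * (N / e) : ℕ) : ℝ) +ᵥ aff a b e τ := by
  apply UpperHalfPlane.ext
  rw [coe_aff ha he, UpperHalfPlane.coe_vadd, UpperHalfPlane.coe_vadd, coe_aff ha he]
  obtain ⟨c, rfl⟩ := heN
  have hdiv : e * c / e = c := Nat.mul_div_cancel_left c (Nat.pos_of_ne_zero he)
  rw [hdiv]
  have heC : (e : ℂ) ≠ 0 := by exact_mod_cast he
  push_cast
  field_simp
  ring

lemma jM_vadd {a e N : ℕ} (ha : a ≠ 0) (he : e ≠ 0) (heN : e ∣ N) (b : ℕ) (τ : ℍ) :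
    jM a b e ((N : ℝ) +ᵥ τ) = jM a b e τ := by
  rw [jM_eq, jM_eq, aff_vadd ha he heN, jInv_vadd_nat]

lemma mul_div_ne_zero {a e N : ℕ} (ha : a ≠ 0) (he : e ≠ 0) (heN : e ∣ N) (hN : N ≠ 0) :
    a * (N / e) ≠ 0 := by
  obtain ⟨c, rfl⟩ := heN
  have hc : c ≠ 0 := fun h => hN (by simp [h])
  rw [Nat.mul_div_cancel_left c (Nat.pos_of_ne_zero he)]
  exact mul_ne_zero ha hc

lemma mul_div_mul {a e N : ℕ} (he : e ≠ 0) (heN : e ∣ N) :
    a * (N / e) * (e * 1) = a * N := by
  obtain ⟨c, rfl⟩ := heN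
  rw [Nat.mul_div_cancel_left c (Nat.pos_of_ne_zero he)]
  ring

/-! ## Periodicity -/

/-- Every element of `RN N` is `N`-periodic. -/
theorem periodic_of_mem_RN {N : ℕ} [NeZero N] {f : ℍ → ℂ} (hf : f ∈ RN N) (τ : ℍ) :
    f ((N : ℝ) +ᵥ τ) = f τ := by
  have hN : N ≠ 0 := NeZero.ne N
  induction hf using Subring.closure_induction with
  | mem x hx =>
    rcases hx with ⟨c, rfl⟩ | hx
    · rfl
    · obtain ⟨a, b, e, ha, he, hae, -, rfl⟩ := exists_eq_jM_of_mem_modGens hN hx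
      exact jM_vadd ha he (dvd_trans (dvd_mul_left e a) hae) b τ
  | zero => rfl
  | one => rfl
  | add x y _ _ hx hy => simp only [Pi.add_apply, hx, hy]
  | neg x _ hx => simp only [Pi.neg_apply, hx]
  | mul x y _ _ hx hy => simp only [Pi.mul_apply, hx, hy]

/-- Periodicity on `ℍ` gives periodicity of `f ∘ ofComplex` on `ℂ`. -/
lemma periodic_comp_ofComplex {f : ℍ → ℂ} {h : ℝ} (hf : ∀ τ : ℍ, f (h +ᵥ τ) = f τ) :
    Function.Periodic (f ∘ ofComplex) h := by
  intro w
  simp only [Function.comp_apply]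
  by_cases hw : 0 < w.im
  · have hw' : 0 < (w + h).im := by simpa using hw
    rw [ofComplex_apply_of_im_pos hw, ofComplex_apply_of_im_pos hw']
    have e : (⟨w + h, hw'⟩ : ℍ) = h +ᵥ (⟨w, hw⟩ : ℍ) := by
      apply UpperHalfPlane.ext
      rw [UpperHalfPlane.coe_vadd]
      exact add_comm _ _
    rw [e, hf]
  · have hw' : ¬ 0 < (w + h).im := by simpa using hw
    rw [ofComplex_apply_eq_of_im_nonpos (not_lt.mp hw') (not_lt.mp hw)]

/-! ## The generators at the cusp `i∞` -/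

lemma tendsto_aff {a e : ℕ} (ha : a ≠ 0) (he : e ≠ 0) (b : ℕ) :
    Tendsto (aff a b e) atImInfty atImInfty :=
  tendsto_ofComplex_affine ha he b

/-- `t^{a N/e} · j((aτ+b)/e) → ζ_e^{-b}` at `i∞`, where `t = exp(2πiτ/N)`. -/
theorem tendsto_qParam_pow_mul_jM {a e N : ℕ} (ha : a ≠ 0) (he : e ≠ 0) (heN : e ∣ N)
    (hN : N ≠ 0) (b : ℕ) :
    Tendsto (fun τ : ℍ => 𝕢 N τ ^ (a * (N / e)) * jM a b e τ) atImInfty
      (𝓝 (Complex.exp (-(2 * π * Complex.I * b / e)))) := by
  have h := (tendsto_qParam_mul_jInv.comp (tendsto_aff ha he b)).const_mul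
    (Complex.exp (-(2 * π * Complex.I * b / e)))
  rw [mul_one] at h
  refine h.congr fun τ => ?_
  simp only [Function.comp_apply]
  rw [qParam_aff ha he heN hN, jM_eq, ← mul_assoc, ← mul_assoc, ← Complex.exp_add]
  simp

/-- The expansion of a generator at `i∞` in the variable `t = exp(2πiτ/N)`. -/
theorem hasSum_jM {a e N : ℕ} (ha : a ≠ 0) (he : e ≠ 0) (heN : e ∣ N) (hN : N ≠ 0) (b : ℕ)
    (τ : ℍ) :
    HasSum (fun n : ℤ => ((ModularCurve.jq.coeff n : ℚ) : ℂ) *
      Complex.exp (2 * π * Complex.I * b / e) ^ n * 𝕢 N τ ^ (((a * (N / e) : ℕ) : ℤ) * n))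
      (jM a b e τ) := by
  have h := Fermat.Agent.Lib.JqAnalytic.hasSum_jFun_int (aff a b e τ)
  rw [qParam_aff ha he heN hN] at h
  have hfun : (fun n : ℤ => ((ModularCurve.jq.coeff n : ℚ) : ℂ) *
      Complex.exp (2 * π * Complex.I * b / e) ^ n * 𝕢 N τ ^ (((a * (N / e) : ℕ) : ℤ) * n)) =
      fun n : ℤ => ((ModularCurve.jq.coeff n : ℚ) : ℂ) *
        (Complex.exp (2 * π * Complex.I * b / e) * 𝕢 N τ ^ (a * (N / e))) ^ n := by
    funext n
    rw [mul_zpow, zpow_mul, zpow_natCast, mul_assoc]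
  rw [hfun]
  exact h

/-! ## `j` at the cusp, in the vocabulary of `Lib/CuspLaurent` -/

theorem jInv_isMerCusp : IsMerCusp ((1 : ℕ) : ℝ) jInv := by
  refine ⟨mdifferentiable_jInv, periodic_comp_ofComplex fun τ => ?_, 1, ?_⟩
  · exact jInv_vadd_nat 1 τ
  · have h : Tendsto (tParam ((1 : ℕ) : ℝ) ^ 1 * jInv) atImInfty (𝓝 1) := by
      refine tendsto_qParam_mul_jInv.congr fun τ => ?_
      simp [tParam]
    exact h.isBigO_one ℝ

theorem jInv_mem_merCusp : jInv ∈ merCusp 1 := jInv_isMerCusp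

/-- The Laurent expansion of `j` at `i∞` is the Prelude's formal series `jq`. -/
theorem laurent_jInv_coeff (n : ℤ) :
    (laurent 1 ⟨jInv, jInv_mem_merCusp⟩).coeff n = ((ModularCurve.jq.coeff n : ℚ) : ℂ) := by
  have hh : (0 : ℝ) < ((1 : ℕ) : ℝ) := by norm_num
  rw [laurent_apply]
  by_cases hn : n < -1
  · have hbd : IsBoundedAtImInfty (tParam ((1 : ℕ) : ℝ) ^ 1 * jInv) := by
      have h : Tendsto (tParam ((1 : ℕ) : ℝ) ^ 1 * jInv) atImInfty (𝓝 1) := by
        refine tendsto_qParam_mul_jInv.congr fun τ => ?_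
        simp [tParam]
      exact h.isBigO_one ℝ
    rw [laurentFun_coeff_of_lt hh jInv_isMerCusp hbd (by exact_mod_cast hn),
      ModularCurve.coeff_jq_of_lt hn]
    simp
  · obtain ⟨m, rfl⟩ : ∃ m : ℕ, n = (m : ℤ) - 1 := ⟨(n + 1).toNat, by omega⟩
    have key := laurentFun_coeff_unique hh jInv_isMerCusp (k := 1)
      (a := fun m : ℕ => ((ModularCurve.jq.coeff ((m : ℤ) - 1) : ℚ) : ℂ)) (fun τ => by
        have h : HasSum (fun n : ℕ => ((ModularCurve.jq.coeff ((n : ℤ) - 1) : ℚ) : ℂ) *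
            𝕢 1 τ ^ n) (𝕢 1 τ * jInv τ) := Fermat.Agent.Lib.JqAnalytic.hasSum_jFun τ
        simpa [tParam] using h) m
    simpa using key

theorem jM_mem_merCusp {a e N : ℕ} [NeZero N] (ha : a ≠ 0) (he : e ≠ 0) (heN : e ∣ N) (b : ℕ) :
    jM a b e ∈ merCusp N :=
  comp_affine_mem_merCusp (h₁ := 1) (h₂ := N) jInv_mem_merCusp (m := aff a b e)
    (e := a * (N / e)) (b := (b : ℤ)) (Nat.pos_of_ne_zero ha) (Nat.pos_of_ne_zero he)
    (coe_aff' ha he b) (mul_div_mul he heN)

theorem laurent_jM_coeff {a e N : ℕ} [NeZero N] (ha : a ≠ 0) (he : e ≠ 0) (heN : e ∣ N)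
    (b : ℕ) (n : ℤ) :
    (laurent N ⟨jM a b e, jM_mem_merCusp ha he heN b⟩).coeff n =
      if ((a * (N / e) : ℕ) : ℤ) ∣ n then
        Complex.exp (2 * π * Complex.I * ((b : ℤ) : ℂ) / (e * ((1 : ℕ) : ℝ))) ^
            (n / ((a * (N / e) : ℕ) : ℤ)) *
          ((ModularCurve.jq.coeff (n / ((a * (N / e) : ℕ) : ℤ)) : ℚ) : ℂ)
      else 0 := by
  have h := laurent_comp_affine (h₁ := 1) (h₂ := N) jInv_mem_merCusp (m := aff a b e)
    (e := a * (N / e)) (b := (b : ℤ)) (Nat.pos_of_ne_zero ha) (Nat.pos_of_ne_zero he)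
    (coe_aff' ha he b) (mul_div_mul he heN) n
  rw [laurent_jInv_coeff] at h
  exact h

theorem laurent_jM_coeff_mem {a e N : ℕ} [NeZero N] (ha : a ≠ 0) (he : e ≠ 0) (heN : e ∣ N)
    (b : ℕ) (n : ℤ) :
    (laurent N ⟨jM a b e, jM_mem_merCusp ha he heN b⟩).coeff n ∈ Set.range iota := by
  rw [laurent_jM_coeff ha he heN b n]
  show _ ∈ iota.fieldRange
  split_ifs with h
  · refine mul_mem ?_ (ratCast_mem_range_iota _)
    have hz : Complex.exp (2 * π * Complex.I * ((b : ℤ) : ℂ) / (e * ((1 : ℕ) : ℝ))) ∈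
        iota.fieldRange := by
      refine mem_range_iota_of_pow_eq_one he ?_
      rw [← Complex.exp_nat_mul]
      have heC : (e : ℂ) ≠ 0 := by exact_mod_cast he
      have e1 : (e : ℂ) * (2 * π * Complex.I * ((b : ℤ) : ℂ) / (e * ((1 : ℕ) : ℝ))) =
          (b : ℂ) * (2 * π * Complex.I) := by
        push_cast
        field_simp
      rw [e1, Complex.exp_nat_mul_two_pi_mul_I]
    exact zpow_mem hz _
  · exact zero_mem _

/-! ## `RN N` at the cusp -/

/-- Every element of `RN N` is holomorphic on `ℍ`, `N`-periodic and meromorphic at `i∞`. -/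
theorem RN_le_merCusp (N : ℕ) [NeZero N] : RN N ≤ merCusp N := by
  have hN : N ≠ 0 := NeZero.ne N
  refine Subring.closure_le.mpr ?_
  rintro f (⟨c, rfl⟩ | hf)
  · exact const_mem_merCusp N _
  · obtain ⟨a, b, e, ha, he, hae, -, rfl⟩ := exists_eq_jM_of_mem_modGens hN hf
    exact jM_mem_merCusp ha he (dvd_trans (dvd_mul_left e a) hae) b

/-- The functions on `ℍ` that are meromorphic at the cusp with `Q̄`-rational expansion. -/
def ratFun (N : ℕ) [NeZero N] : Subring (ℍ → ℂ) :=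
  (ratCusp iota N).map (merCusp N).subtype

lemma mem_ratFun_iff {N : ℕ} [NeZero N] {f : ℍ → ℂ} :
    f ∈ ratFun N ↔ ∃ hf : f ∈ merCusp N, ∀ n : ℤ, (laurent N ⟨f, hf⟩).coeff n ∈ Set.range iota := by
  constructor
  · rintro ⟨g, hg, rfl⟩
    exact ⟨g.2, (mem_ratCusp_iff iota N g).mp hg⟩
  · rintro ⟨hf, h⟩
    exact ⟨⟨f, hf⟩, (mem_ratCusp_iff iota N _).mpr h, rfl⟩

theorem RN_le_ratFun (N : ℕ) [NeZero N] : RN N ≤ ratFun N := by
  have hN : N ≠ 0 := NeZero.ne N
  refine Subring.closure_le.mpr ?_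
  rintro f (⟨c, rfl⟩ | hf)
  · refine mem_ratFun_iff.mpr ⟨const_mem_merCusp N _, fun n => ?_⟩
    have h := laurent_const N (iota c)
    have h' : laurent N ⟨constFun c, const_mem_merCusp N _⟩ = HahnSeries.C (iota c) := h
    rw [h']
    by_cases hn : n = 0
    · subst hn
      exact ⟨c, by simp [HahnSeries.C_apply]⟩
    · exact ⟨0, by simp [HahnSeries.C_apply, HahnSeries.coeff_single_of_ne hn]⟩
  · obtain ⟨a, b, e, ha, he, hae, -, rfl⟩ := exists_eq_jM_of_mem_modGens hN hf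
    exact mem_ratFun_iff.mpr ⟨_, laurent_jM_coeff_mem ha he (dvd_trans (dvd_mul_left e a) hae) b⟩

/-- The Laurent expansion of every element of `RN N` at `i∞`, in `t = exp(2πiτ/N)`, has
coefficients in `iota Q̄`. -/
theorem laurent_coeff_mem_range {N : ℕ} [NeZero N] {f : ℍ → ℂ} (hf : f ∈ RN N) (n : ℤ) :
    (laurent N ⟨f, RN_le_merCusp N hf⟩).coeff n ∈ Set.range iota := by
  obtain ⟨_, h⟩ := mem_ratFun_iff.mp (RN_le_ratFun N hf)
  exact h n

theorem mem_ratCusp {N : ℕ} [NeZero N] {f : ℍ → ℂ} (hf : f ∈ RN N) :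
    (⟨f, RN_le_merCusp N hf⟩ : merCusp N) ∈ ratCusp iota N :=
  (mem_ratCusp_iff iota N _).mpr (laurent_coeff_mem_range hf)

/-! ## The expansion maps on `RN N` -/

/-- The inclusion of `RN N` into the ring of `Q̄`-rational functions at the cusp. -/
def toRatCusp (N : ℕ) [NeZero N] : RN N →+* ratCusp iota N where
  toFun f := ⟨⟨f.1, RN_le_merCusp N f.2⟩, mem_ratCusp f.2⟩
  map_one' := rfl
  map_mul' _ _ := rfl
  map_zero' := rfl
  map_add' _ _ := rfl

/-- The Laurent expansion at `i∞` in `t = exp(2πiτ/N)`, on `RN N`. -/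
def laurentRN (N : ℕ) [NeZero N] : RN N →+* LaurentSeries ℂ :=
  (laurent N).comp (Subring.inclusion (RN_le_merCusp N))

/-- The Laurent expansion at `i∞` with coefficients in `Q̄`. -/
def laurentKRN (N : ℕ) [NeZero N] : RN N →+* LaurentSeries (AlgebraicClosure ℚ) :=
  (laurentK iota N).comp (toRatCusp N)

theorem laurentRN_apply {N : ℕ} [NeZero N] (f : RN N) :
    laurentRN N f = laurent N ⟨f.1, RN_le_merCusp N f.2⟩ := rfl

theorem coeffMap_laurentKRN {N : ℕ} [NeZero N] (f : RN N) :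
    ModularCurve.coeffMap iota (laurentKRN N f) = laurentRN N f :=
  coeffMap_laurentK iota N (toRatCusp N f)

theorem laurentRN_injective (N : ℕ) [NeZero N] : Function.Injective (laurentRN N) := by
  intro f g h
  have := laurent_injective N h
  exact Subtype.ext (congrArg (fun x : merCusp N => (x : ℍ → ℂ)) this)

theorem laurentKRN_injective (N : ℕ) [NeZero N] : Function.Injective (laurentKRN N) := by
  intro f g h
  apply laurentRN_injective N
  rw [← coeffMap_laurentKRN, ← coeffMap_laurentKRN, h]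

/-! ## `Δ` at the cusp, and the `Q̄`-rational power series expansion of `Δ^m · f` -/

lemma discriminant_vadd_one (τ : ℍ) :
    ModularForm.discriminant ((1 : ℝ) +ᵥ τ) = ModularForm.discriminant τ := by
  have h := Fermat.Agent.Lib.DeltaSlash.discriminant_smul ModularGroup.T τ
  rw [UpperHalfPlane.modular_T_smul] at h
  rw [h]
  simp [ModularGroup.T]

lemma discriminant_isHolCusp_one : IsHolCusp (1 : ℝ) ModularForm.discriminant where
  holo := CuspForm.discriminant.holo'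
  per := periodic_comp_ofComplex discriminant_vadd_one
  bdd := (ModularForm.discriminant_isZeroAtImInfty).isBigO_one ℝ

lemma ofPowerSeries_map_int_coeff_mem (p : PowerSeries ℤ) (n : ℤ) :
    (HahnSeries.ofPowerSeries ℤ ℂ (PowerSeries.map (Int.castRingHom ℂ) p)).coeff n ∈
      iota.fieldRange := by
  by_cases hn : n < 0
  · rw [ModularCurve.ofPowerSeries_coeff_of_neg _ hn]
    exact zero_mem _
  · obtain ⟨m, rfl⟩ : ∃ m : ℕ, n = (m : ℤ) := ⟨n.toNat, by omega⟩
    rw [HahnSeries.ofPowerSeries_apply_coeff, PowerSeries.coeff_map]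
    exact intCast_mem _ _

lemma discriminant_isMerCusp (N : ℕ) [NeZero N] :
    IsMerCusp (N : ℝ) ModularForm.discriminant := by
  have h := discriminant_isHolCusp_one.isMerCusp.mul_period one_pos (NeZero.pos N)
  simpa using h

lemma laurentFun_discriminant_coeff_mem (N : ℕ) [NeZero N] (n : ℤ) :
    (laurentFun (N : ℝ) ModularForm.discriminant).coeff n ∈ iota.fieldRange := by
  have h := laurentFun_mul_period one_pos discriminant_isHolCusp_one.isMerCusp (NeZero.pos N) n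
  rw [mul_one] at h
  rw [h]
  split_ifs with hd
  · rw [laurentFun_of_isHolCusp one_pos discriminant_isHolCusp_one,
      Fermat.Agent.Lib.JqAnalytic.qExpansion_discriminant_eq_X_mul]
    exact ofPowerSeries_map_int_coeff_mem _ _
  · exact zero_mem _

theorem discriminant_mem_ratFun (N : ℕ) [NeZero N] : ModularForm.discriminant ∈ ratFun N :=
  mem_ratFun_iff.mpr ⟨discriminant_isMerCusp N, laurentFun_discriminant_coeff_mem N⟩

/-- `Δ / t` is bounded at `i∞`, `t = exp(2πiτ/N)`. -/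
lemma isBounded_discriminant_div_tParam (N : ℕ) [NeZero N] :
    IsBoundedAtImInfty (fun τ : ℍ => ModularForm.discriminant τ * (tParam (N : ℝ) τ)⁻¹) := by
  have h1 : (fun τ : ℍ => ModularForm.discriminant τ * (tParam (N : ℝ) τ)⁻¹) =O[atImInfty]
      prodFactor := by
    refine Asymptotics.isBigO_of_le _ fun τ => ?_
    have hN1 : (1 : ℝ) ≤ N := by exact_mod_cast NeZero.one_le
    have hpos : (0 : ℝ) < N := by linarith
    rw [norm_mul, norm_inv, norm_discriminant_eq, tParam, Function.Periodic.norm_qParam,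
      mul_right_comm, ← Real.exp_neg, ← Real.exp_add]
    have hle : Real.exp (-2 * π * τ.im + -(-2 * π * (τ : ℂ).im / N)) ≤ 1 := by
      rw [Real.exp_le_one_iff]
      have him : (τ : ℂ).im = τ.im := rfl
      rw [him]
      have hy := τ.im_pos
      have hpi := Real.pi_pos
      have h2 : 2 * π * τ.im / N ≤ 2 * π * τ.im := by
        rw [div_le_iff₀ hpos]
        nlinarith [mul_pos hpi hy]
      have h3 : -(-2 * π * τ.im / N) = 2 * π * τ.im / N := by ring
      rw [h3]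
      linarith
    calc Real.exp (-2 * π * τ.im + -(-2 * π * (τ : ℂ).im / N)) * ‖prodFactor τ‖
        ≤ 1 * ‖prodFactor τ‖ := mul_le_mul_of_nonneg_right hle (norm_nonneg _)
      _ = ‖prodFactor τ‖ := one_mul _
  exact h1.trans (tendsto_prodFactor.isBigO_one ℝ)

end Fermat.Agent.S24.ModRing

/-! ## The statements of the plan (package B4), under the plan's names -/

namespace Fermat.Agent.S24

open UpperHalfPlane Filter Topology
open scoped MatrixGroups Manifold Real
open Fermat.Agent.Lib.CuspLaurent Fermat.Agent.S24.ModRing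

theorem finite_modGens (N : ℕ) [NeZero N] : (modGens N).Finite := modGens_finite N

theorem smul_mem_modGens (N : ℕ) (γ : SL(2, ℤ)) {f : ℍ → ℂ} (hf : f ∈ modGens N) :
    (fun τ => f (γ • τ)) ∈ modGens N := comp_smul_mem_modGens hf γ

/-- `Q̄`-rational `t = q^{1/N}`-expansion with a finite order pole: for every `f ∈ RN N` some
`Δ^m · f` is a power series in `t` with coefficients in `iota Q̄`, convergent on all of `ℍ`. -/
theorem exists_hasSum_of_mem_RN (N : ℕ) [NeZero N] {f : ℍ → ℂ} (hf : f ∈ RN N) :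
    ∃ (m : ℕ) (a : ℕ → Kbar), ∀ τ : ℍ,
      HasSum (fun n : ℕ => Basic.iota (a n) * Function.Periodic.qParam (N : ℝ) (τ : ℂ) ^ n)
        (ModularForm.discriminant τ ^ m * f τ) := by
  have hh : (0 : ℝ) < (N : ℝ) := Nat.cast_pos.mpr (NeZero.pos N)
  have hfm : IsMerCusp (N : ℝ) f := RN_le_merCusp N hf
  obtain ⟨k, hk⟩ := hfm.exists_bdd
  have hg_rat : ModularForm.discriminant ^ k * f ∈ ratFun N :=
    mul_mem (pow_mem (discriminant_mem_ratFun N) k) (RN_le_ratFun N hf)
  obtain ⟨hgm, hcoef⟩ := mem_ratFun_iff.mp hg_rat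
  have hgm' : IsMerCusp (N : ℝ) (ModularForm.discriminant ^ k * f) := hgm
  have hbd : IsBoundedAtImInfty (ModularForm.discriminant ^ k * f) := by
    have e : ModularForm.discriminant ^ k * f =
        (fun τ : ℍ => ModularForm.discriminant τ * (tParam (N : ℝ) τ)⁻¹) ^ k *
          (tParam (N : ℝ) ^ k * f) := by
      funext τ
      simp only [Pi.mul_apply, Pi.pow_apply]
      have ht : tParam (N : ℝ) τ ≠ 0 := tParam_ne_zero _ _
      rw [mul_pow, inv_pow]
      field_simp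
    rw [e]
    have h1 : IsBoundedAtImInfty
        ((fun τ : ℍ => ModularForm.discriminant τ * (tParam (N : ℝ) τ)⁻¹) ^ k) := by
      have hb := isBounded_discriminant_div_tParam N
      clear e hcoef hgm hgm' hg_rat hk
      induction k with
      | zero => rw [pow_zero]; exact Filter.const_boundedAtFilter atImInfty (1 : ℂ)
      | succ k ih => rw [pow_succ]; exact ih.mul hb
    exact h1.mul hk
  have hbd0 : IsBoundedAtImInfty (tParam (N : ℝ) ^ 0 * (ModularForm.discriminant ^ k * f)) := by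
    simpa using hbd
  choose a ha using fun n : ℕ => hcoef (n : ℤ)
  refine ⟨k, a, fun τ => ?_⟩
  have hsum := hasSum_laurentFun hh hgm' hbd0 τ
  have e1 : (fun n : ℕ => Basic.iota (a n) * Function.Periodic.qParam (N : ℝ) (τ : ℂ) ^ n) =
      fun m : ℕ => (laurentFun (N : ℝ) (ModularForm.discriminant ^ k * f)).coeff
        ((m : ℤ) - ((0 : ℕ) : ℤ)) * tParam (N : ℝ) τ ^ m := by
    funext n
    rw [ha n, laurent_apply]
    simp [tParam]
  rw [e1]
  simpa using hsum

end Fermat.Agent.S24
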