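/-
S24 (genus of X₀(N)) — shared basic definitions.  Owner: helper24.
Only definitions and trivial facts: everything else lives in the package files.
-/
import Mathlib
import Fermat.Prelude.Def_ModularCurve_ArithmeticGalois
import Fermat.Prelude.Def_ModularCurve_GenusNumerics
import Fermat.Prelude.Def_AlgebraicCurve_CanonicalDivisor

set_option autoImplicit false

noncomputable section

namespace Fermat.Agent.S24.Basic

open UpperHalfPlane

/-- The fixed embedding of `Q̄` into `ℂ` used to evaluate `Q̄`-rational series. -/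
def iota : AlgebraicClosure ℚ →+* ℂ :=
  letI : Algebra ℚ (AlgebraicClosure ℚ) := AlgebraicClosure.instAlgebra ℚ
  haveI : Algebra.IsAlgebraic ℚ (AlgebraicClosure ℚ) := AlgebraicClosure.isAlgebraic ℚ
  (IsAlgClosed.lift (R := ℚ) (S := AlgebraicClosure ℚ) (M := ℂ)).toRingHom

theorem iota_injective : Function.Injective iota := iota.injective

/-- The analytic `j`-invariant `E₄³ / Δ = q⁻¹ + 744 + …` on the upper half plane. -/
def jC (τ : ℍ) : ℂ := ModularForm.E₄ τ ^ 3 / ModularForm.discriminant τ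

/-- The function `τ ↦ j ((a τ + b) / d)` (junk unless `0 < a`, `0 < d`). -/
def jM (a b d : ℕ) (τ : ℍ) : ℂ := jC (ofComplex (((a : ℂ) * (τ : ℂ) + (b : ℂ)) / (d : ℂ)))

/-- The elliptic point `ρ = e^{2πi/3}`. -/
def rho : ℍ := ⟨⟨-1 / 2, Real.sqrt 3 / 2⟩, by
  show (0 : ℝ) < Real.sqrt 3 / 2
  positivity⟩

theorem coe_rho : (rho : ℂ) = ⟨-1 / 2, Real.sqrt 3 / 2⟩ := rfl

end Fermat.Agent.S24.Basic
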