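import Mathlib
import Fermat.Prelude.Def_AlgebraicCurve_CanonicalDivisor
import Fermat.Prelude.Def_ModularCurve_ArithmeticGalois

/-!
# S24 — shared definitions (helper25)

Definitions only (no theorems): the vocabulary in which the S24 packages are stated.
-/

set_option autoImplicit false

namespace Fermat.Agent.S24

open AlgebraicCurve IntermediateField

/-- `F / K` is a function field in one variable: there is `x ∈ F` transcendental over `K`
with `F / K(x)` finite. -/
class IsFF1 (K F : Type*) [Field K] [Field F] [Algebra K F] : Prop where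
  exists_gen : ∃ x : F, Transcendental K x ∧ FiniteDimensional K⟮x⟯ F

section places

variable (K : Type*) {F : Type*} [Field K] [Field F] [Algebra K F]

/-- The places of `F / K` at which `f` has a zero. -/
def zerosOf (f : F) : Set (Place K F) := {w | 0 < w.ord f}

/-- The places of `F / K` at which `f` has a pole. -/
def polesOf (f : F) : Set (Place K F) := {w | w.ord f < 0}

end places

section tower

variable {K F M : Type*} [Field K] [Field F] [Field M] [Algebra K F] [Algebra K M] [Algebra F M]

/-- The place `W` of `M` lies over the place `w` of `F`. -/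
def PlaceLiesOver (W : Place K M) (w : Place K F) : Prop :=
  ∀ f : F, algebraMap F M f ∈ W.toValuationSubring ↔ f ∈ w.toValuationSubring

variable (F) in
/-- The subgroup of `G ≤ Aut_K(M)` fixing the image of `F` pointwise. -/
def fixerOf (G : Subgroup (M ≃ₐ[K] M)) : Subgroup G where
  carrier := {σ | ∀ f : F, (σ : M ≃ₐ[K] M) (algebraMap F M f) = algebraMap F M f}
  mul_mem' := fun {σ τ} hσ hτ f => by
    show (σ : M ≃ₐ[K] M) ((τ : M ≃ₐ[K] M) (algebraMap F M f)) = algebraMap F M f
    rw [hτ f, hσ f]
  one_mem' := fun _ => rfl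
  inv_mem' := fun {σ} hσ f => by
    have h := hσ f
    show (σ : M ≃ₐ[K] M)⁻¹ (algebraMap F M f) = algebraMap F M f
    conv_lhs => rw [← h]
    exact (σ : M ≃ₐ[K] M).symm_apply_apply _

end tower

section datum

open ModularCurve CongruenceSubgroup MatrixGroups ModularGroup

/-- `Q̄`. -/
abbrev Kbar : Type := AlgebraicClosure ℚ

/-- The Prelude function field of `X₀(N)` over `Q̄`, as a type. -/
abbrev FN (N : ℕ) : Type := ↥(modularFunctionFieldBar N)

theorem jq_mem_full (N : ℕ) [NeZero N] : jq ∈ modularFunctionFieldFull N := by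
  have h := jqd_mem_full N (one_dvd N)
  rwa [qExpand_one_apply] at h

/-- The element `j` of the Prelude function field. -/
noncomputable def jBar (N : ℕ) [NeZero N] : FN N :=
  ⟨coeffEmb Kbar jq, coeffEmb_mem_laurentBaseChange Kbar (jq_mem_full N)⟩

/-- The element `j(q^d)` of the Prelude function field, for `d ∣ N`. -/
noncomputable def jBarLevel (N : ℕ) [NeZero N] (d : ℕ) [NeZero d] (hd : d ∣ N) : FN N :=
  ⟨coeffEmb Kbar (qExpand ℚ d jq), coeffEmb_mem_laurentBaseChange Kbar (jqd_mem_full N hd)⟩

/-- The analytic input of S24: a Galois closure `M` of `F_N / Q̄(j)` on which `SL(2,ℤ)` acts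
through its finite quotient `Gal(M / Q̄(j))`, with the three special places. -/
structure IsModularDatum (N : ℕ) [NeZero N] (M : Type) [Field M] [Algebra Kbar M]
    [Algebra (FN N) M] (ρ : SL(2, ℤ) →* (M ≃ₐ[Kbar] M)) : Prop where
  finite_range : Finite ρ.range
  neg_one : ρ (-1) = 1
  fix_j : ∀ γ, ρ γ (algebraMap (FN N) M (jBar N)) = algebraMap (FN N) M (jBar N)
  fixed : ∀ m : M, (∀ γ, ρ γ m = m) → m ∈ Kbar⟮algebraMap (FN N) M (jBar N)⟯
  fixer : ∀ γ, (∀ f : FN N, ρ γ (algebraMap (FN N) M f) = algebraMap (FN N) M f) ↔ γ ∈ Gamma0 N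
  exists_two : ∃ W : Place Kbar M,
    0 < W.ord (algebraMap (FN N) M (jBar N) - algebraMap Kbar M 1728) ∧
    W.ord (algebraMap (FN N) M (jBar N) - algebraMap Kbar M 1728) ≤ 2 ∧ ρ S • W = W
  exists_three : ∃ W : Place Kbar M,
    0 < W.ord (algebraMap (FN N) M (jBar N)) ∧
    W.ord (algebraMap (FN N) M (jBar N)) ≤ 3 ∧ ρ (S * T) • W = W
  exists_cusp : ∃ W : Place Kbar M,
    W.ord (algebraMap (FN N) M (jBar N)) < 0 ∧
    -(N : ℤ) ≤ W.ord (algebraMap (FN N) M (jBar N)) ∧ ρ T • W = W
  exists_generic : ∀ a : Kbar, a ≠ 0 → a ≠ 1728 → ∃ W : Place Kbar M,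
    W.ord (algebraMap (FN N) M (jBar N) - algebraMap Kbar M a) = 1

end datum

end Fermat.Agent.S24
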