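/-
S24 — shared definitions of the analytic tower (owner: helper24).

* `constFun c`   : the constant function `iota c` on `ℍ` (`c : Q̄`).
* `IsHolStable R`: `R` is a subring of holomorphic functions on `ℍ`, containing the constants
                   `iota Q̄` and stable under `SL(2,ℤ)`.
* `modGen d γ`   : the function `τ ↦ j (d · (γ τ))`.
* `RN N`         : the subring generated by the constants and the `modGen d γ`, `d ∣ N`.
The field of the Galois closure is `FractionRing (RN N)`.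
-/
import Mathlib
import Fermat.Agent.S24.Basic
import Fermat.Agent.S24.Defs
import Fermat.Agent.Lib.JStab

set_option autoImplicit false

noncomputable section

namespace Fermat.Agent.S24

open UpperHalfPlane Fermat.Agent.Lib.JStab
open scoped MatrixGroups Manifold

/-- The constant function with value `iota c`. -/
def constFun (c : Kbar) : ℍ → ℂ := fun _ => Basic.iota c

/-- A subring of holomorphic functions on `ℍ` containing the constants `iota Q̄` and stable
under `SL(2,ℤ)`. -/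
class IsHolStable (R : Subring (ℍ → ℂ)) : Prop where
  mdiff : ∀ f ∈ R, MDiff f
  const_mem : ∀ c : Kbar, constFun c ∈ R
  smul_mem : ∀ (γ : SL(2, ℤ)) (f : ℍ → ℂ), f ∈ R → (fun τ => f (γ • τ)) ∈ R

/-- Two holomorphic functions on `ℍ` with zero product: one of them vanishes. -/
theorem eq_zero_or_eq_zero_of_mdiff {f g : ℍ → ℂ} (hf : MDiff f) (hg : MDiff g)
    (h : f * g = 0) : f = 0 ∨ g = 0 := by
  by_contra hcon
  push Not at hcon
  obtain ⟨hf0, hg0⟩ := hcon
  obtain ⟨τ₀, hτ₀⟩ : ∃ τ, f τ ≠ 0 := by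
    by_contra hne
    push Not at hne
    exact hf0 (funext hne)
  have hfd := UpperHalfPlane.mdifferentiable_iff.mp hf
  have hgd := UpperHalfPlane.mdifferentiable_iff.mp hg
  have hU : IsOpen upperHalfPlaneSet := isOpen_upperHalfPlaneSet
  have hconn : IsPreconnected upperHalfPlaneSet :=
    (convex_halfSpace_im_gt 0).isPreconnected
  have hga : AnalyticOnNhd ℂ (g ∘ ofComplex) upperHalfPlaneSet := hgd.analyticOnNhd hU
  have hτmem : (τ₀ : ℂ) ∈ upperHalfPlaneSet := τ₀.im_pos
  have hfc : ContinuousAt (f ∘ ofComplex) (τ₀ : ℂ) :=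
    (hfd.differentiableAt (hU.mem_nhds hτmem)).continuousAt
  have hfne : ∀ᶠ z in nhds (τ₀ : ℂ), (f ∘ ofComplex) z ≠ 0 := by
    refine hfc.eventually_ne ?_
    simpa [Function.comp, ofComplex_apply] using hτ₀
  have hgz : (g ∘ ofComplex) =ᶠ[nhds (τ₀ : ℂ)] 0 := by
    filter_upwards [hfne] with z hz
    have hz' := congrFun h (ofComplex z)
    simp only [Pi.mul_apply, Pi.zero_apply, mul_eq_zero] at hz'
    rcases hz' with hz' | hz'
    · exact absurd hz' hz
    · exact hz'
  have hall := hga.eqOn_zero_of_preconnected_of_eventuallyEq_zero hconn hτmem hgz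
  apply hg0
  funext τ
  have := hall τ.im_pos
  simpa [Function.comp, ofComplex_apply] using this

instance instIsDomainOfIsHolStable (R : Subring (ℍ → ℂ)) [IsHolStable R] : IsDomain R := by
  have : NoZeroDivisors R := by
    refine ⟨fun {a b} hab => ?_⟩
    have h : (a : ℍ → ℂ) * (b : ℍ → ℂ) = 0 := by
      have := congrArg Subtype.val hab
      simpa using this
    rcases eq_zero_or_eq_zero_of_mdiff (IsHolStable.mdiff _ a.2) (IsHolStable.mdiff _ b.2) h
      with h0 | h0
    · exact Or.inl (Subtype.ext h0)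
    · exact Or.inr (Subtype.ext h0)
  exact NoZeroDivisors.to_isDomain R

/-- The constants, as a ring hom `Q̄ → R`. -/
def constHom (R : Subring (ℍ → ℂ)) [IsHolStable R] : Kbar →+* R where
  toFun c := ⟨constFun c, IsHolStable.const_mem c⟩
  map_one' := by ext τ; simp [constFun]
  map_mul' a b := by ext τ; simp [constFun]
  map_zero' := by ext τ; simp [constFun]
  map_add' a b := by ext τ; simp [constFun]

instance instAlgebraKbarOfIsHolStable (R : Subring (ℍ → ℂ)) [IsHolStable R] : Algebra Kbar R :=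
  (constHom R).toAlgebra

theorem algebraMap_apply_coe (R : Subring (ℍ → ℂ)) [IsHolStable R] (c : Kbar) :
    ((algebraMap Kbar R c : R) : ℍ → ℂ) = constFun c := rfl

/-- The translate `f ∘ γ` of an element of a stable ring. -/
def translate (R : Subring (ℍ → ℂ)) [IsHolStable R] (γ : SL(2, ℤ)) (f : R) : R :=
  ⟨fun τ => (f : ℍ → ℂ) (γ • τ), IsHolStable.smul_mem γ _ f.2⟩

@[simp]
theorem translate_apply (R : Subring (ℍ → ℂ)) [IsHolStable R] (γ : SL(2, ℤ)) (f : R) (τ : ℍ) :
    (translate R γ f : ℍ → ℂ) τ = (f : ℍ → ℂ) (γ • τ) := rfl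

/-- The generator `τ ↦ j (d · (γ τ))`. -/
def modGen (d : ℕ) (γ : SL(2, ℤ)) : ℍ → ℂ := fun τ => jN d (γ • τ)

/-- The generating set of `RN N`. -/
def modGens (N : ℕ) : Set (ℍ → ℂ) := {f | ∃ d : ℕ, d ∣ N ∧ ∃ γ : SL(2, ℤ), f = modGen d γ}

/-- The ring `R_N = Q̄[j (d γ τ) : d ∣ N, γ ∈ SL(2,ℤ)]` of functions on `ℍ`. -/
def RN (N : ℕ) : Subring (ℍ → ℂ) := Subring.closure (Set.range constFun ∪ modGens N)

theorem constFun_mem_RN (N : ℕ) (c : Kbar) : constFun c ∈ RN N :=
  Subring.subset_closure (Or.inl ⟨c, rfl⟩)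

theorem modGen_mem_RN {N d : ℕ} (hd : d ∣ N) (γ : SL(2, ℤ)) : modGen d γ ∈ RN N :=
  Subring.subset_closure (Or.inr ⟨d, hd, γ, rfl⟩)

theorem modGen_one (d : ℕ) : modGen d 1 = jN d := by
  funext τ
  simp [modGen]

theorem jN_mem_RN {N d : ℕ} (hd : d ∣ N) : jN d ∈ RN N := by
  rw [← modGen_one]
  exact modGen_mem_RN hd 1

theorem jN_one : jN 1 = jInv := by
  funext τ
  simp [jN, ofComplex_apply]

theorem jInv_mem_RN (N : ℕ) : jInv ∈ RN N := by
  rw [← jN_one]
  exact jN_mem_RN (one_dvd N)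

/-- `j` as an element of `RN N`. -/
def jR (N : ℕ) : RN N := ⟨jInv, jInv_mem_RN N⟩

@[simp]
theorem coe_jR (N : ℕ) : ((jR N : RN N) : ℍ → ℂ) = jInv := rfl

/-- `τ ↦ j (d τ)` as an element of `RN N`, for `d ∣ N`. -/
def jNR (N : ℕ) {d : ℕ} (hd : d ∣ N) : RN N := ⟨jN d, jN_mem_RN hd⟩

@[simp]
theorem coe_jNR (N : ℕ) {d : ℕ} (hd : d ∣ N) : ((jNR N hd : RN N) : ℍ → ℂ) = jN d := rfl

end Fermat.Agent.S24
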