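import Mathlib
import Fermat.Prelude.Def_AlgebraicCurve_DivisorClassGroup

/-!
# S24 package A0 — `PlaceBridge` (helper43)

Basic API for the Prelude `AlgebraicCurve.Place.ord` and its bridge with Mathlib valuations
and with the places attached to the height one primes of a Dedekind domain.
-/

set_option autoImplicit false

namespace Fermat.Agent.S24

open AlgebraicCurve
open scoped WithZero

section A0

variable {K F : Type*} [Field K] [Field F] [Algebra K F]

/-- the adic valuation of a place is `≤ 1` on the valuation ring. -/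
theorem PlaceBridge.adicValuation_le_one_of_mem (w : Place K F) {f : F}
    (hf : f ∈ w.toValuationSubring) : w.adicValuation f ≤ 1 := by
  have h := w.adicValuation_coe ⟨f, hf⟩
  rw [show ((⟨f, hf⟩ : w.toValuationSubring) : F) = f from rfl] at h
  rw [h]
  exact IsDedekindDomain.HeightOneSpectrum.intValuation_le_one _ _

theorem PlaceBridge.ord_nonneg_of_mem (w : Place K F) {f : F}
    (hf : f ∈ w.toValuationSubring) : 0 ≤ w.ord f := by
  rcases eq_or_ne f 0 with rfl | hf0
  · simp
  have h1 := PlaceBridge.adicValuation_le_one_of_mem w hf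
  have h2 : WithZero.log (w.adicValuation f) ≤ WithZero.log (1 : ℤᵐ⁰) :=
    (WithZero.log_le_log (w.adicValuation_ne_zero hf0) one_ne_zero).mpr h1
  rw [WithZero.log_one] at h2
  unfold Place.ord
  linarith

theorem mem_iff_ord_nonneg (w : Place K F) {f : F} (hf : f ≠ 0) :
    f ∈ w.toValuationSubring ↔ 0 ≤ w.ord f := by
  refine ⟨PlaceBridge.ord_nonneg_of_mem w, fun h => ?_⟩
  obtain ⟨π, hπ⟩ := IsDiscreteValuationRing.exists_irreducible w.toValuationSubring
  obtain ⟨u, hu⟩ := w.exists_unit_mul_zpow hf hπ
  rw [hu]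
  obtain ⟨n, hn⟩ := Int.eq_ofNat_of_zero_le h
  rw [hn, zpow_natCast]
  exact mul_mem (u : w.toValuationSubring).2 (pow_mem π.2 n)

theorem ord_algebraMap (w : Place K F) (a : K) : w.ord (algebraMap K F a) = 0 := by
  rcases eq_or_ne a 0 with rfl | ha
  · simp
  have h1 := PlaceBridge.ord_nonneg_of_mem w (w.algebraMap_mem' a)
  have h2 := PlaceBridge.ord_nonneg_of_mem w (w.algebraMap_mem' a⁻¹)
  rw [map_inv₀, Place.ord_inv] at h2
  linarith

theorem ord_add_ge (w : Place K F) {f g : F} (hf : f ≠ 0) (hg : g ≠ 0) (hfg : f + g ≠ 0) :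
    min (w.ord f) (w.ord g) ≤ w.ord (f + g) := by
  have h := w.adicValuation.map_add f g
  have h' : WithZero.log (w.adicValuation (f + g)) ≤
      max (WithZero.log (w.adicValuation f)) (WithZero.log (w.adicValuation g)) := by
    rcases le_max_iff.mp h with h1 | h1
    · exact le_max_of_le_left
        ((WithZero.log_le_log (w.adicValuation_ne_zero hfg) (w.adicValuation_ne_zero hf)).mpr h1)
    · exact le_max_of_le_right
        ((WithZero.log_le_log (w.adicValuation_ne_zero hfg) (w.adicValuation_ne_zero hg)).mpr h1)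
  unfold Place.ord
  rcases le_max_iff.mp h' with h1 | h1
  · exact le_trans (min_le_left _ _) (by linarith)
  · exact le_trans (min_le_right _ _) (by linarith)

theorem ord_add_eq_of_lt (w : Place K F) {f g : F} (hf : f ≠ 0) (hg : g ≠ 0)
    (h : w.ord f < w.ord g) : w.ord (f + g) = w.ord f := by
  have hlt : w.adicValuation g < w.adicValuation f := by
    have : WithZero.log (w.adicValuation g) < WithZero.log (w.adicValuation f) := by
      unfold Place.ord at h
      linarith
    exact (WithZero.log_lt_log (w.adicValuation_ne_zero hg) (w.adicValuation_ne_zero hf)).mp this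
  have := w.adicValuation.map_add_eq_of_lt_left hlt
  unfold Place.ord
  rw [this]

theorem ord_pow (w : Place K F) (f : F) (n : ℕ) : w.ord (f ^ n) = n * w.ord f := by
  have := w.ord_zpow f (n : ℤ)
  rwa [zpow_natCast] at this

/-- two places with the same valuation ring have the same `ord` (trivial) and a place is
determined by the sign of `ord`. -/
theorem place_ext_of_ord_nonneg {w w' : Place K F}
    (h : ∀ f : F, f ≠ 0 → (0 ≤ w.ord f ↔ 0 ≤ w'.ord f)) : w = w' := by
  apply Place.ext
  ext f
  rcases eq_or_ne f 0 with rfl | hf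
  · simp
  · rw [mem_iff_ord_nonneg w hf, mem_iff_ord_nonneg w' hf]
    exact h f hf

/-- A ℤ-valued (not necessarily normalised) valuation with the same valuation ring is a positive
multiple of `ord`. -/
theorem exists_mul_ord_eq (w : Place K F) (v : Valuation F ℤᵐ⁰)
    (hv : v.valuationSubring = w.toValuationSubring) :
    ∃ e : ℕ, 0 < e ∧ ∀ f : F, f ≠ 0 → -(WithZero.log (v f)) = e * w.ord f := by
  have hmem : ∀ x : F, x ∈ w.toValuationSubring ↔ v x ≤ 1 := by
    intro x
    rw [← hv]
    exact Valuation.mem_valuationSubring_iff v x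
  have hunit : ∀ u : (w.toValuationSubring)ˣ, v ((u : w.toValuationSubring) : F) = 1 := by
    intro u
    have h1 : v ((u : w.toValuationSubring) : F) ≤ 1 := (hmem _).mp (u : w.toValuationSubring).2
    have h2 : v (((u⁻¹ : (w.toValuationSubring)ˣ) : w.toValuationSubring) : F) ≤ 1 :=
      (hmem _).mp ((u⁻¹ : (w.toValuationSubring)ˣ) : w.toValuationSubring).2
    have h3 : ((u : w.toValuationSubring) : F) *
        (((u⁻¹ : (w.toValuationSubring)ˣ) : w.toValuationSubring) : F) = 1 := by
      rw [← MulMemClass.coe_mul, Units.mul_inv]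
      rfl
    have h4 : v ((u : w.toValuationSubring) : F) *
        v (((u⁻¹ : (w.toValuationSubring)ˣ) : w.toValuationSubring) : F) = 1 := by
      rw [← map_mul, h3, map_one]
    refine le_antisymm h1 ?_
    calc (1 : ℤᵐ⁰) = v ((u : w.toValuationSubring) : F) *
          v (((u⁻¹ : (w.toValuationSubring)ˣ) : w.toValuationSubring) : F) := h4.symm
      _ ≤ v ((u : w.toValuationSubring) : F) * 1 := by gcongr
      _ = _ := mul_one _
  obtain ⟨π, hπ⟩ := IsDiscreteValuationRing.exists_irreducible w.toValuationSubring
  have hπ0 : (π : F) ≠ 0 := by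
    simpa [ne_eq, ZeroMemClass.coe_eq_zero] using hπ.ne_zero
  have hvπ0 : v (π : F) ≠ 0 := (Valuation.ne_zero_iff _).mpr hπ0
  have hvπ : v (π : F) < 1 := by
    refine lt_of_le_of_ne ((hmem _).mp π.2) ?_
    intro h1
    have h2 : ((π : F))⁻¹ ∈ w.toValuationSubring := by
      rw [hmem, map_inv₀, h1, inv_one]
    apply hπ.not_isUnit
    refine IsUnit.of_mul_eq_one (⟨(π : F)⁻¹, h2⟩ : w.toValuationSubring) ?_
    ext
    simp [hπ0]
  have hlog : WithZero.log (v (π : F)) < 0 := by
    have := (WithZero.log_lt_log hvπ0 one_ne_zero).mpr hvπ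
    rwa [WithZero.log_one] at this
  refine ⟨(-(WithZero.log (v (π : F)))).toNat, ?_, ?_⟩
  · omega
  · intro f hf
    obtain ⟨u, hu⟩ := w.exists_unit_mul_zpow hf hπ
    have he : (((-(WithZero.log (v (π : F)))).toNat : ℕ) : ℤ) = -(WithZero.log (v (π : F))) :=
      Int.toNat_of_nonneg (by omega)
    rw [he]
    conv_lhs => rw [hu]
    rw [map_mul, hunit u, one_mul, map_zpow₀, WithZero.log_zpow, smul_eq_mul]
    ring

end A0

/-! ## Dedekind part -/

section dedekind

open IsDedekindDomain

variable {K F : Type*} [Field K] [Field F] [Algebra K F]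
variable {R : Type*} [CommRing R] [IsDedekindDomain R] [Algebra R F] [IsFractionRing R F]
  [Algebra K R] [IsScalarTower K R F]

/-- Prelude `ord` of the place attached to a height one prime is the `P`-adic valuation. -/
theorem ord_ofHeightOneSpectrum (P : HeightOneSpectrum R) (f : F) :
    (Place.ofHeightOneSpectrum (K := K) P).ord f = -(WithZero.log (P.valuation F f)) := by
  rcases eq_or_ne f 0 with rfl | hf
  · simp
  obtain ⟨e, he, h⟩ := exists_mul_ord_eq (Place.ofHeightOneSpectrum (K := K) P) (P.valuation F) rfl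
  obtain ⟨π, hπ⟩ := P.valuation_exists_uniformizer F
  have hπ0 : π ≠ 0 := by
    rintro rfl
    rw [map_zero] at hπ
    exact WithZero.exp_ne_zero hπ.symm
  have h1 := h π hπ0
  rw [hπ, WithZero.log_exp] at h1
  have he1 : (e : ℤ) = 1 := by
    have hdvd : (e : ℤ) ∣ 1 := ⟨_, by simpa using h1⟩
    exact Int.eq_one_of_dvd_one (by positivity) hdvd
  have h2 := h f hf
  rw [he1, one_mul] at h2
  exact h2.symm

theorem ofHeightOneSpectrum_injective :
    Function.Injective (Place.ofHeightOneSpectrum (K := K) (F := F) (R := R)) := by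
  intro P Q h
  apply HeightOneSpectrum.eq_of_valuation_isEquiv_valuation (K := F)
  rw [Valuation.isEquiv_iff_valuationSubring]
  exact congrArg Place.toValuationSubring h

theorem algebraMap_mem_ofHeightOneSpectrum (P : HeightOneSpectrum R) (r : R) :
    algebraMap R F r ∈ (Place.ofHeightOneSpectrum (K := K) (F := F) P).toValuationSubring := by
  rw [Place.ofHeightOneSpectrum_toValuationSubring, Valuation.mem_valuationSubring_iff]
  exact P.valuation_le_one r

/-- A place whose valuation ring contains the image of `R` comes from a height one prime. -/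
theorem exists_eq_ofHeightOneSpectrum (w : Place K F)
    (h : ∀ r : R, algebraMap R F r ∈ w.toValuationSubring) :
    ∃ P : HeightOneSpectrum R, w = Place.ofHeightOneSpectrum (K := K) P := by
  let φ : R →+* w.toValuationSubring :=
    (algebraMap R F).codRestrict w.toValuationSubring.toSubring h
  let P : Ideal R := (IsLocalRing.maximalIdeal w.toValuationSubring).comap φ
  have hPprime : P.IsPrime := Ideal.comap_isPrime φ _
  have hunit : ∀ s : R, s ∉ P → (algebraMap R F s)⁻¹ ∈ w.toValuationSubring := by
    intro s hs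
    have hsu : IsUnit (φ s) := by
      by_contra hnu
      exact hs hnu
    obtain ⟨u, hu⟩ := hsu
    have h1 : ((u⁻¹ : (w.toValuationSubring)ˣ) : F) = (algebraMap R F s)⁻¹ := by
      have h2 : ((u : w.toValuationSubring) : F) = algebraMap R F s := by rw [hu]; rfl
      rw [← h2]
      have h3 : ((u : w.toValuationSubring) : F) * ((u⁻¹ : (w.toValuationSubring)ˣ) : F) = 1 := by
        rw [← MulMemClass.coe_mul, Units.mul_inv]; rfl
      exact eq_inv_of_mul_eq_one_right h3
    rw [← h1]
    exact (u⁻¹ : (w.toValuationSubring)ˣ).1.2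
  have hPne : P ≠ ⊥ := by
    intro hbot
    apply w.ne_top'
    ext f
    simp only [ValuationSubring.mem_top, iff_true]
    obtain ⟨b, s, hs, rfl⟩ := IsFractionRing.div_surjective (A := R) f
    have hs0 : s ≠ 0 := nonZeroDivisors.ne_zero hs
    have hsP : s ∉ P := by rw [hbot]; exact hs0
    rw [div_eq_mul_inv]
    exact mul_mem (h b) (hunit s hsP)
  let Q : HeightOneSpectrum R := ⟨P, hPprime, hPne⟩
  refine ⟨Q, ?_⟩
  apply Place.ext
  rw [Place.ofHeightOneSpectrum_toValuationSubring,
    ← HeightOneSpectrum.valuationSubringAtPrime_eq_valuationSubring]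
  symm
  refine ValuationSubring.eq_of_le_of_ne_top _ ?_ w.ne_top'
  rintro x ⟨a, s, hs, rfl⟩
  exact mul_mem (h a) (hunit s hs)

/-- the Prelude adic valuation of the place attached to `P` is the `P`-adic valuation. -/
theorem PlaceBridge.adicValuation_ofHeightOneSpectrum (P : HeightOneSpectrum R) (f : F) :
    (Place.ofHeightOneSpectrum (K := K) P).adicValuation f = P.valuation F f := by
  rcases eq_or_ne f 0 with rfl | hf
  · simp
  have h := ord_ofHeightOneSpectrum (K := K) P f
  unfold Place.ord at h
  have h' : WithZero.log ((Place.ofHeightOneSpectrum (K := K) P).adicValuation f)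
      = WithZero.log (P.valuation F f) := by linarith
  have h1 := WithZero.exp_log ((Place.ofHeightOneSpectrum (K := K) P).adicValuation_ne_zero hf)
  have h2 := WithZero.exp_log ((Valuation.ne_zero_iff (P.valuation F)).mpr hf)
  rw [← h1, ← h2, h']

/-- membership in the maximal ideal of the valuation ring of the place attached to `P`. -/
theorem PlaceBridge.mem_maximalIdeal_ofHeightOneSpectrum (P : HeightOneSpectrum R)
    (x : (Place.ofHeightOneSpectrum (K := K) (F := F) P).toValuationSubring) :
    x ∈ IsLocalRing.maximalIdeal (Place.ofHeightOneSpectrum (K := K) (F := F) P).toValuationSubring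
      ↔ P.valuation F (x : F) < 1 := by
  have hle : P.valuation F (x : F) ≤ 1 := (Valuation.mem_valuationSubring_iff _ _).mp x.2
  rw [IsLocalRing.mem_maximalIdeal, mem_nonunits_iff,
    ← (Place.ofHeightOneSpectrum (K := K) (F := F) P).adicValuation_coe_eq_one_iff,
    PlaceBridge.adicValuation_ofHeightOneSpectrum]
  exact ⟨fun h => lt_of_le_of_ne hle h, fun h => h.ne⟩

/-- `deg` of the place attached to `P` is the `K`-dimension of `R ⧸ P`. -/
theorem deg_ofHeightOneSpectrum (P : HeightOneSpectrum R) :
    (Place.ofHeightOneSpectrum (K := K) (F := F) P).deg = Module.finrank K (R ⧸ P.asIdeal) := by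
  let φ₀ : R →+* (Place.ofHeightOneSpectrum (K := K) (F := F) P).toValuationSubring :=
    (algebraMap R F).codRestrict _ (algebraMap_mem_ofHeightOneSpectrum (K := K) P)
  have hφ₀ : ∀ r : R, ((φ₀ r : (Place.ofHeightOneSpectrum (K := K) (F := F) P).toValuationSubring)
      : F) = algebraMap R F r := fun r => rfl
  let φ : R →ₐ[K] (Place.ofHeightOneSpectrum (K := K) (F := F) P).ResidueField :=
    { toRingHom := (IsLocalRing.residue _).comp φ₀
      commutes' := fun a => by
        have h1 : φ₀ (algebraMap K R a) = algebraMap K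
            (Place.ofHeightOneSpectrum (K := K) (F := F) P).toValuationSubring a := by
          ext
          rw [hφ₀, Place.coe_algebraMap, ← IsScalarTower.algebraMap_apply]
        show IsLocalRing.residue _ (φ₀ (algebraMap K R a)) = _
        rw [h1]
        rfl }
  have hφ : ∀ r : R, φ r = IsLocalRing.residue _ (φ₀ r) := fun r => rfl
  have hsurj : Function.Surjective φ := by
    intro y
    obtain ⟨x, rfl⟩ := IsLocalRing.residue_surjective y
    have hx : P.valuation F (x : F) ≤ 1 := (Valuation.mem_valuationSubring_iff _ _).mp x.2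
    obtain ⟨a, ha⟩ := P.exists_valuation_sub_lt_of_integer hx 1
    refine ⟨a, ?_⟩
    rw [hφ, ← sub_eq_zero, ← map_sub, IsLocalRing.residue_eq_zero_iff,
      PlaceBridge.mem_maximalIdeal_ofHeightOneSpectrum]
    have hcoe : ((φ₀ a - x : (Place.ofHeightOneSpectrum (K := K) (F := F) P).toValuationSubring)
        : F) = algebraMap R F a - (x : F) := rfl
    rw [hcoe]
    simpa using ha
  have hker : RingHom.ker φ = P.asIdeal := by
    ext r
    rw [RingHom.mem_ker]
    show φ r = 0 ↔ _
    rw [hφ, IsLocalRing.residue_eq_zero_iff, PlaceBridge.mem_maximalIdeal_ofHeightOneSpectrum,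
      hφ₀, HeightOneSpectrum.valuation_lt_one_iff_mem]
  have e1 : (R ⧸ RingHom.ker φ) ≃ₐ[K]
      (Place.ofHeightOneSpectrum (K := K) (F := F) P).ResidueField :=
    Ideal.quotientKerAlgEquivOfSurjective hsurj
  have e2 : (R ⧸ RingHom.ker φ) ≃ₐ[K] (R ⧸ P.asIdeal) :=
    Ideal.quotientEquivAlgOfEq K hker
  unfold Place.deg
  exact (e1.symm.trans e2).toLinearEquiv.finrank_eq

end dedekind

end Fermat.Agent.S24
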