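import Mathlib
import Fermat.Prelude.Def_AlgebraicCurve_CanonicalDivisor
import Fermat.Agent.S24.Defs
import Fermat.Agent.S24.PlaceBridge
import Fermat.Agent.Lib.PlaceChart
import Fermat.Agent.Lib.FFPlaces

/-!
# S24 — package A1 `PlaceBasic` (helper66)

Basic facts on places of a function field in one variable `F / K` over an algebraically closed
field of characteristic zero, in the exact shape of the S24 plan:

* constants are exactly the algebraic elements,
* every place has degree one and residue field `K`,
* the zeros (resp. poles) of a non-constant `f` are finite in number and, counted with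
  multiplicity, there are `[F : K(f)]` of them.

The chart dictionary "places ↔ primes of an integral closure" is `Lib/PlaceChart` (helper34) and
`Lib/FFPlaces` (helper66); the counting is `Ideal.sum_ramification_inertia_eq_finrank`.
-/

set_option autoImplicit false

namespace Fermat.Agent.S24

open AlgebraicCurve IntermediateField
open scoped WithZero

section A1

variable {K F : Type*} [Field K] [IsAlgClosed K] [CharZero K] [Field F] [Algebra K F]

theorem algebraMap_or_transcendental (f : F) :
    (∃ a : K, f = algebraMap K F a) ∨ Transcendental K f := by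
  by_cases h : Transcendental K f
  · exact Or.inr h
  · left
    have halg : IsAlgebraic K f := by rwa [Transcendental, not_not] at h
    have hint : IsIntegral K f := halg.isIntegral
    have hdeg := IsAlgClosed.degree_eq_one_of_irreducible K (minpoly.irreducible hint)
    obtain ⟨a, ha⟩ := minpoly.mem_range_of_degree_eq_one K f hdeg
    exact ⟨a, ha.symm⟩

theorem finiteDimensional_adjoin [IsFF1 K F] {f : F} (hf : Transcendental K f) :
    FiniteDimensional K⟮f⟯ F :=
  Lib.PlaceChart.IsFunctionField1.finite (IsFF1.exists_gen (K := K) (F := F)) hf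

theorem place_deg_eq_one [IsFF1 K F] (w : Place K F) : w.deg = 1 :=
  Lib.PlaceChart.deg_eq_one (IsFF1.exists_gen (K := K) (F := F)) w

/-- the residue field of every place is `K`. -/
theorem exists_residue [IsFF1 K F] (w : Place K F) {f : F} (hf : f ∈ w.toValuationSubring) :
    ∃ a : K, f = algebraMap K F a ∨ 0 < w.ord (f - algebraMap K F a) := by
  obtain ⟨a, ha⟩ := Lib.PlaceChart.exists_sub_mem_maximalIdeal
    (IsFF1.exists_gen (K := K) (F := F)) w ⟨f, hf⟩
  refine ⟨a, ?_⟩
  by_cases h0 : f - algebraMap K F a = 0
  · exact Or.inl (sub_eq_zero.mp h0)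
  · right
    rw [Lib.FFPlaces.ord_pos_iff w h0]
    have hmem : f - algebraMap K F a ∈ w.toValuationSubring :=
      sub_mem hf (w.algebraMap_mem' a)
    refine ⟨hmem, fun hinv => ?_⟩
    have hnu : ¬ IsUnit ((⟨f, hf⟩ : w.toValuationSubring) - algebraMap K w.toValuationSubring a) :=
      (IsLocalRing.mem_maximalIdeal _).mp ha
    apply hnu
    refine IsUnit.of_mul_eq_one ⟨_, hinv⟩ (Subtype.ext ?_)
    show (f - algebraMap K F a) * (f - algebraMap K F a)⁻¹ = 1
    exact mul_inv_cancel₀ h0

theorem zerosOf_finite [IsFF1 K F] {f : F} (hf : Transcendental K f) :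
    (zerosOf K f).Finite := by
  have := finiteDimensional_adjoin hf
  exact Lib.FFPlaces.finite_zeros_self hf

/-- `∑_{w : f(w) = 0} ord_w f = [F : K(f)]`. -/
theorem sum_ord_zerosOf [IsFF1 K F] {f : F} (hf : Transcendental K f) :
    ∑ᶠ w ∈ zerosOf K f, w.ord f = (Module.finrank K⟮f⟯ F : ℤ) := by
  have := finiteDimensional_adjoin hf
  exact Lib.FFPlaces.sum_ord_zeros_self hf

theorem polesOf_finite [IsFF1 K F] {f : F} (hf : Transcendental K f) :
    (polesOf K f).Finite := by
  have := finiteDimensional_adjoin hf
  exact Lib.FFPlaces.finite_poles hf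

theorem sum_ord_polesOf [IsFF1 K F] {f : F} (hf : Transcendental K f) :
    ∑ᶠ w ∈ polesOf K f, w.ord f = -(Module.finrank K⟮f⟯ F : ℤ) := by
  have := finiteDimensional_adjoin hf
  exact Lib.FFPlaces.sum_ord_poles hf

end A1

end Fermat.Agent.S24
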