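import Mathlib
import Fermat.Prelude.Def_AlgebraicCurve_CanonicalDivisor
import Fermat.Agent.S24.Defs

/-!
# S24 — package A6 `PlaceVal` (helper34)

A nontrivial `ℤ`-valued valuation on `M`, trivial on `K`, gives a place of `M / K`, and an
automorphism preserving the valuation fixes the place.
-/

set_option autoImplicit false

namespace Fermat.Agent.S24

open AlgebraicCurve
open scoped WithZero Pointwise

section A6

variable {K M : Type*} [Field K] [Field M] [Algebra K M]

/-- The valuation ring of a `ℤ`-valued valuation is a principal ideal ring. -/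
theorem PlaceVal.isPrincipalIdealRing_valuationSubring (v : Valuation M ℤᵐ⁰) :
    IsPrincipalIdealRing v.valuationSubring := by
  classical
  constructor
  intro I
  by_cases hI : I = ⊥
  · rw [hI]; exact bot_isPrincipal
  obtain ⟨a, haI, ha0⟩ : ∃ a ∈ I, a ≠ 0 := Submodule.exists_mem_ne_zero_of_ne_bot hI
  have hS : ∃ n : ℕ, ∃ a : v.valuationSubring, a ∈ I ∧ a ≠ 0 ∧
      (-(WithZero.log (v (a : M)))).toNat = n := ⟨_, a, haI, ha0, rfl⟩
  obtain ⟨a₀, ha₀I, ha₀0, hn⟩ := Nat.find_spec hS
  have hmin := fun m hm => Nat.find_min' hS (m := m) hm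
  have hval : ∀ b : v.valuationSubring, b ≠ 0 →
      v (b : M) ≠ 0 ∧ 0 ≤ -(WithZero.log (v (b : M))) := by
    intro b hb
    have hb0 : (b : M) ≠ 0 := by simpa using hb
    have h1 : v (b : M) ≠ 0 := (Valuation.ne_zero_iff _).mpr hb0
    refine ⟨h1, ?_⟩
    have h2 : v (b : M) ≤ 1 := b.2
    have h3 : WithZero.log (v (b : M)) ≤ 0 := by
      rw [WithZero.log_le_iff_le_exp h1, WithZero.exp_zero]; exact h2
    omega
  refine ⟨a₀, le_antisymm ?_ ?_⟩
  · intro b hb
    by_cases hb0 : b = 0
    · rw [hb0]; exact Submodule.zero_mem _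
    obtain ⟨hvb, hlb⟩ := hval b hb0
    obtain ⟨hva, hla⟩ := hval a₀ ha₀0
    have h1 : Nat.find hS ≤ (-(WithZero.log (v (b : M)))).toNat := hmin _ ⟨b, hb, hb0, rfl⟩
    rw [← hn] at h1
    have h2 : WithZero.log (v (b : M)) ≤ WithZero.log (v (a₀ : M)) := by omega
    rw [WithZero.log_le_log hvb hva] at h2
    have ha₀M : (a₀ : M) ≠ 0 := by simpa using ha₀0
    have hc : (b : M) / (a₀ : M) ∈ v.valuationSubring := by
      show v ((b : M) / (a₀ : M)) ≤ 1
      rw [map_div₀]
      exact div_le_one_of_le₀ h2 zero_le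
    have hbe : b = (⟨(b : M) / (a₀ : M), hc⟩ : v.valuationSubring) * a₀ := by
      ext
      simp only [MulMemClass.coe_mul]
      field_simp
    rw [hbe]
    exact Ideal.mul_mem_left _ _ (Ideal.mem_span_singleton_self a₀)
  · rw [Submodule.span_singleton_le_iff_mem]
    exact ha₀I

/-- A `ℤ`-valued valuation with the valuation ring of a place is a positive multiple of `ord`. -/
theorem PlaceVal.exists_mul_ord (W : Place K M) (v : Valuation M ℤᵐ⁰)
    (hv : W.toValuationSubring = v.valuationSubring) :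
    ∃ e : ℕ, 0 < e ∧ ∀ m : M, m ≠ 0 → -(WithZero.log (v m)) = e * W.ord m := by
  obtain ⟨π, hπ⟩ := IsDiscreteValuationRing.exists_irreducible W.toValuationSubring
  have hπ0 : (π : M) ≠ 0 := by simpa using hπ.ne_zero
  have hmem : ∀ x : M, x ∈ W.toValuationSubring ↔ v x ≤ 1 := by
    intro x; rw [hv]; rfl
  have hunit : ∀ u : W.toValuationSubringˣ, v ((u : W.toValuationSubring) : M) = 1 := by
    intro u
    have h1 : v ((u : W.toValuationSubring) : M) ≤ 1 := (hmem _).mp u.1.2
    have h2 : v (((u⁻¹ : W.toValuationSubringˣ) : W.toValuationSubring) : M) ≤ 1 :=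
      (hmem _).mp (u⁻¹ : W.toValuationSubringˣ).1.2
    have h3 : ((u : W.toValuationSubring) : M) *
        (((u⁻¹ : W.toValuationSubringˣ) : W.toValuationSubring) : M) = 1 := by
      rw [← MulMemClass.coe_mul, Units.mul_inv]; rfl
    have h4 : v ((u : W.toValuationSubring) : M) *
        v (((u⁻¹ : W.toValuationSubringˣ) : W.toValuationSubring) : M) = 1 := by
      rw [← map_mul, h3, map_one]
    refine le_antisymm h1 ?_
    calc (1 : ℤᵐ⁰) = v ((u : W.toValuationSubring) : M) *
        v (((u⁻¹ : W.toValuationSubringˣ) : W.toValuationSubring) : M) := h4.symm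
      _ ≤ v ((u : W.toValuationSubring) : M) * 1 := mul_le_mul_right h2 _
      _ = v ((u : W.toValuationSubring) : M) := mul_one _
  have hvπ0 : v (π : M) ≠ 0 := (Valuation.ne_zero_iff _).mpr hπ0
  have hvπ : v (π : M) < 1 := by
    have h1 : v (π : M) ≤ 1 := (hmem _).mp π.2
    refine lt_of_le_of_ne h1 fun h => hπ.not_isUnit ?_
    have h2 : ((π : M))⁻¹ ∈ W.toValuationSubring := by
      rw [hmem, map_inv₀, h, inv_one]
    refine isUnit_iff_exists_inv.mpr ⟨⟨_, h2⟩, ?_⟩
    ext
    simp only [MulMemClass.coe_mul]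
    exact mul_inv_cancel₀ hπ0
  have hlog : WithZero.log (v (π : M)) < 0 := by
    rw [WithZero.log_lt_iff_lt_exp hvπ0, WithZero.exp_zero]; exact hvπ
  refine ⟨(-(WithZero.log (v (π : M)))).toNat, by omega, fun m hm => ?_⟩
  obtain ⟨u, hu⟩ := W.exists_unit_mul_zpow hm hπ
  have h1 : v m = v (π : M) ^ (W.ord m) := by
    conv_lhs => rw [hu]
    rw [map_mul, hunit u, one_mul, map_zpow₀]
  rw [h1, WithZero.log_zpow, smul_eq_mul]
  have h2 : (((-(WithZero.log (v (π : M)))).toNat : ℕ) : ℤ) = -(WithZero.log (v (π : M))) :=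
    Int.toNat_of_nonneg (by omega)
  rw [h2]
  ring

/-- a nontrivial `ℤ`-valued valuation, trivial on `K`, gives a place. -/
theorem exists_place_of_valuation (v : Valuation M ℤᵐ⁰)
    (hK : ∀ a : K, a ≠ 0 → v (algebraMap K M a) = 1) (hnt : ∃ m : M, m ≠ 0 ∧ v m ≠ 1) :
    ∃ W : Place K M, W.toValuationSubring = v.valuationSubring ∧
      ∃ e : ℕ, 0 < e ∧ ∀ m : M, m ≠ 0 → -(WithZero.log (v m)) = e * W.ord m := by
  have hmemK : ∀ a : K, algebraMap K M a ∈ v.valuationSubring := by
    intro a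
    show v (algebraMap K M a) ≤ 1
    by_cases ha : a = 0
    · rw [ha, map_zero, map_zero]; exact zero_le
    · exact (hK a ha).le
  have hne : v.valuationSubring ≠ ⊤ := by
    obtain ⟨m, hm0, hm1⟩ := hnt
    intro htop
    have h1 : v m ≤ 1 := by
      have : m ∈ v.valuationSubring := by rw [htop]; exact ValuationSubring.mem_top m
      exact this
    have h2 : v m⁻¹ ≤ 1 := by
      have : m⁻¹ ∈ v.valuationSubring := by rw [htop]; exact ValuationSubring.mem_top _
      exact this
    have hvm0 : v m ≠ 0 := (Valuation.ne_zero_iff _).mpr hm0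
    rw [map_inv₀] at h2
    have h3 : 1 ≤ v m := by
      have := (inv_le_one₀ (zero_lt_iff.mpr hvm0)).mp h2
      exact this
    exact hm1 (le_antisymm h1 h3)
  let W : Place K M :=
    { toValuationSubring := v.valuationSubring
      algebraMap_mem' := hmemK
      ne_top' := hne
      isPrincipalIdealRing' := PlaceVal.isPrincipalIdealRing_valuationSubring v }
  exact ⟨W, rfl, PlaceVal.exists_mul_ord W v rfl⟩

theorem smul_eq_of_valuation_invariant (W : Place K M) (v : Valuation M ℤᵐ⁰)
    (hW : W.toValuationSubring = v.valuationSubring) (σ : M ≃ₐ[K] M)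
    (hσ : ∀ m : M, v (σ m) = v m) : σ • W = W := by
  apply Place.ext
  rw [Place.smul_toValuationSubring, hW]
  ext x
  rw [ValuationSubring.mem_pointwise_smul_iff_inv_smul_mem]
  show v (σ⁻¹ • x) ≤ 1 ↔ v x ≤ 1
  have h : v (σ⁻¹ • x) = v x := by
    have h1 := hσ (σ⁻¹ • x)
    rw [← h1]
    congr 1
    show σ (σ⁻¹ • x) = x
    rw [AlgEquiv.smul_def, AlgEquiv.aut_inv, AlgEquiv.apply_symm_apply]
  rw [h]

end A6

end Fermat.Agent.S24
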