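import Mathlib
import Fermat.Prelude.Def_AlgebraicCurve_CanonicalDivisor
import Fermat.Agent.S24.Defs
import Fermat.Agent.S24.PlaceVal
import Fermat.Agent.Lib.PlaceChart

/-!
# S24 — package A4 `PlaceExt` (helper34)

Places in a finite extension `M / F` of function fields over `K`: existence of a place above,
of the place below, and the ramification index.
-/

set_option autoImplicit false
set_option linter.unusedSectionVars false
set_option linter.style.haveILetI false

namespace Fermat.Agent.S24

open AlgebraicCurve IntermediateField Polynomial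
open scoped WithZero

section A4

variable {K F M : Type*} [Field K] [IsAlgClosed K] [CharZero K] [Field F] [Field M]
  [Algebra K F] [Algebra K M] [Algebra F M] [IsScalarTower K F M]

/-- Membership in the valuation ring of a place, via its normalised valuation. -/
theorem PlaceExt.mem_iff_adicValuation_le_one (W : Place K M) (x : M) :
    x ∈ W.toValuationSubring ↔ W.adicValuation x ≤ 1 := by
  constructor
  · intro hx
    exact W.heightOneSpectrum.valuation_le_one (K := M) (⟨x, hx⟩ : W.toValuationSubring)
  · intro hx
    obtain ⟨a, ha⟩ := IsDiscreteValuationRing.exists_lift_of_le_one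
      (A := W.toValuationSubring) (K := M) hx
    rw [← ha]
    exact a.2

/-- The restriction to `F` of the normalised valuation of a place of `M`. -/
noncomputable def PlaceExt.resVal (W : Place K M) : Valuation F ℤᵐ⁰ :=
  W.adicValuation.comap (algebraMap F M)

theorem PlaceExt.resVal_apply (W : Place K M) (f : F) :
    PlaceExt.resVal (F := F) W f = W.adicValuation (algebraMap F M f) := rfl

theorem PlaceExt.resVal_le_one_iff (W : Place K M) (f : F) :
    PlaceExt.resVal (F := F) W f ≤ 1 ↔ algebraMap F M f ∈ W.toValuationSubring :=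
  (PlaceExt.mem_iff_adicValuation_le_one W _).symm

/-- the two embeddings of `RatFunc K` into `M` agree. -/
theorem PlaceExt.algebraMap_ratEmb (x : F) (hx : Transcendental K x)
    (hx' : Transcendental K (algebraMap F M x)) (r : RatFunc K) :
    Fermat.Agent.Lib.PlaceChart.ratEmb (algebraMap F M x) hx' r =
      algebraMap F M (Fermat.Agent.Lib.PlaceChart.ratEmb x hx r) := by
  have h : (Fermat.Agent.Lib.PlaceChart.ratEmb (algebraMap F M x) hx' : RatFunc K →+* M) =
      (algebraMap F M).comp (Fermat.Agent.Lib.PlaceChart.ratEmb x hx : RatFunc K →+* F) := by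
    apply IsLocalization.ringHom_ext (nonZeroDivisors K[X])
    ext p
    · simp only [RingHom.coe_comp, RingHom.coe_coe, Function.comp_apply]
      rw [Fermat.Agent.Lib.PlaceChart.ratEmb_algebraMap,
        Fermat.Agent.Lib.PlaceChart.ratEmb_algebraMap, Polynomial.aeval_C, Polynomial.aeval_C,
        ← IsScalarTower.algebraMap_apply]
    · simp only [RingHom.coe_comp, RingHom.coe_coe, Function.comp_apply]
      rw [Fermat.Agent.Lib.PlaceChart.ratEmb_algebraMap,
        Fermat.Agent.Lib.PlaceChart.ratEmb_algebraMap, Polynomial.aeval_X, Polynomial.aeval_X]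
  exact congrArg (fun φ : RatFunc K →+* M => φ r) h

theorem isFF1_of_finite [IsFF1 K F] [FiniteDimensional F M] : IsFF1 K M := by
  obtain ⟨x, hx, hfin⟩ := IsFF1.exists_gen (K := K) (F := F)
  have hx' : Transcendental K (algebraMap F M x) :=
    (transcendental_algebraMap_iff (algebraMap F M).injective).mpr hx
  refine ⟨algebraMap F M x, hx', ?_⟩
  letI := Fermat.Agent.Lib.PlaceChart.algRat x hx
  letI := Fermat.Agent.Lib.PlaceChart.algRat (algebraMap F M x) hx'
  haveI : FunctionField K F := Fermat.Agent.Lib.PlaceChart.functionField_of_finite x hx hfin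
  haveI : IsScalarTower (RatFunc K) F M :=
    IsScalarTower.of_algebraMap_eq fun r => PlaceExt.algebraMap_ratEmb x hx hx' r
  haveI : FunctionField K M := FiniteDimensional.trans (RatFunc K) F M
  haveI := Fermat.Agent.Lib.PlaceChart.tower_base_rat (algebraMap F M x) hx'
  exact FunctionField.finiteDimensional_of_adjoin_transcendental hx'

theorem exists_place_liesOver [IsFF1 K F] [FiniteDimensional F M] (w : Place K F) :
    ∃ W : Place K M, PlaceLiesOver W w := by
  haveI : CharZero F := charZero_of_injective_algebraMap (algebraMap K F).injective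
  haveI : Algebra.IsSeparable F M := Algebra.IsSeparable.of_integral F M
  haveI : IsDedekindDomain (integralClosure w.toValuationSubring M) :=
    integralClosure.isDedekindDomain w.toValuationSubring F M
  haveI : IsFractionRing (integralClosure w.toValuationSubring M) M :=
    integralClosure.isFractionRing_of_finite_extension F M
  have hinj : Function.Injective
      (algebraMap w.toValuationSubring (integralClosure w.toValuationSubring M)) := by
    intro a b hab
    have h1 := congrArg (algebraMap (integralClosure w.toValuationSubring M) M) hab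
    rw [← IsScalarTower.algebraMap_apply, ← IsScalarTower.algebraMap_apply,
      IsScalarTower.algebraMap_apply w.toValuationSubring F M,
      IsScalarTower.algebraMap_apply w.toValuationSubring F M] at h1
    exact Subtype.ext ((algebraMap F M).injective h1)
  obtain ⟨Q, hQmax, hQ⟩ := Ideal.exists_ideal_over_maximal_of_isIntegral
    (S := integralClosure w.toValuationSubring M)
    (IsLocalRing.maximalIdeal w.toValuationSubring)
    (by rw [(RingHom.injective_iff_ker_eq_bot _).mp hinj]; exact bot_le)
  obtain ⟨π, hπ⟩ := IsDiscreteValuationRing.exists_irreducible w.toValuationSubring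
  have hQne : Q ≠ ⊥ := by
    intro hbot
    have h1 : π ∈ IsLocalRing.maximalIdeal w.toValuationSubring := by
      rw [IsLocalRing.mem_maximalIdeal]; exact hπ.not_isUnit
    rw [← hQ, hbot, Ideal.mem_comap, Ideal.mem_bot] at h1
    exact hπ.ne_zero (hinj (by rw [h1, map_zero]))
  let Qh : IsDedekindDomain.HeightOneSpectrum (integralClosure w.toValuationSubring M) :=
    ⟨Q, hQmax.isPrime, hQne⟩
  -- the image of `O_w` in `M` has valuation `≤ 1`
  have hle : ∀ a : w.toValuationSubring, Qh.valuation M (algebraMap F M (a : F)) ≤ 1 := by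
    intro a
    have h1 : algebraMap F M (a : F) = algebraMap (integralClosure w.toValuationSubring M) M
        (algebraMap w.toValuationSubring (integralClosure w.toValuationSubring M) a) := by
      rw [← IsScalarTower.algebraMap_apply,
        IsScalarTower.algebraMap_apply w.toValuationSubring F M]
      rfl
    rw [h1]
    exact Qh.valuation_le_one _
  -- the image of the maximal ideal has valuation `< 1`
  have hlt : ∀ a : w.toValuationSubring, a ∈ IsLocalRing.maximalIdeal w.toValuationSubring →
      Qh.valuation M (algebraMap F M (a : F)) < 1 := by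
    intro a ha
    have h1 : algebraMap F M (a : F) = algebraMap (integralClosure w.toValuationSubring M) M
        (algebraMap w.toValuationSubring (integralClosure w.toValuationSubring M) a) := by
      rw [← IsScalarTower.algebraMap_apply,
        IsScalarTower.algebraMap_apply w.toValuationSubring F M]
      rfl
    rw [h1, IsDedekindDomain.HeightOneSpectrum.valuation_lt_one_iff_mem]
    rw [← hQ] at ha
    exact ha
  have hK : ∀ a : K, a ≠ 0 → Qh.valuation M (algebraMap K M a) = 1 := by
    intro a ha
    have h1 : Qh.valuation M (algebraMap K M a) ≤ 1 := by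
      rw [IsScalarTower.algebraMap_apply K F M]
      exact hle ⟨algebraMap K F a, w.algebraMap_mem' a⟩
    have h2 : Qh.valuation M (algebraMap K M a⁻¹) ≤ 1 := by
      rw [IsScalarTower.algebraMap_apply K F M]
      exact hle ⟨algebraMap K F a⁻¹, w.algebraMap_mem' a⁻¹⟩
    rw [map_inv₀, map_inv₀] at h2
    have h0 : Qh.valuation M (algebraMap K M a) ≠ 0 :=
      (Valuation.ne_zero_iff _).mpr (by simpa using ha)
    exact le_antisymm h1 ((inv_le_one₀ (zero_lt_iff.mpr h0)).mp h2)
  have hπM : algebraMap F M (π : F) ≠ 0 := by
    have : (π : F) ≠ 0 := by simpa using hπ.ne_zero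
    simpa using this
  have hnt : ∃ m : M, m ≠ 0 ∧ Qh.valuation M m ≠ 1 :=
    ⟨algebraMap F M (π : F), hπM, (hlt π (by
      rw [IsLocalRing.mem_maximalIdeal]; exact hπ.not_isUnit)).ne⟩
  obtain ⟨W, hW, -⟩ := exists_place_of_valuation (K := K) (Qh.valuation M) hK hnt
  refine ⟨W, fun f => ?_⟩
  rw [hW]
  constructor
  · intro hf
    by_contra hfw
    have hf0 : f ≠ 0 := fun h => hfw (h ▸ w.toValuationSubring.zero_mem)
    have hinv : f⁻¹ ∈ w.toValuationSubring :=
      (w.toValuationSubring.mem_or_inv_mem f).resolve_left hfw
    have hmax : (⟨f⁻¹, hinv⟩ : w.toValuationSubring) ∈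
        IsLocalRing.maximalIdeal w.toValuationSubring := by
      rw [IsLocalRing.mem_maximalIdeal, mem_nonunits_iff]
      intro hu
      obtain ⟨u, hu⟩ := hu
      apply hfw
      have h3 : ((u : w.toValuationSubring) : F) *
          (((u⁻¹ : w.toValuationSubringˣ) : w.toValuationSubring) : F) = 1 := by
        rw [← MulMemClass.coe_mul, Units.mul_inv]; rfl
      rw [hu] at h3
      have h4 : (((u⁻¹ : w.toValuationSubringˣ) : w.toValuationSubring) : F) = f := by
        have h5 : f⁻¹ * (((u⁻¹ : w.toValuationSubringˣ) : w.toValuationSubring) : F) = 1 := h3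
        field_simp at h5
        exact h5
      rw [← h4]
      exact (u⁻¹ : w.toValuationSubringˣ).1.2
    have h1 := hlt _ hmax
    have h2 : Qh.valuation M (algebraMap F M f) ≤ 1 := hf
    rw [show ((⟨f⁻¹, hinv⟩ : w.toValuationSubring) : F) = f⁻¹ from rfl, map_inv₀, map_inv₀] at h1
    have h0 : Qh.valuation M (algebraMap F M f) ≠ 0 :=
      (Valuation.ne_zero_iff _).mpr (by simpa using hf0)
    have h3 : 1 ≤ (Qh.valuation M (algebraMap F M f))⁻¹ :=
      (one_le_inv₀ (zero_lt_iff.mpr h0)).mpr h2
    exact absurd h1 (not_lt.mpr h3)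
  · intro hf
    exact hle ⟨f, hf⟩

theorem exists_place_under [IsFF1 K F] [FiniteDimensional F M] (W : Place K M) :
    ∃ w : Place K F, PlaceLiesOver W w := by
  have hK : ∀ a : K, a ≠ 0 → PlaceExt.resVal (F := F) W (algebraMap K F a) = 1 := by
    intro a ha
    have h1 : PlaceExt.resVal (F := F) W (algebraMap K F a) ≤ 1 := by
      rw [PlaceExt.resVal_le_one_iff, ← IsScalarTower.algebraMap_apply]
      exact W.algebraMap_mem' a
    have h2 : PlaceExt.resVal (F := F) W (algebraMap K F a⁻¹) ≤ 1 := by
      rw [PlaceExt.resVal_le_one_iff, ← IsScalarTower.algebraMap_apply]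
      exact W.algebraMap_mem' a⁻¹
    rw [map_inv₀, map_inv₀] at h2
    have h0 : PlaceExt.resVal (F := F) W (algebraMap K F a) ≠ 0 :=
      (Valuation.ne_zero_iff _).mpr (by simpa using ha)
    exact le_antisymm h1 ((inv_le_one₀ (zero_lt_iff.mpr h0)).mp h2)
  have hnt : ∃ f : F, f ≠ 0 ∧ PlaceExt.resVal (F := F) W f ≠ 1 := by
    by_contra hcon
    push Not at hcon
    have hFmem : ∀ f : F, algebraMap F M f ∈ W.toValuationSubring := by
      intro f
      by_cases hf : f = 0
      · rw [hf, map_zero]; exact W.toValuationSubring.zero_mem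
      · rw [← PlaceExt.resVal_le_one_iff]; exact (hcon f hf).le
    apply W.ne_top'
    ext m
    simp only [ValuationSubring.mem_top, iff_true]
    obtain ⟨p, hp, hpe⟩ := Algebra.IsIntegral.isIntegral (R := F) m
    let φ : F →+* W.toValuationSubring :=
      (algebraMap F M).codRestrict W.toValuationSubring.toSubring hFmem
    have hint : IsIntegral W.toValuationSubring m := by
      refine ⟨p.map φ, hp.map φ, ?_⟩
      rw [Polynomial.eval₂_map]
      exact hpe
    obtain ⟨y, hy⟩ :=
      (IsIntegrallyClosed.isIntegral_iff (R := W.toValuationSubring) (K := M)).mp hint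
    rw [← hy]
    exact y.2
  obtain ⟨w, hw, -⟩ := exists_place_of_valuation (K := K) (PlaceExt.resVal (F := F) W) hK hnt
  refine ⟨w, fun f => ?_⟩
  rw [hw, ← PlaceExt.resVal_le_one_iff]
  rfl

theorem exists_ramificationIdx [IsFF1 K F] [FiniteDimensional F M] {W : Place K M}
    {w : Place K F} (h : PlaceLiesOver W w) :
    ∃ e : ℕ, 0 < e ∧ ∀ f : F, W.ord (algebraMap F M f) = e * w.ord f := by
  have hv : w.toValuationSubring = (PlaceExt.resVal (F := F) W).valuationSubring := by
    ext f
    rw [← h f, ← PlaceExt.resVal_le_one_iff]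
    rfl
  obtain ⟨e, he, hord⟩ := PlaceVal.exists_mul_ord w (PlaceExt.resVal (F := F) W) hv
  refine ⟨e, he, fun f => ?_⟩
  by_cases hf : f = 0
  · rw [hf, map_zero, Place.ord_zero, Place.ord_zero, mul_zero]
  · exact hord f hf

end A4

end Fermat.Agent.S24
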