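import Mathlib
import Fermat.Prelude.Def_AlgebraicCurve_CanonicalDivisor
import Fermat.Prelude.Def_ModularCurve_ArithmeticGalois
import Fermat.Agent.S24.Defs

/-!
# S24 — package A5 (a): the fixed-field part of `PlaceGalois` (helper9)

Setting of section A5 of the S24 plan: `K ⊆ F ⊆ M` fields, `G` a finite subgroup of
`Aut_K(M)`, `y ∈ F` transcendental over `K`, and the fixed field of `G` in `M` is `K(y)`.

Exports (namespace `Fermat.Agent.S24`):
* `isFF1_of_fixed` : `IsFF1 K F ∧ IsFF1 K M ∧ FiniteDimensional F M`;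
* `finrank_eq_card_quotient` : `[F : K(y)] = |G ⧸ fixerOf F G|`;
* reusable Galois-theoretic facts (namespace `Fermat.Agent.S24.PlaceGaloisFixed`):
  `isGaloisGroup_adjoin`, `isGaloisGroup_top`, `isGaloisGroup_fixerOf`,
  `fixerOf_eq_fixingSubgroup`, `card_eq_finrank`, `card_fixerOf_eq_finrank`,
  `finiteDimensional_adjoin`, `finiteDimensional_top`, `transcendental_algebraMap`,
  `mem_range_of_fixerOf`.
-/

set_option autoImplicit false
set_option linter.unusedSectionVars false

namespace Fermat.Agent.S24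

open AlgebraicCurve IntermediateField

namespace PlaceGaloisFixed

section

variable {K F M : Type*} [Field K] [Field F] [Field M]
  [Algebra K F] [Algebra K M] [Algebra F M] [IsScalarTower K F M]
  (G : Subgroup (M ≃ₐ[K] M)) (y : F)

/-- The image of `K(y) ⊆ F` in `M` is `K(y) ⊆ M`. -/
theorem map_adjoin :
    (K⟮y⟯).map (IsScalarTower.toAlgHom K F M) = K⟮algebraMap F M y⟯ := by
  rw [IntermediateField.adjoin_map]
  simp

theorem algebraMap_mem_adjoin (a : K⟮y⟯) :
    algebraMap F M (a : F) ∈ K⟮algebraMap F M y⟯ := by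
  rw [← map_adjoin]
  exact ⟨(a : F), a.2, rfl⟩

theorem exists_of_mem_adjoin {m : M} (hm : m ∈ K⟮algebraMap F M y⟯) :
    ∃ a : K⟮y⟯, algebraMap F M (a : F) = m := by
  rw [← map_adjoin] at hm
  obtain ⟨a, ha, rfl⟩ := hm
  exact ⟨⟨a, ha⟩, rfl⟩

variable (hG : ∀ m : M, (∀ σ ∈ G, σ m = m) ↔ m ∈ K⟮algebraMap F M y⟯)

include hG

/-- `G` is a Galois group (in the sense of Mathlib's `IsGaloisGroup`) of `M` over the
subfield `K(y)` of `F`. -/
theorem isGaloisGroup_adjoin : IsGaloisGroup G K⟮y⟯ M where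
  faithful := inferInstance
  commutes := ⟨fun g a m => by
    have h1 : (g : M ≃ₐ[K] M) (algebraMap F M (a : F)) = algebraMap F M (a : F) :=
      (hG _).mpr (algebraMap_mem_adjoin y a) g g.2
    show (g : M ≃ₐ[K] M) (a • m) = a • (g : M ≃ₐ[K] M) m
    have h2 : ∀ m' : M, a • m' = algebraMap F M (a : F) * m' := fun m' => by
      rw [Algebra.smul_def]; rfl
    rw [h2, h2, map_mul, h1]⟩
  isInvariant := ⟨fun m hm => by
    have h1 : m ∈ K⟮algebraMap F M y⟯ := (hG m).mp fun σ hσ => hm ⟨σ, hσ⟩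
    obtain ⟨a, ha⟩ := exists_of_mem_adjoin y h1
    exact ⟨a, ha⟩⟩

/-- `G` is a Galois group of `M` over the subfield `K(y)` of `M`. -/
theorem isGaloisGroup_top : IsGaloisGroup G K⟮algebraMap F M y⟯ M where
  faithful := inferInstance
  commutes := ⟨fun g a m => by
    have h1 : (g : M ≃ₐ[K] M) (a : M) = (a : M) := (hG _).mpr a.2 g g.2
    show (g : M ≃ₐ[K] M) (a • m) = a • (g : M ≃ₐ[K] M) m
    have h2 : ∀ m' : M, a • m' = (a : M) * m' := fun m' => by
      rw [Algebra.smul_def]; rfl
    rw [h2, h2, map_mul, h1]⟩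
  isInvariant := ⟨fun m hm => by
    have h1 : m ∈ K⟮algebraMap F M y⟯ := (hG m).mp fun σ hσ => hm ⟨σ, hσ⟩
    exact ⟨⟨m, h1⟩, rfl⟩⟩

omit hG in
/-- `fixerOf F G` is the fixing subgroup of the image of `F`. -/
theorem fixerOf_eq_fixingSubgroup :
    fixerOf F G = fixingSubgroup G (Set.range (algebraMap F M)) := by
  ext σ
  rw [mem_fixingSubgroup_iff]
  constructor
  · rintro h _ ⟨f, rfl⟩
    exact h f
  · intro h f
    exact h _ ⟨f, rfl⟩

variable [Finite G]

/-- `fixerOf F G` is a Galois group of `M` over `F`. -/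
theorem isGaloisGroup_fixerOf : IsGaloisGroup (fixerOf F G) F M := by
  have := isGaloisGroup_adjoin G y hG
  have h := IsGaloisGroup.of_isScalarTower G K⟮y⟯ M F
  rw [fixerOf_eq_fixingSubgroup]
  exact h

theorem finiteDimensional_adjoin : FiniteDimensional K⟮y⟯ M :=
  have := isGaloisGroup_adjoin G y hG
  IsGaloisGroup.finiteDimensional G K⟮y⟯ M

theorem finiteDimensional_top : FiniteDimensional K⟮algebraMap F M y⟯ M :=
  have := isGaloisGroup_top G y hG
  IsGaloisGroup.finiteDimensional G K⟮algebraMap F M y⟯ M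

/-- `|G| = [M : K(y)]`. -/
theorem card_eq_finrank : Nat.card G = Module.finrank K⟮y⟯ M :=
  have := isGaloisGroup_adjoin G y hG
  IsGaloisGroup.card_eq_finrank G K⟮y⟯ M

/-- `|G| = [M : K(y)]`, with `K(y)` as a subfield of `M`. -/
theorem card_eq_finrank_top : Nat.card G = Module.finrank K⟮algebraMap F M y⟯ M :=
  have := isGaloisGroup_top G y hG
  IsGaloisGroup.card_eq_finrank G K⟮algebraMap F M y⟯ M

/-- `|fixerOf F G| = [M : F]`. -/
theorem card_fixerOf_eq_finrank : Nat.card (fixerOf F G) = Module.finrank F M :=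
  have := isGaloisGroup_fixerOf G y hG
  IsGaloisGroup.card_eq_finrank (fixerOf F G) F M

/-- Galois correspondence: an element of `M` fixed by `fixerOf F G` lies in the image of `F`. -/
theorem mem_range_of_fixerOf (m : M)
    (hm : ∀ σ : G, σ ∈ fixerOf F G → (σ : M ≃ₐ[K] M) m = m) :
    ∃ f : F, algebraMap F M f = m := by
  have := isGaloisGroup_fixerOf G y hG
  exact (IsGaloisGroup.isInvariant (G := fixerOf F G) (A := F) (B := M)).isInvariant m
    fun σ => hm σ.1 σ.2

end

end PlaceGaloisFixed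

/-! ## The two statements of section A5 (a) of the plan -/

section A5a

variable {K F M : Type*} [Field K] [IsAlgClosed K] [CharZero K] [Field F] [Field M]
  [Algebra K F] [Algebra K M] [Algebra F M] [IsScalarTower K F M]
  (G : Subgroup (M ≃ₐ[K] M)) [Finite G] (y : F) (hy : Transcendental K y)
  (hG : ∀ m : M, (∀ σ ∈ G, σ m = m) ↔ m ∈ K⟮algebraMap F M y⟯)

include hy hG

theorem isFF1_of_fixed : IsFF1 K F ∧ IsFF1 K M ∧ FiniteDimensional F M := by
  have h1 : FiniteDimensional K⟮y⟯ M := PlaceGaloisFixed.finiteDimensional_adjoin G y hG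
  have h2 : FiniteDimensional K⟮algebraMap F M y⟯ M :=
    PlaceGaloisFixed.finiteDimensional_top G y hG
  refine ⟨⟨y, hy, ?_⟩, ⟨algebraMap F M y, ?_, h2⟩, ?_⟩
  · exact FiniteDimensional.left K⟮y⟯ F M
  · exact (transcendental_algebraMap_iff (algebraMap F M).injective).mpr hy
  · exact FiniteDimensional.right K⟮y⟯ F M

theorem finrank_eq_card_quotient :
    Module.finrank K⟮y⟯ F = Nat.card (G ⧸ fixerOf F G) := by
  have h1 : FiniteDimensional K⟮y⟯ M := PlaceGaloisFixed.finiteDimensional_adjoin G y hG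
  have h3 : FiniteDimensional F M := FiniteDimensional.right K⟮y⟯ F M
  have hcard := PlaceGaloisFixed.card_eq_finrank G y hG
  have hH := PlaceGaloisFixed.card_fixerOf_eq_finrank G y hG
  have htower := Module.finrank_mul_finrank K⟮y⟯ F M
  have hlag := Subgroup.card_eq_card_quotient_mul_card_subgroup (fixerOf F G)
  have hpos : 0 < Module.finrank F M := Module.finrank_pos
  have : Module.finrank K⟮y⟯ F * Module.finrank F M
      = Nat.card (G ⧸ fixerOf F G) * Module.finrank F M := by
    rw [htower, ← hcard, hlag, hH]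
  exact Nat.eq_of_mul_eq_mul_right hpos this

end A5a

end Fermat.Agent.S24
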