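import Mathlib

/-!
# S24 — orbit transport along a group homomorphism (helper36; group theory for the Assembly)

`Γ ⧸ Γ₀ ≃ ρ.range ⧸ H` equivariantly when `ρ γ ∈ H ↔ γ ∈ Γ₀`; orbits of a small stabiliser are
orbits of a cyclic subgroup; the orders of `ρ S`, `ρ (S * T)`, `ρ T` for `Γ = SL(2, ℤ)`.
-/

set_option autoImplicit false

namespace Fermat.Agent.S24.OrbitTransport

open MulAction

section general

variable {Γ G : Type*} [Group Γ] [Group G] (π : Γ →* G) (hπ : Function.Surjective π)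
  (H : Subgroup G) (Γ₀ : Subgroup Γ) (hfix : ∀ γ : Γ, π γ ∈ H ↔ γ ∈ Γ₀)

/-- The map on coset spaces induced by `π`. -/
def quotMap (hfix : ∀ γ : Γ, π γ ∈ H ↔ γ ∈ Γ₀) : Γ ⧸ Γ₀ → G ⧸ H :=
  Quotient.map' π (by
    intro a b hab
    rw [QuotientGroup.leftRel_apply] at hab ⊢
    rw [← map_inv, ← map_mul]
    exact (hfix _).2 hab)

@[simp]
theorem quotMap_mk (γ : Γ) :
    quotMap π H Γ₀ hfix (QuotientGroup.mk γ) = QuotientGroup.mk (π γ) := rfl

theorem quotMap_smul (γ : Γ) (x : Γ ⧸ Γ₀) :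
    quotMap π H Γ₀ hfix (γ • x) = π γ • quotMap π H Γ₀ hfix x := by
  induction x using QuotientGroup.induction_on with
  | H a =>
    show quotMap π H Γ₀ hfix (QuotientGroup.mk (γ * a)) = π γ • QuotientGroup.mk (π a)
    rw [quotMap_mk, map_mul]
    rfl

theorem quotMap_zpow_smul (c : Γ) (k : ℤ) (x : Γ ⧸ Γ₀) :
    quotMap π H Γ₀ hfix (c ^ k • x) = π c ^ k • quotMap π H Γ₀ hfix x := by
  rw [quotMap_smul, map_zpow]

theorem quotMap_injective : Function.Injective (quotMap π H Γ₀ hfix) := by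
  intro x y
  induction x using QuotientGroup.induction_on with
  | H a =>
    induction y using QuotientGroup.induction_on with
    | H b =>
      intro h
      rw [quotMap_mk, quotMap_mk, QuotientGroup.eq] at h
      rw [QuotientGroup.eq]
      rw [← map_inv, ← map_mul] at h
      exact (hfix _).1 h

include hπ in
theorem quotMap_surjective : Function.Surjective (quotMap π H Γ₀ hfix) := by
  intro y
  induction y using QuotientGroup.induction_on with
  | H g =>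
    obtain ⟨γ, rfl⟩ := hπ g
    exact ⟨QuotientGroup.mk γ, rfl⟩

/-- `Γ ⧸ Γ₀ ≃ G ⧸ H`. -/
noncomputable def quotEquiv (hπ : Function.Surjective π)
    (hfix : ∀ γ : Γ, π γ ∈ H ↔ γ ∈ Γ₀) : Γ ⧸ Γ₀ ≃ G ⧸ H :=
  Equiv.ofBijective (quotMap π H Γ₀ hfix)
    ⟨quotMap_injective π H Γ₀ hfix, quotMap_surjective π hπ H Γ₀ hfix⟩

@[simp]
theorem quotEquiv_apply (x : Γ ⧸ Γ₀) :
    quotEquiv π H Γ₀ hπ hfix x = quotMap π H Γ₀ hfix x := rfl

include hπ hfix in
theorem card_quot_general : Nat.card (G ⧸ H) = Nat.card (Γ ⧸ Γ₀) :=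
  (Nat.card_congr (quotEquiv π H Γ₀ hπ hfix)).symm

include hπ hfix in
theorem card_quot_eq_index_general : Nat.card (G ⧸ H) = Γ₀.index := by
  rw [card_quot_general π hπ H Γ₀ hfix, Subgroup.index]

include hπ hfix in
/-- The orbits of `⟨π c⟩` on `G ⧸ H` correspond to the orbits of `⟨c⟩` on `Γ ⧸ Γ₀`. -/
theorem card_orbits_zpowers_general (c : Γ) :
    Nat.card (orbitRel.Quotient (Subgroup.zpowers (π c)) (G ⧸ H)) =
      Nat.card (orbitRel.Quotient (Subgroup.zpowers c) (Γ ⧸ Γ₀)) := by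
  symm
  refine Nat.card_congr (Quotient.congr (quotEquiv π H Γ₀ hπ hfix) ?_)
  intro x y
  rw [orbitRel_apply, orbitRel_apply, mem_orbit_iff, mem_orbit_iff]
  constructor
  · rintro ⟨⟨g, hg⟩, hgy⟩
    obtain ⟨k, rfl⟩ := Subgroup.mem_zpowers_iff.1 hg
    refine ⟨⟨π c ^ k, Subgroup.zpow_mem_zpowers _ k⟩, ?_⟩
    show π c ^ k • quotEquiv π H Γ₀ hπ hfix y = quotEquiv π H Γ₀ hπ hfix x
    rw [quotEquiv_apply, quotEquiv_apply, ← quotMap_zpow_smul]
    exact congrArg _ hgy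
  · rintro ⟨⟨g, hg⟩, hgy⟩
    obtain ⟨k, rfl⟩ := Subgroup.mem_zpowers_iff.1 hg
    refine ⟨⟨c ^ k, Subgroup.zpow_mem_zpowers _ k⟩, ?_⟩
    apply quotMap_injective π H Γ₀ hfix
    show quotMap π H Γ₀ hfix (c ^ k • y) = quotMap π H Γ₀ hfix x
    rw [quotMap_zpow_smul]
    exact hgy

end general

section squeeze

variable {G : Type*} [Group G]

/-- A finite subgroup containing `g` with at most `orderOf g` elements is `⟨g⟩`. -/
theorem eq_zpowers_of_card_le (D : Subgroup G) [Finite D] (g : G) (hg : g ∈ D)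
    (hcard : Nat.card D ≤ orderOf g) : D = Subgroup.zpowers g := by
  symm
  apply Subgroup.eq_of_le_of_card_ge
  · rwa [Subgroup.zpowers_le]
  · rw [Nat.card_zpowers]
    exact hcard

theorem card_orbits_eq_of_card_le {X : Type*} [MulAction G X] (D : Subgroup G) [Finite D]
    (g : G) (hg : g ∈ D) (hcard : Nat.card D ≤ orderOf g) :
    Nat.card (orbitRel.Quotient D X) = Nat.card (orbitRel.Quotient (Subgroup.zpowers g) X) := by
  have h := eq_zpowers_of_card_le D g hg hcard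
  subst h
  rfl

end squeeze

section range

variable {Γ A : Type*} [Group Γ] [Group A] (ρ : Γ →* A) (H : Subgroup ρ.range)
  (Γ₀ : Subgroup Γ) (hfix : ∀ γ : Γ, (⟨ρ γ, ⟨γ, rfl⟩⟩ : ρ.range) ∈ H ↔ γ ∈ Γ₀)

include hfix in
/-- (T1) -/
theorem card_quot : Nat.card (ρ.range ⧸ H) = Nat.card (Γ ⧸ Γ₀) :=
  card_quot_general ρ.rangeRestrict ρ.rangeRestrict_surjective H Γ₀ hfix

include hfix in
theorem card_quot_eq_index : Nat.card (ρ.range ⧸ H) = Γ₀.index := by
  rw [card_quot ρ H Γ₀ hfix, Subgroup.index]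

include hfix in
/-- (T2) -/
theorem card_orbits_zpowers (c : Γ) :
    Nat.card (orbitRel.Quotient (Subgroup.zpowers (⟨ρ c, ⟨c, rfl⟩⟩ : ρ.range)) (ρ.range ⧸ H)) =
      Nat.card (orbitRel.Quotient (Subgroup.zpowers c) (Γ ⧸ Γ₀)) :=
  card_orbits_zpowers_general ρ.rangeRestrict ρ.rangeRestrict_surjective H Γ₀ hfix c

theorem card_orbitRel_quotient_of_subsingleton {G X : Type*} [Group G] [MulAction G X]
    [Subsingleton X] [Nonempty X] : Nat.card (orbitRel.Quotient G X) = 1 := by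
  rw [Nat.card_eq_one_iff_unique]
  refine ⟨⟨fun a b => ?_⟩, ?_⟩
  · induction a using Quotient.inductionOn with
    | h x =>
      induction b using Quotient.inductionOn with
      | h y => rw [Subsingleton.elim x y]
  · obtain ⟨x⟩ := ‹Nonempty X›
    exact ⟨Quotient.mk'' x⟩

include hfix in
/-- (T2/T3 merged) the orbits of a subgroup `D ∋ ρ c` with at most `orderOf (ρ c)` elements on
`ρ.range ⧸ H` correspond to the orbits of `⟨c⟩` on `Γ ⧸ Γ₀`. -/
theorem card_orbits_eq [Finite ρ.range] (c : Γ) (D : Subgroup ρ.range)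
    (hc : (⟨ρ c, ⟨c, rfl⟩⟩ : ρ.range) ∈ D) (hD : Nat.card D ≤ orderOf (ρ c) ∨ Γ₀ = ⊤) :
    Nat.card (orbitRel.Quotient D (ρ.range ⧸ H)) =
      Nat.card (orbitRel.Quotient (Subgroup.zpowers c) (Γ ⧸ Γ₀)) := by
  rcases hD with hD | hD
  · have hord : orderOf (⟨ρ c, ⟨c, rfl⟩⟩ : ρ.range) = orderOf (ρ c) := Subgroup.orderOf_mk _ _
    exact (card_orbits_eq_of_card_le (X := ρ.range ⧸ H) D (⟨ρ c, ⟨c, rfl⟩⟩ : ρ.range) hc
      (by rw [hord]; exact hD)).trans (card_orbits_zpowers ρ H Γ₀ hfix c)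
  · subst hD
    have hHtop : H = ⊤ := by
      rw [eq_top_iff]
      rintro ⟨_, γ, rfl⟩ _
      exact (hfix γ).2 (Subgroup.mem_top γ)
    subst hHtop
    have : Subsingleton (ρ.range ⧸ (⊤ : Subgroup ρ.range)) :=
      QuotientGroup.subsingleton_quotient_top
    have : Subsingleton (Γ ⧸ (⊤ : Subgroup Γ)) := QuotientGroup.subsingleton_quotient_top
    rw [card_orbitRel_quotient_of_subsingleton, card_orbitRel_quotient_of_subsingleton]

end range

section modular

open Matrix ModularGroup CongruenceSubgroup MatrixGroups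

theorem S_mul_S : S * S = (-1 : SL(2, ℤ)) := by
  apply Subtype.ext
  ext i j
  fin_cases i <;> fin_cases j <;> simp [Matrix.mul_apply, Fin.sum_univ_two, coe_S]

theorem ST_pow_three : (S * T) ^ 3 = (-1 : SL(2, ℤ)) := by
  apply Subtype.ext
  ext i j
  fin_cases i <;> fin_cases j <;>
    simp [pow_succ, Matrix.mul_apply, Fin.sum_univ_two, coe_S, coe_T]

theorem Gamma0_one : Gamma0 1 = ⊤ := by
  rw [eq_top_iff]
  intro γ _
  rw [Gamma0_mem]
  exact Subsingleton.elim _ _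

theorem S_mem_Gamma0_iff (N : ℕ) : S ∈ Gamma0 N ↔ N = 1 := by
  rw [Gamma0_mem]
  have h : ((S : SL(2, ℤ)) 1 0 : ℤ) = 1 := by simp [coe_S]
  rw [h, Int.cast_one]
  constructor
  · intro h1
    have h2 : ((1 : ℕ) : ZMod N) = 0 := by simpa using h1
    rw [ZMod.natCast_eq_zero_iff] at h2
    exact Nat.dvd_one.1 h2
  · rintro rfl
    exact Subsingleton.elim _ _

theorem ST_mem_Gamma0_iff (N : ℕ) : S * T ∈ Gamma0 N ↔ N = 1 := by
  rw [Gamma0_mem]
  have h : ((S * T : SL(2, ℤ)) 1 0 : ℤ) = 1 := by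
    simp [coe_S, coe_T, Matrix.mul_apply, Fin.sum_univ_two]
  rw [h, Int.cast_one]
  constructor
  · intro h1
    have h2 : ((1 : ℕ) : ZMod N) = 0 := by simpa using h1
    rw [ZMod.natCast_eq_zero_iff] at h2
    exact Nat.dvd_one.1 h2
  · rintro rfl
    exact Subsingleton.elim _ _

theorem conj_T_zpow_mem_Gamma0_iff (N : ℕ) (k : ℤ) :
    S * T ^ k * S⁻¹ ∈ Gamma0 N ↔ (N : ℤ) ∣ k := by
  rw [Gamma0_mem]
  have h : ((S * T ^ k * S⁻¹ : SL(2, ℤ)) 1 0 : ℤ) = -k := by
    simp [coe_T_zpow, coe_S, Matrix.mul_apply, Fin.sum_univ_two, Matrix.adjugate_fin_two]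
  rw [h, ZMod.intCast_zmod_eq_zero_iff_dvd, dvd_neg]

variable {A : Type*} [Group A] (ρ : SL(2, ℤ) →* A) (N : ℕ) (hneg : ρ (-1) = 1)
  (hker : ∀ γ : SL(2, ℤ), ρ γ = 1 → γ ∈ Gamma0 N)

include hneg hker in
/-- (T4) -/
theorem orderOf_S (hN : N ≠ 1) : orderOf (ρ S) = 2 := by
  have : Fact (Nat.Prime 2) := ⟨Nat.prime_two⟩
  apply orderOf_eq_prime
  · rw [pow_two, ← map_mul, S_mul_S, hneg]
  · intro h
    exact hN ((S_mem_Gamma0_iff N).1 (hker _ h))

include hneg hker in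
/-- (T4) -/
theorem orderOf_ST (hN : N ≠ 1) : orderOf (ρ (S * T)) = 3 := by
  have : Fact (Nat.Prime 3) := ⟨Nat.prime_three⟩
  apply orderOf_eq_prime
  · rw [← map_pow, ST_pow_three, hneg]
  · intro h
    exact hN ((ST_mem_Gamma0_iff N).1 (hker _ h))

include hker in
theorem dvd_of_zpow_T_eq_one (k : ℤ) (h : ρ T ^ k = 1) : (N : ℤ) ∣ k := by
  rw [← conj_T_zpow_mem_Gamma0_iff]
  apply hker
  rw [map_mul, map_mul, map_zpow, h, mul_one, ← map_mul, mul_inv_cancel, map_one]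

include hker in
theorem dvd_orderOf_T : N ∣ orderOf (ρ T) := by
  have h := dvd_of_zpow_T_eq_one ρ N hker (orderOf (ρ T)) (by
    rw [zpow_natCast, pow_orderOf_eq_one])
  exact Int.natCast_dvd_natCast.1 h

include hker in
/-- (T4) -/
theorem le_orderOf_T [Finite ρ.range] [NeZero N] : N ≤ orderOf (ρ T) := by
  have hpos : 0 < orderOf (ρ T) := by
    have h1 : 0 < orderOf (ρ.rangeRestrict T) := orderOf_pos _
    rw [← Subgroup.orderOf_coe] at h1
    exact h1
  exact Nat.le_of_dvd hpos (dvd_orderOf_T ρ N hker)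

end modular

end Fermat.Agent.S24.OrbitTransport
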