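import Mathlib
import Fermat.Prelude.Def_AlgebraicCurve_CanonicalDivisor
import Fermat.Agent.S24.Defs
import Fermat.Agent.Lib.FFDiff
import Fermat.Agent.Lib.PlaceChart

/-!
# S24 — package A2 `PlaceDiff` (helper96)

Differentials at the places of a function field in one variable over an algebraically closed
field of characteristic zero, in the exact shapes of `S24/Plan.lean` (section A2).

The local computation is `Fermat.Agent.Lib.FFDiff` (helper39) and the fact that all places have
degree one is `Fermat.Agent.Lib.PlaceChart` (helper34); this file adds the place-free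
nontriviality of `Ω[F⁄K]` (formally étale base change from `K[X]`) and the wrappers.
-/

set_option autoImplicit false
set_option linter.style.haveILetI false

namespace Fermat.Agent.S24

open AlgebraicCurve IntermediateField KaehlerDifferential Polynomial

namespace PlaceDiff

open Fermat.Agent.Lib

variable {K F : Type*} [Field K] [Field F] [Algebra K F]

/-- `IsFF1` in the vocabulary of `Lib/PlaceChart`. -/
theorem isFunctionField1 [IsFF1 K F] : PlaceChart.IsFunctionField1 K F :=
  IsFF1.exists_gen

/-- `IsFF1` in the vocabulary of `Lib/FFDiff`. -/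
theorem trdegOne [IsFF1 K F] : FFDiff.TrdegOne K F := fun _ hy =>
  haveI := (isFunctionField1 (K := K) (F := F)).finite hy
  inferInstance

/-- `Ω[F⁄K]` is nontrivial as soon as `F` is a finite separable extension of `K(y)`. -/
theorem nontrivial_kaehler_of_finite [CharZero K] (y : F) (hy : Transcendental K y)
    (hfin : FiniteDimensional K⟮y⟯ F) : Nontrivial Ω[F⁄K] := by
  letI := PlaceChart.algPoly (K := K) y
  letI := PlaceChart.algRat y hy
  haveI := PlaceChart.tower_poly_rat y hy
  haveI := PlaceChart.tower_base_poly (K := K) y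
  haveI := PlaceChart.tower_base_rat y hy
  haveI : FunctionField K F := PlaceChart.functionField_of_finite y hy hfin
  haveI := PlaceChart.isSeparable_of_charZero y hy hfin
  haveI : Algebra.FormallyEtale (RatFunc K) F := Algebra.FormallyEtale.of_isSeparable (RatFunc K) F
  haveI : Algebra.FormallyEtale K[X] (RatFunc K) :=
    Algebra.FormallyEtale.of_isLocalization (nonZeroDivisors K[X])
  haveI : Algebra.FormallyEtale K[X] F := Algebra.FormallyEtale.comp K[X] (RatFunc K) F
  let e₁ := KaehlerDifferential.tensorKaehlerEquivOfFormallyEtale K K[X] F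
  let e₂ := (KaehlerDifferential.polynomialEquiv K).lTensor F
  let e₃ := TensorProduct.rid K[X] F
  exact (e₁.symm.toEquiv.trans (e₂.toEquiv.trans e₃.toEquiv)).nontrivial

end PlaceDiff

section A2

open Fermat.Agent.Lib

variable {K F : Type*} [Field K] [IsAlgClosed K] [CharZero K] [Field F] [Algebra K F]

theorem kaehler_nontrivial [IsFF1 K F] : Nontrivial Ω[F⁄K] := by
  obtain ⟨x, hx, hfin⟩ := IsFF1.exists_gen (K := K) (F := F)
  exact PlaceDiff.nontrivial_kaehler_of_finite x hx hfin

theorem dCoord_generates [IsFF1 K F] (w : Place K F) : w.DCoordGenerates :=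
  FFDiff.dCoordGenerates PlaceDiff.trdegOne w (PlaceChart.deg_eq_one PlaceDiff.isFunctionField1 w)

theorem exists_eq_smul_D [IsFF1 K F] {x : F} (hx : Transcendental K x) (ω : Ω[F⁄K]) :
    ∃ g : F, ω = g • D K F x := by
  haveI := PlaceDiff.trdegOne (K := K) (F := F) x hx
  exact FFDiff.exists_smul_D x ω

theorem differentialCoeff_D_ne_zero [IsFF1 K F] (w : Place K F) {f : F}
    (hf : Transcendental K f) : w.differentialCoeff (D K F f) ≠ 0 := by
  haveI := dCoord_generates w
  haveI := PlaceDiff.trdegOne (K := K) (F := F) f hf
  intro h0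
  have h1 := w.differentialCoeff_smul_dCoord (D K F f)
  rw [h0, zero_smul] at h1
  exact FFDiff.D_ne_zero f w (PlaceChart.deg_eq_one PlaceDiff.isFunctionField1 w) h1.symm

/-- `ord_w(df) = ord_w(f) - 1` whenever `ord_w(f) ≠ 0` (characteristic zero). -/
theorem ordDifferential_D [IsFF1 K F] (w : Place K F) {f : F} (hf : w.ord f ≠ 0) :
    w.ordDifferential (D K F f) = w.ord f - 1 := by
  have hf0 : f ≠ 0 := by
    rintro rfl
    exact hf w.ord_zero
  exact FFDiff.ordDifferential_D PlaceDiff.trdegOne w
    (PlaceChart.deg_eq_one PlaceDiff.isFunctionField1 w) f hf0 hf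

end A2

end Fermat.Agent.S24
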