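import Mathlib
import Fermat.Prelude.Def_AlgebraicCurve_CanonicalDivisor
import Fermat.Agent.S24.Defs

/-!
# S24 — package A3 (core): Riemann–Hurwitz for `F / K(x)` in the shape of the Prelude genus (helper36)

`RiemannHurwitz.degree_canonical_eq` / `RiemannHurwitz.genus_eq_of_ramification_core` are the
Riemann–Hurwitz computation with every function-field input (packages A0, A1, A2) as an explicit
hypothesis, so that this file depends on Mathlib + Prelude + `S24/Defs` only.
-/

set_option autoImplicit false

namespace Fermat.Agent.S24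

open AlgebraicCurve IntermediateField KaehlerDifferential

namespace RiemannHurwitz

variable {K F : Type*} [Field K] [Field F] [Algebra K F]

/-- The degree of a divisor when every place has degree one. -/
theorem degree_eq_sum (hdeg : ∀ w : Place K F, w.deg = 1) (D : Divisor K F) :
    Divisor.degree D = ∑ w ∈ D.support, D w := by
  simp [Divisor.degree, Finsupp.liftAddHom_apply, Finsupp.sum, hdeg]

theorem degree_eq_sum_of_subset (hdeg : ∀ w : Place K F, w.deg = 1) (D : Divisor K F)
    (U : Finset (Place K F)) (hU : D.support ⊆ U) :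
    Divisor.degree D = ∑ w ∈ U, D w := by
  rw [degree_eq_sum hdeg]
  exact Finset.sum_subset hU (fun w _ hw => by simpa using hw)

/-- A principal divisor has finite support and degree zero. -/
theorem exists_finset_ord
    (hconst : ∀ f : F, (∃ a : K, f = algebraMap K F a) ∨ Transcendental K f)
    (hordK : ∀ (w : Place K F) (a : K), w.ord (algebraMap K F a) = 0)
    (hzfin : ∀ f : F, Transcendental K f → (zerosOf K f).Finite)
    (hzsum : ∀ f : F, Transcendental K f →
      ∑ᶠ w ∈ zerosOf K f, w.ord f = (Module.finrank K⟮f⟯ F : ℤ))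
    (hpfin : ∀ f : F, Transcendental K f → (polesOf K f).Finite)
    (hpsum : ∀ f : F, Transcendental K f →
      ∑ᶠ w ∈ polesOf K f, w.ord f = -(Module.finrank K⟮f⟯ F : ℤ))
    (g : F) :
    ∃ G : Finset (Place K F), (∀ w : Place K F, w.ord g ≠ 0 → w ∈ G) ∧
      ∑ w ∈ G, w.ord g = 0 := by
  classical
  rcases hconst g with ⟨a, rfl⟩ | hg
  · exact ⟨∅, fun w hw => absurd (hordK w a) hw, by simp⟩
  · refine ⟨(hzfin g hg).toFinset ∪ (hpfin g hg).toFinset, ?_, ?_⟩
    · intro w hw
      rcases lt_or_gt_of_ne hw with h | h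
      · exact Finset.mem_union_right _ ((Set.Finite.mem_toFinset _).2 h)
      · exact Finset.mem_union_left _ ((Set.Finite.mem_toFinset _).2 h)
    · rw [Finset.sum_union, ← finsum_mem_eq_finite_toFinset_sum,
        ← finsum_mem_eq_finite_toFinset_sum, hzsum g hg, hpsum g hg]
      · ring
      · rw [Finset.disjoint_left]
        intro w hw hw'
        have h1 : w ∈ zerosOf K g := (Set.Finite.mem_toFinset _).1 hw
        have h2 : w ∈ polesOf K g := (Set.Finite.mem_toFinset _).1 hw'
        have h1' : 0 < w.ord g := h1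
        have h2' : w.ord g < 0 := h2
        omega

theorem transcendental_sub_algebraMap {x : F} (hx : Transcendental K x) (a : K) :
    Transcendental K (x - algebraMap K F a) := by
  intro h
  apply hx
  have := h.add (isAlgebraic_algebraMap (R := K) (A := F) a)
  simpa using this

theorem adjoin_sub_algebraMap (x : F) (a : K) :
    K⟮x - algebraMap K F a⟯ = K⟮x⟯ := by
  apply le_antisymm
  · rw [adjoin_simple_le_iff]
    exact sub_mem (mem_adjoin_simple_self K x) (IntermediateField.algebraMap_mem _ a)
  · rw [adjoin_simple_le_iff]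
    have h : (x - algebraMap K F a) + algebraMap K F a ∈ K⟮x - algebraMap K F a⟯ :=
      add_mem (mem_adjoin_simple_self K _) (IntermediateField.algebraMap_mem _ a)
    rwa [sub_add_cancel] at h

theorem finrank_adjoin_sub_algebraMap (x : F) (a : K) :
    Module.finrank K⟮x - algebraMap K F a⟯ F = Module.finrank K⟮x⟯ F := by
  rw [adjoin_sub_algebraMap]

/-- **Riemann–Hurwitz**: the degree of the divisor of any nonzero differential, computed from
the ramification of `x`.  All function-field inputs are hypotheses. -/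
theorem degree_canonical_eq
    [HasCanonicalDivisor (K := K) (F := F)]
    (x : F) (hx : Transcendental K x) (S : Finset K)
    (hS : ∀ a : K, a ∉ S → ∀ w : Place K F, 0 < w.ord (x - algebraMap K F a) →
      w.ord (x - algebraMap K F a) = 1)
    (hnt : Nontrivial Ω[F⁄K])
    (hgen : ∀ w : Place K F, w.DCoordGenerates)
    (hdeg : ∀ w : Place K F, w.deg = 1)
    (hsmul : ∀ ω : Ω[F⁄K], ∃ g : F, ω = g • D K F x)
    (hcoef : ∀ w : Place K F, w.differentialCoeff (D K F x) ≠ 0)
    (hordD : ∀ (w : Place K F) (f : F), w.ord f ≠ 0 →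
      w.ordDifferential (D K F f) = w.ord f - 1)
    (hres : ∀ (w : Place K F) (f : F), f ∈ w.toValuationSubring →
      ∃ a : K, f = algebraMap K F a ∨ 0 < w.ord (f - algebraMap K F a))
    (hconst : ∀ f : F, (∃ a : K, f = algebraMap K F a) ∨ Transcendental K f)
    (hordK : ∀ (w : Place K F) (a : K), w.ord (algebraMap K F a) = 0)
    (hmem : ∀ (w : Place K F) (f : F), f ≠ 0 → 0 ≤ w.ord f → f ∈ w.toValuationSubring)
    (hadd : ∀ (w : Place K F) (f g : F), f ≠ 0 → g ≠ 0 → f + g ≠ 0 →
      min (w.ord f) (w.ord g) ≤ w.ord (f + g))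
    (hzfin : ∀ f : F, Transcendental K f → (zerosOf K f).Finite)
    (hzsum : ∀ f : F, Transcendental K f →
      ∑ᶠ w ∈ zerosOf K f, w.ord f = (Module.finrank K⟮f⟯ F : ℤ))
    (hpfin : ∀ f : F, Transcendental K f → (polesOf K f).Finite)
    (hpsum : ∀ f : F, Transcendental K f →
      ∑ᶠ w ∈ polesOf K f, w.ord f = -(Module.finrank K⟮f⟯ F : ℤ))
    {ω : Ω[F⁄K]} (hω : ω ≠ 0) :
    Divisor.degree (canonicalDivisorOf hω) =
      ∑ a ∈ S, ((Module.finrank K⟮x⟯ F : ℤ) - Nat.card (zerosOf K (x - algebraMap K F a)))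
          - (Module.finrank K⟮x⟯ F : ℤ) - Nat.card (polesOf K x) := by
  classical
  have hx0 : x ≠ 0 := by
    rintro rfl
    exact hx (isAlgebraic_zero)
  have hxa : ∀ a : K, Transcendental K (x - algebraMap K F a) :=
    transcendental_sub_algebraMap hx
  have hxa0 : ∀ a : K, x - algebraMap K F a ≠ 0 := by
    intro a h
    apply hxa a
    rw [h]
    exact isAlgebraic_zero
  -- the finite sets of special places
  set P : Finset (Place K F) := (hpfin x hx).toFinset with hPdef
  set Z : K → Finset (Place K F) := fun a => (hzfin _ (hxa a)).toFinset with hZdef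
  have hmemP : ∀ w : Place K F, w ∈ P ↔ w.ord x < 0 := fun w =>
    (Set.Finite.mem_toFinset _)
  have hmemZ : ∀ (a : K) (w : Place K F), w ∈ Z a ↔ 0 < w.ord (x - algebraMap K F a) :=
    fun a w => (Set.Finite.mem_toFinset _)
  -- order of `dx`
  have hDxa : ∀ a : K, D K F (x - algebraMap K F a) = D K F x := by
    intro a
    rw [map_sub, Derivation.map_algebraMap, sub_zero]
  have hodP : ∀ w ∈ P, w.ordDifferential (D K F x) = w.ord x - 1 := by
    intro w hw
    exact hordD w x (ne_of_lt ((hmemP w).1 hw))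
  have hodZ : ∀ (a : K), ∀ w ∈ Z a,
      w.ordDifferential (D K F x) = w.ord (x - algebraMap K F a) - 1 := by
    intro a w hw
    have := hordD w (x - algebraMap K F a) (ne_of_gt ((hmemZ a w).1 hw))
    rwa [hDxa a] at this
  -- every place is a pole of `x` or a zero of exactly one `x - a`
  have hcover : ∀ w : Place K F, w ∉ P → ∃ a : K, w ∈ Z a := by
    intro w hw
    have h0 : 0 ≤ w.ord x := not_lt.1 (fun h => hw ((hmemP w).2 h))
    obtain ⟨a, ha | ha⟩ := hres w x (hmem w x hx0 h0)
    · exact absurd (ha ▸ isAlgebraic_algebraMap (R := K) (A := F) a) hx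
    · exact ⟨a, (hmemZ a w).2 ha⟩
  have hdisjPZ : ∀ a : K, Disjoint P (Z a) := by
    intro a
    rw [Finset.disjoint_left]
    intro w hwP hwZ
    have h1 := (hmemP w).1 hwP
    have h2 := (hmemZ a w).1 hwZ
    by_cases ha : a = 0
    · subst ha
      rw [map_zero, sub_zero] at h2
      omega
    · have hane : algebraMap K F a ≠ 0 := by
        simpa using ha
      have h3 := hadd w (x - algebraMap K F a) (algebraMap K F a) (hxa0 a) hane
        (by rw [sub_add_cancel]; exact hx0)
      rw [sub_add_cancel, hordK w a] at h3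
      have : 0 ≤ min (w.ord (x - algebraMap K F a)) 0 := by
        rw [min_eq_right h2.le]
      omega
  have hdisjZZ : ∀ a b : K, a ≠ b → Disjoint (Z a) (Z b) := by
    intro a b hab
    rw [Finset.disjoint_left]
    intro w hwa hwb
    have h1 := (hmemZ a w).1 hwa
    have h2 := (hmemZ b w).1 hwb
    have hm1 : algebraMap K F (-1) ≠ 0 := by simp
    have hg0 : algebraMap K F (-1) * (x - algebraMap K F b) ≠ 0 := mul_ne_zero hm1 (hxa0 b)
    have hsum : (x - algebraMap K F a) + algebraMap K F (-1) * (x - algebraMap K F b)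
        = algebraMap K F (b - a) := by
      rw [map_neg, map_one, map_sub]; ring
    have hba : algebraMap K F (b - a) ≠ 0 := by
      simpa [sub_eq_zero] using (Ne.symm hab)
    have h3 := hadd w (x - algebraMap K F a) (algebraMap K F (-1) * (x - algebraMap K F b))
      (hxa0 a) hg0 (by rw [hsum]; exact hba)
    rw [hsum, hordK w (b - a), w.ord_mul hm1 (hxa0 b), hordK w (-1), zero_add] at h3
    have : 0 < min (w.ord (x - algebraMap K F a)) (w.ord (x - algebraMap K F b)) :=
      lt_min h1 h2
    omega
  -- the support of `ord(dx)`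
  set T : Finset (Place K F) := P ∪ S.biUnion Z with hTdef
  have hsuppT : ∀ w : Place K F, w.ordDifferential (D K F x) ≠ 0 → w ∈ T := by
    intro w hw
    by_cases hwP : w ∈ P
    · exact Finset.mem_union_left _ hwP
    · obtain ⟨a, ha⟩ := hcover w hwP
      by_cases haS : a ∈ S
      · exact Finset.mem_union_right _ (Finset.mem_biUnion.2 ⟨a, haS, ha⟩)
      · exfalso
        apply hw
        rw [hodZ a w ha, hS a haS w ((hmemZ a w).1 ha), sub_self]
  -- the sums of orders
  have hsumP : ∑ w ∈ P, w.ord x = -(Module.finrank K⟮x⟯ F : ℤ) := by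
    rw [hPdef, ← finsum_mem_eq_finite_toFinset_sum, hpsum x hx]
  have hsumZ : ∀ a : K, ∑ w ∈ Z a, w.ord (x - algebraMap K F a)
      = (Module.finrank K⟮x⟯ F : ℤ) := by
    intro a
    rw [hZdef]
    simp only
    rw [← finsum_mem_eq_finite_toFinset_sum, hzsum _ (hxa a), finrank_adjoin_sub_algebraMap]
  have hcardP : (P.card : ℤ) = Nat.card (polesOf K x) := by
    rw [hPdef, Nat.card_eq_card_finite_toFinset]
  have hcardZ : ∀ a : K, ((Z a).card : ℤ) = Nat.card (zerosOf K (x - algebraMap K F a)) := by
    intro a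
    rw [hZdef]
    simp only
    rw [Nat.card_eq_card_finite_toFinset]
  have hsumT : ∑ w ∈ T, w.ordDifferential (D K F x) =
      ∑ a ∈ S, ((Module.finrank K⟮x⟯ F : ℤ) - Nat.card (zerosOf K (x - algebraMap K F a)))
          - (Module.finrank K⟮x⟯ F : ℤ) - Nat.card (polesOf K x) := by
    have hdisj : Disjoint P (S.biUnion Z) := by
      rw [Finset.disjoint_left]
      intro w hwP hwU
      obtain ⟨a, _, ha⟩ := Finset.mem_biUnion.1 hwU
      exact (Finset.disjoint_left.1 (hdisjPZ a)) hwP ha
    have hpd : (S : Set K).PairwiseDisjoint Z := by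
      intro a _ b _ hab
      exact hdisjZZ a b hab
    rw [hTdef, Finset.sum_union hdisj, Finset.sum_biUnion hpd]
    have e1 : ∑ w ∈ P, w.ordDifferential (D K F x)
        = -(Module.finrank K⟮x⟯ F : ℤ) - Nat.card (polesOf K x) := by
      rw [Finset.sum_congr rfl hodP, Finset.sum_sub_distrib, hsumP, Finset.sum_const,
        ← hcardP]
      simp
    have e2 : ∀ a ∈ S, ∑ w ∈ Z a, w.ordDifferential (D K F x)
        = (Module.finrank K⟮x⟯ F : ℤ) - Nat.card (zerosOf K (x - algebraMap K F a)) := by
      intro a _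
      rw [Finset.sum_congr rfl (hodZ a), Finset.sum_sub_distrib, hsumZ a, Finset.sum_const,
        ← hcardZ a]
      simp
    rw [e1, Finset.sum_congr rfl e2]
    ring
  -- the differential
  obtain ⟨g, hg⟩ := hsmul ω
  have hg0 : g ≠ 0 := by
    rintro rfl
    exact hω (by rw [hg, zero_smul])
  obtain ⟨G, hG, hGsum⟩ := exists_finset_ord hconst hordK hzfin hzsum hpfin hpsum g
  have hCw : ∀ w : Place K F, (canonicalDivisorOf hω) w
      = w.ord g + w.ordDifferential (D K F x) := by
    intro w
    have := hgen w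
    have := hnt
    rw [canonicalDivisorOf_apply, hg]
    exact w.ordDifferential_smul hg0 (hcoef w)
  set U : Finset (Place K F) := (canonicalDivisorOf hω).support ∪ (G ∪ T) with hUdef
  rw [degree_eq_sum_of_subset hdeg _ U Finset.subset_union_left,
    Finset.sum_congr rfl (fun w _ => hCw w), Finset.sum_add_distrib]
  have hUG : ∑ w ∈ U, w.ord g = ∑ w ∈ G, w.ord g := by
    symm
    apply Finset.sum_subset
    · exact (Finset.subset_union_left).trans Finset.subset_union_right
    · intro w _ hw
      by_contra h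
      exact hw (hG w h)
  have hUT : ∑ w ∈ U, w.ordDifferential (D K F x) = ∑ w ∈ T, w.ordDifferential (D K F x) := by
    symm
    apply Finset.sum_subset
    · exact (Finset.subset_union_right).trans Finset.subset_union_right
    · intro w _ hw
      by_contra h
      exact hw (hsuppT w h)
  rw [hUG, hUT, hGsum, hsumT, zero_add]

/-- Riemann–Hurwitz in the shape of the Prelude genus; all function-field inputs are
hypotheses. -/
theorem genus_eq_of_ramification_core
    [HasCanonicalDivisor (K := K) (F := F)]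
    (x : F) (hx : Transcendental K x) (S : Finset K)
    (hS : ∀ a : K, a ∉ S → ∀ w : Place K F, 0 < w.ord (x - algebraMap K F a) →
      w.ord (x - algebraMap K F a) = 1)
    (hnt : Nontrivial Ω[F⁄K])
    (hgen : ∀ w : Place K F, w.DCoordGenerates)
    (hdeg : ∀ w : Place K F, w.deg = 1)
    (hsmul : ∀ ω : Ω[F⁄K], ∃ g : F, ω = g • D K F x)
    (hcoef : ∀ w : Place K F, w.differentialCoeff (D K F x) ≠ 0)
    (hordD : ∀ (w : Place K F) (f : F), w.ord f ≠ 0 →
      w.ordDifferential (D K F f) = w.ord f - 1)
    (hres : ∀ (w : Place K F) (f : F), f ∈ w.toValuationSubring →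
      ∃ a : K, f = algebraMap K F a ∨ 0 < w.ord (f - algebraMap K F a))
    (hconst : ∀ f : F, (∃ a : K, f = algebraMap K F a) ∨ Transcendental K f)
    (hordK : ∀ (w : Place K F) (a : K), w.ord (algebraMap K F a) = 0)
    (hmem : ∀ (w : Place K F) (f : F), f ≠ 0 → 0 ≤ w.ord f → f ∈ w.toValuationSubring)
    (hadd : ∀ (w : Place K F) (f g : F), f ≠ 0 → g ≠ 0 → f + g ≠ 0 →
      min (w.ord f) (w.ord g) ≤ w.ord (f + g))
    (hzfin : ∀ f : F, Transcendental K f → (zerosOf K f).Finite)
    (hzsum : ∀ f : F, Transcendental K f →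
      ∑ᶠ w ∈ zerosOf K f, w.ord f = (Module.finrank K⟮f⟯ F : ℤ))
    (hpfin : ∀ f : F, Transcendental K f → (polesOf K f).Finite)
    (hpsum : ∀ f : F, Transcendental K f →
      ∑ᶠ w ∈ polesOf K f, w.ord f = -(Module.finrank K⟮f⟯ F : ℤ)) :
    genus K F =
      ((∑ a ∈ S, ((Module.finrank K⟮x⟯ F : ℤ) - Nat.card (zerosOf K (x - algebraMap K F a)))
          - (Module.finrank K⟮x⟯ F : ℤ) - Nat.card (polesOf K x) + 2).toNat) / 2 := by
  have hex : ∃ ω : Ω[F⁄K], ω ≠ 0 := by
    have := hnt
    exact exists_ne 0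
  rw [genus, dif_pos hex,
    degree_canonical_eq x hx S hS hnt hgen hdeg hsmul hcoef hordD hres hconst hordK hmem hadd
      hzfin hzsum hpfin hpsum hex.choose_spec]

end RiemannHurwitz

end Fermat.Agent.S24
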