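import Mathlib
import Fermat.Prelude.Def_AlgebraicCurve_CanonicalDivisor
import Fermat.Prelude.Def_ModularCurve_ArithmeticGalois
import Fermat.Prelude.Def_ModularCurve_GenusNumerics
import Fermat.Agent.S24.Defs
import Fermat.Agent.S24.PlaceBridge
import Fermat.Agent.S24.PlaceGaloisFixed
import Fermat.Agent.S24.PlaceDiff
import Fermat.Agent.S24.RiemannHurwitzCore
import Fermat.Agent.S24.OrbitTransport
import Fermat.Agent.Lib.PermGenus
import Fermat.Agent.Lib.Gamma0Count
import Fermat.Agent.Lib.FFPlaces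
import Fermat.Agent.Lib.PlaceChart
import Fermat.Agent.Lib.PlaceGaloisPlan

/-!
# S24 — assembly: the genus formula from a modular datum (helper25)
-/

set_option autoImplicit false

namespace Fermat.Agent.S24

open AlgebraicCurve IntermediateField ModularCurve CongruenceSubgroup MatrixGroups ModularGroup

namespace Assembly

section general

variable {K F M : Type*} [Field K] [Field F] [Field M] [Algebra K F] [Algebra K M] [Algebra F M]
  [IsScalarTower K F M]

/-- an automorphism fixing `x'` fixes `K(x')` pointwise. -/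
theorem apply_eq_of_mem_adjoin (σ : M ≃ₐ[K] M) {x' m : M} (hσ : σ x' = x')
    (hm : m ∈ K⟮x'⟯) : σ m = m := by
  obtain ⟨r, s, rfl⟩ := (IntermediateField.mem_adjoin_simple_iff K m).mp hm
  rw [map_div₀, ← AlgEquiv.coe_toAlgHom, ← Polynomial.aeval_algHom_apply,
    ← Polynomial.aeval_algHom_apply, AlgEquiv.coe_toAlgHom, hσ]

theorem adjoin_sub_eq (x' : M) (a : K) : K⟮x' - algebraMap K M a⟯ = K⟮x'⟯ := by
  apply le_antisymm
  · rw [IntermediateField.adjoin_simple_le_iff]
    exact sub_mem (IntermediateField.mem_adjoin_simple_self K x')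
      (IntermediateField.algebraMap_mem _ a)
  · rw [IntermediateField.adjoin_simple_le_iff]
    have h := add_mem (IntermediateField.mem_adjoin_simple_self K (x' - algebraMap K M a))
      (IntermediateField.algebraMap_mem K⟮x' - algebraMap K M a⟯ a)
    rwa [sub_add_cancel] at h

theorem adjoin_inv_eq (x' : M) : K⟮x'⁻¹⟯ = K⟮x'⟯ := by
  apply le_antisymm
  · rw [IntermediateField.adjoin_simple_le_iff]
    exact inv_mem (IntermediateField.mem_adjoin_simple_self K x')
  · rw [IntermediateField.adjoin_simple_le_iff]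
    have h := inv_mem (IntermediateField.mem_adjoin_simple_self K x'⁻¹)
    rwa [inv_inv] at h

theorem polesOf_eq_zerosOf_inv (x : F) : polesOf K x = zerosOf K x⁻¹ := by
  ext w
  simp only [polesOf, zerosOf, Set.mem_ofPred_eq, Place.ord_inv]
  omega

end general

section closed

variable {K F : Type*} [Field K] [IsAlgClosed K] [CharZero K] [Field F] [Algebra K F]

/-- over an algebraically closed field, an element is a constant or transcendental. -/
theorem const_or_transcendental (f : F) :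
    (∃ a : K, f = algebraMap K F a) ∨ Transcendental K f := by
  by_cases h : IsAlgebraic K f
  · left
    have hint : IsIntegral K f := h.isIntegral
    have hdeg : (minpoly K f).degree = 1 :=
      IsAlgClosed.degree_eq_one_of_irreducible K (minpoly.irreducible hint)
    obtain ⟨a, ha⟩ := minpoly.mem_range_of_degree_eq_one K f hdeg
    exact ⟨a, ha.symm⟩
  · exact Or.inr h

theorem finiteDimensional_of_isFF1 [IsFF1 K F] {f : F} (hf : Transcendental K f) :
    FiniteDimensional K⟮f⟯ F :=
  (PlaceDiff.isFunctionField1 (K := K) (F := F)).finite hf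

theorem zerosOf_finite' [IsFF1 K F] {f : F} (hf : Transcendental K f) :
    (zerosOf K f).Finite := by
  haveI := finiteDimensional_of_isFF1 hf
  exact Lib.FFPlaces.finite_zeros_self hf

theorem sum_ord_zerosOf' [IsFF1 K F] {f : F} (hf : Transcendental K f) :
    ∑ᶠ w ∈ zerosOf K f, w.ord f = (Module.finrank K⟮f⟯ F : ℤ) := by
  haveI := finiteDimensional_of_isFF1 hf
  exact Lib.FFPlaces.sum_ord_zeros_self hf

theorem polesOf_finite' [IsFF1 K F] {f : F} (hf : Transcendental K f) :
    (polesOf K f).Finite := by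
  haveI := finiteDimensional_of_isFF1 hf
  exact Lib.FFPlaces.finite_poles hf

theorem sum_ord_polesOf' [IsFF1 K F] {f : F} (hf : Transcendental K f) :
    ∑ᶠ w ∈ polesOf K f, w.ord f = -(Module.finrank K⟮f⟯ F : ℤ) := by
  haveI := finiteDimensional_of_isFF1 hf
  exact Lib.FFPlaces.sum_ord_poles hf

theorem exists_residue' [hFF : IsFF1 K F] (w : Place K F) (f : F)
    (hf : f ∈ w.toValuationSubring) :
    ∃ a : K, f = algebraMap K F a ∨ 0 < w.ord (f - algebraMap K F a) := by
  obtain ⟨a, ha⟩ := Lib.PlaceGaloisPlan.residue_of_isFF1 hFF w f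
    (PlaceBridge.ord_nonneg_of_mem w hf)
  refine ⟨a, ?_⟩
  rcases ha with h0 | h1
  · left
    exact sub_eq_zero.mp h0
  · right
    have h1' : (1 : ℤ) ≤ w.ord (f - algebraMap K F a) := h1
    omega

/-- **Riemann–Hurwitz** for `F / K(x)` (Plan A3), from the landed core. -/
theorem genus_eq_of_ramification' [IsFF1 K F] [HasCanonicalDivisor (K := K) (F := F)]
    (x : F) (hx : Transcendental K x) (S : Finset K)
    (hS : ∀ a : K, a ∉ S → ∀ w : Place K F, 0 < w.ord (x - algebraMap K F a) →
      w.ord (x - algebraMap K F a) = 1) :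
    genus K F =
      ((∑ a ∈ S, ((Module.finrank K⟮x⟯ F : ℤ) - Nat.card (zerosOf K (x - algebraMap K F a)))
          - (Module.finrank K⟮x⟯ F : ℤ) - Nat.card (polesOf K x) + 2).toNat) / 2 :=
  RiemannHurwitz.genus_eq_of_ramification_core x hx S hS kaehler_nontrivial
    (fun w => dCoord_generates w)
    (fun w => Lib.PlaceChart.deg_eq_one PlaceDiff.isFunctionField1 w)
    (fun ω => exists_eq_smul_D hx ω)
    (fun w => differentialCoeff_D_ne_zero w hx)
    (fun w _ hf => ordDifferential_D w hf)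
    exists_residue'
    const_or_transcendental
    ord_algebraMap
    (fun w _ hf h => (mem_iff_ord_nonneg w hf).mpr h)
    (fun w _ _ hf hg hfg => ord_add_ge w hf hg hfg)
    (fun _ hf => zerosOf_finite' hf)
    (fun _ hf => sum_ord_zerosOf' hf)
    (fun _ hf => polesOf_finite' hf)
    (fun _ hf => sum_ord_polesOf' hf)

end closed

section tower

variable {K F M : Type*} [Field K] [IsAlgClosed K] [CharZero K] [Field F] [Field M]
  [Algebra K F] [Algebra K M] [Algebra F M] [IsScalarTower K F M]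

theorem transcendental_of_ord_ne_zero (W : Place K M) (y : F)
    (hW : W.ord (algebraMap F M y) ≠ 0) : Transcendental K y := by
  rcases const_or_transcendental (K := K) y with ⟨a, rfl⟩ | h
  · exfalso
    apply hW
    rw [← IsScalarTower.algebraMap_apply K F M]
    exact ord_algebraMap W a
  · exact h

theorem transcendental_algebraMap {y : F} (hy : Transcendental K y) :
    Transcendental K (algebraMap F M y) :=
  (transcendental_algebraMap_iff (algebraMap F M).injective).mpr hy

variable (G : Subgroup (M ≃ₐ[K] M)) [Finite G] (y : F) (hy : Transcendental K y)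
  (hG : ∀ m : M, (∀ σ ∈ G, σ m = m) ↔ m ∈ K⟮algebraMap F M y⟯)

include hy hG

/-- Plan A5 (b), decomposition group = ramification index. -/
theorem card_stabilizer' (W : Place K M) (hW : 0 < W.ord (algebraMap F M y)) :
    (Nat.card (MulAction.stabilizer G W) : ℤ) = W.ord (algebraMap F M y) := by
  obtain ⟨-, hM, -⟩ := isFF1_of_fixed G y hy hG
  haveI := hM
  have hyM := transcendental_algebraMap (M := M) hy
  exact Lib.PlaceGaloisPlan.card_stabilizer G y hy hG (zerosOf_finite' hyM)
    (sum_ord_zerosOf' hyM) W hW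

/-- Plan A5 (b), places of `F` over `y = 0` are the orbits of the decomposition group. -/
theorem card_zerosOf_eq_card_orbits' (W : Place K M) (hW : 0 < W.ord (algebraMap F M y)) :
    Nat.card (zerosOf K y) =
      Nat.card (MulAction.orbitRel.Quotient (MulAction.stabilizer G W) (G ⧸ fixerOf F G)) := by
  obtain ⟨hF, hM, -⟩ := isFF1_of_fixed G y hy hG
  haveI := hF
  haveI := hM
  have hyM := transcendental_algebraMap (M := M) hy
  exact Lib.PlaceGaloisPlan.card_zerosOf_eq_card_orbits G y hy hG (zerosOf_finite' hyM)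
    (sum_ord_zerosOf' hyM) (zerosOf_finite' hy) (sum_ord_zerosOf' hy) W hW

/-- Plan A5 (b), unramified criterion. -/
theorem ord_eq_one_of_exists' (W : Place K M) (hW : W.ord (algebraMap F M y) = 1)
    (w : Place K F) (hw : 0 < w.ord y) : w.ord y = 1 := by
  obtain ⟨hF, -, -⟩ := isFF1_of_fixed G y hy hG
  haveI := hF
  exact Lib.PlaceGaloisPlan.ord_eq_one_of_exists G y hy hG (zerosOf_finite' hy)
    (sum_ord_zerosOf' hy) W hW w hw

end tower

section main

variable (N : ℕ) [NeZero N] {M : Type} [Field M] [Algebra Kbar M] [Algebra (FN N) M]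
  [IsScalarTower Kbar (FN N) M] (ρ : SL(2, ℤ) →* (M ≃ₐ[Kbar] M)) (h : IsModularDatum N M ρ)

include h

/-- the fixed field of `ρ.range` is `K(y')` whenever `K(y') = K(j')`. -/
theorem fixed_iff (y : FN N)
    (hy : Kbar⟮algebraMap (FN N) M y⟯ = Kbar⟮algebraMap (FN N) M (jBar N)⟯) :
    ∀ m : M, (∀ σ ∈ ρ.range, σ m = m) ↔ m ∈ Kbar⟮algebraMap (FN N) M y⟯ := by
  intro m
  rw [hy]
  constructor
  · intro hm
    exact h.fixed m (fun γ => hm (ρ γ) ⟨γ, rfl⟩)
  · rintro hm σ ⟨γ, rfl⟩
    exact apply_eq_of_mem_adjoin (ρ γ) (h.fix_j γ) hm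

theorem mem_fixerOf_iff (γ : SL(2, ℤ)) :
    (⟨ρ γ, ⟨γ, rfl⟩⟩ : ρ.range) ∈ fixerOf (FN N) ρ.range ↔ γ ∈ Gamma0 N :=
  h.fixer γ

theorem mem_Gamma0_of_eq_one (γ : SL(2, ℤ)) (hγ : ρ γ = 1) : γ ∈ Gamma0 N := by
  rw [← h.fixer γ]
  intro f
  rw [hγ]
  rfl

/-- the places of `F_N` over `y = 0` are counted by the orbits of `c` on `SL(2,ℤ) ⧸ Γ₀(N)`. -/
theorem card_zerosOf_eq (y : FN N)
    (hy : Kbar⟮algebraMap (FN N) M y⟯ = Kbar⟮algebraMap (FN N) M (jBar N)⟯)
    (W : Place Kbar M) (hpos : 0 < W.ord (algebraMap (FN N) M y)) (c : SL(2, ℤ))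
    (hc : ρ c • W = W)
    (hle : W.ord (algebraMap (FN N) M y) ≤ (orderOf (ρ c) : ℤ) ∨ N = 1) :
    Nat.card (zerosOf Kbar y) =
      Nat.card (MulAction.orbitRel.Quotient (Subgroup.zpowers c) (SL(2, ℤ) ⧸ Gamma0 N)) := by
  haveI : Finite ρ.range := h.finite_range
  have hyt : Transcendental Kbar y := transcendental_of_ord_ne_zero W y hpos.ne'
  have hG := fixed_iff N ρ h y hy
  rw [card_zerosOf_eq_card_orbits' ρ.range y hyt hG W hpos]
  apply OrbitTransport.card_orbits_eq ρ (fixerOf (FN N) ρ.range) (Gamma0 N)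
    (mem_fixerOf_iff N ρ h) c
  · rw [MulAction.mem_stabilizer_iff]
    exact hc
  · rcases hle with hle | hN1
    · left
      have hcard := card_stabilizer' ρ.range y hyt hG W hpos
      rw [← hcard] at hle
      exact_mod_cast hle
    · right
      rw [hN1]
      exact OrbitTransport.Gamma0_one

theorem genus_eq_of_datum [HasCanonicalDivisor (K := Kbar) (F := FN N)] :
    (genus Kbar (FN N) : ℚ) = genusFormula N := by
  classical
  haveI : Finite ρ.range := h.finite_range
  obtain ⟨W₂, h2pos, h2le, h2fix⟩ := h.exists_two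
  obtain ⟨W₃, h3pos, h3le, h3fix⟩ := h.exists_three
  obtain ⟨Wc, hcneg, hcle, hcfix⟩ := h.exists_cusp
  have hxt : Transcendental Kbar (jBar N) := transcendental_of_ord_ne_zero Wc (jBar N) hcneg.ne
  have hG0 := fixed_iff N ρ h (jBar N) rfl
  obtain ⟨hFF, -, -⟩ := isFF1_of_fixed ρ.range (jBar N) hxt hG0
  haveI := hFF
  have hn : Module.finrank Kbar⟮jBar N⟯ (FN N) = Nat.card (SL(2, ℤ) ⧸ Gamma0 N) := by
    rw [finrank_eq_card_quotient ρ.range (jBar N) hxt hG0]
    exact OrbitTransport.card_quot ρ _ _ (mem_fixerOf_iff N ρ h)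
  have hmap_sub : ∀ a : Kbar, algebraMap (FN N) M (jBar N - algebraMap Kbar (FN N) a)
      = algebraMap (FN N) M (jBar N) - algebraMap Kbar M a := by
    intro a
    rw [map_sub, ← IsScalarTower.algebraMap_apply]
  have hadj : ∀ a : Kbar, Kbar⟮algebraMap (FN N) M (jBar N - algebraMap Kbar (FN N) a)⟯
      = Kbar⟮algebraMap (FN N) M (jBar N)⟯ := by
    intro a
    rw [hmap_sub]
    exact adjoin_sub_eq _ a
  have hneg := h.neg_one
  have hk := mem_Gamma0_of_eq_one N ρ h
  -- the fibre over 1728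
  have r2 : Nat.card (zerosOf Kbar (jBar N - algebraMap Kbar (FN N) 1728)) =
      Nat.card (MulAction.orbitRel.Quotient (Subgroup.zpowers S) (SL(2, ℤ) ⧸ Gamma0 N)) := by
    apply card_zerosOf_eq N ρ h _ (hadj 1728) W₂ (by rw [hmap_sub]; exact h2pos) S h2fix
    by_cases hN1 : N = 1
    · right; exact hN1
    · left
      rw [hmap_sub, OrbitTransport.orderOf_S ρ N hneg hk hN1]
      exact_mod_cast h2le
  -- the fibre over 0
  have h0 : algebraMap (FN N) M (jBar N - algebraMap Kbar (FN N) 0)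
      = algebraMap (FN N) M (jBar N) := by
    rw [map_zero, sub_zero]
  have r3 : Nat.card (zerosOf Kbar (jBar N - algebraMap Kbar (FN N) 0)) =
      Nat.card (MulAction.orbitRel.Quotient (Subgroup.zpowers (S * T))
        (SL(2, ℤ) ⧸ Gamma0 N)) := by
    apply card_zerosOf_eq N ρ h _ (hadj 0) W₃ (by rw [h0]; exact h3pos) (S * T) h3fix
    by_cases hN1 : N = 1
    · right; exact hN1
    · left
      rw [h0, OrbitTransport.orderOf_ST ρ N hneg hk hN1]
      exact_mod_cast h3le
  -- the fibre over ∞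
  have hinv : algebraMap (FN N) M (jBar N)⁻¹ = (algebraMap (FN N) M (jBar N))⁻¹ :=
    map_inv₀ _ _
  have hord : Wc.ord (algebraMap (FN N) M (jBar N)⁻¹)
      = - Wc.ord (algebraMap (FN N) M (jBar N)) := by
    rw [hinv, Place.ord_inv]
  have rinf : Nat.card (polesOf Kbar (jBar N)) =
      Nat.card (MulAction.orbitRel.Quotient (Subgroup.zpowers T) (SL(2, ℤ) ⧸ Gamma0 N)) := by
    rw [polesOf_eq_zerosOf_inv]
    apply card_zerosOf_eq N ρ h _ (by rw [hinv]; exact adjoin_inv_eq _) Wc
      (by rw [hord]; omega) T hcfix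
    left
    rw [hord]
    have hT := OrbitTransport.le_orderOf_T ρ N hk
    have hT' : (N : ℤ) ≤ (orderOf (ρ T) : ℤ) := by exact_mod_cast hT
    omega
  -- generic fibres are unramified
  have hS : ∀ a : Kbar, a ∉ ({0, 1728} : Finset Kbar) → ∀ w : Place Kbar (FN N),
      0 < w.ord (jBar N - algebraMap Kbar (FN N) a) →
      w.ord (jBar N - algebraMap Kbar (FN N) a) = 1 := by
    intro a ha w hw
    simp only [Finset.mem_insert, Finset.mem_singleton, not_or] at ha
    obtain ⟨W, hW⟩ := h.exists_generic a ha.1 ha.2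
    have hW' : W.ord (algebraMap (FN N) M (jBar N - algebraMap Kbar (FN N) a)) = 1 := by
      rw [hmap_sub]; exact hW
    have hyt : Transcendental Kbar (jBar N - algebraMap Kbar (FN N) a) :=
      transcendental_of_ord_ne_zero W _ (by rw [hW']; exact one_ne_zero)
    exact ord_eq_one_of_exists' ρ.range _ hyt (fixed_iff N ρ h _ (hadj a)) W hW' w hw
  -- Riemann–Hurwitz
  have hRH := genus_eq_of_ramification' (K := Kbar) (jBar N) hxt ({0, 1728} : Finset Kbar) hS
  have h01 : (0 : Kbar) ≠ 1728 := by norm_num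
  rw [Finset.sum_pair h01, r2, r3, rinf, hn] at hRH
  -- numerics
  have hnegmem : (-1 : SL(2, ℤ)) ∈ Gamma0 N := by
    rw [Gamma0_mem]
    simp
  obtain ⟨g, hg1, -, -, hg4⟩ := Lib.PermGenus.exists_genus_nat (Gamma0 N) hnegmem
  have hidx : (Gamma0 N).index = Nat.card (SL(2, ℤ) ⧸ Gamma0 N) := rfl
  rw [hidx] at hg1 hg4
  have hgen : genus Kbar (FN N) = g := by
    rw [hRH]
    omega
  rw [hgen, genusFormula, ← Lib.Gamma0Count.card_quotient N, ← Lib.Gamma0Count.card_fixedBy_S N,
    ← Lib.Gamma0Count.card_fixedBy_ST N, ← Lib.Gamma0Count.card_orbits_T N]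
  have hg4' : (12 * g : ℚ) = (Nat.card (SL(2, ℤ) ⧸ Gamma0 N) : ℚ) + 12
      - 3 * (Nat.card (MulAction.fixedBy (SL(2, ℤ) ⧸ Gamma0 N) S) : ℚ)
      - 4 * (Nat.card (MulAction.fixedBy (SL(2, ℤ) ⧸ Gamma0 N) (S * T)) : ℚ)
      - 6 * (Nat.card (MulAction.orbitRel.Quotient (Subgroup.zpowers T)
          (SL(2, ℤ) ⧸ Gamma0 N)) : ℚ) := by
    exact_mod_cast hg4
  linarith

end main

end Assembly

/-- **S24, algebraic half** (Plan statement): the genus formula follows from a modular datum. -/
theorem genus_eq_of_datum (N : ℕ) [NeZero N]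
    [HasCanonicalDivisor (K := Kbar) (F := FN N)]
    {M : Type} [Field M] [Algebra Kbar M] [Algebra (FN N) M] [IsScalarTower Kbar (FN N) M]
    (ρ : SL(2, ℤ) →* (M ≃ₐ[Kbar] M)) (h : IsModularDatum N M ρ) :
    (genus Kbar (FN N) : ℚ) = genusFormula N :=
  Assembly.genus_eq_of_datum N ρ h

end Fermat.Agent.S24
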