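/-
S24 — package B5 (owner: helper73): the fraction field of a stable ring of holomorphic functions.
EXACT PlanB statements (origin/helper24:Fermat/Agent/S24/PlanB.lean, section B5) + extras.

For a subring `R` of functions `ℍ → ℂ` with `[IsHolStable R]` (landed `S24/ModDefs.lean`:
holomorphic, contains the constants `iota Q̄`, stable under `SL(2,ℤ)`):

* `translate_mul`, `translateEquiv R γ : R ≃ₐ[Q̄] R` (`f ↦ f ∘ γ`, a RIGHT action);
* `rhoHol R : SL(2,ℤ) →* (FractionRing R ≃ₐ[Q̄] FractionRing R)` with
  `rhoHol R γ (algebraMap f) = algebraMap (translate R γ⁻¹ f)`, `rhoHol R (-1) = 1`;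
* `finite_range_rhoHol`: finite range when `R` is generated by the constants and a finite
  `SL(2,ℤ)`-stable set of functions;
* `liftHol`: extension of an injective ring hom `R →+* L` (e.g. a Laurent expansion) to
  `FractionRing R`;
* `exists_invariant_denominator`: the norm trick;
* `valHol`: extension of a valuation of `R` with trivial support to `FractionRing R`, and its
  invariance under `rhoHol R γ`;
* `exists_place_of_valHol`: a nontrivial `ℤ`-valued valuation of `R`, trivial on the constants,
  gives a place of `FractionRing R / Q̄` (landed A6 `PlaceVal`), fixed by every `rhoHol R γ`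
  leaving the valuation invariant.
-/
import Mathlib
import Fermat.Agent.S24.ModDefs
import Fermat.Agent.S24.PlaceVal

set_option autoImplicit false

noncomputable section

namespace Fermat.Agent.S24

open UpperHalfPlane
open scoped MatrixGroups Manifold

section translate

variable (R : Subring (ℍ → ℂ)) [IsHolStable R]

@[simp]
theorem translate_one (f : R) : translate R 1 f = f := by
  apply Subtype.ext
  funext τ
  simp

theorem translate_mul (γ γ' : SL(2, ℤ)) (f : R) :
    translate R (γ * γ') f = translate R γ' (translate R γ f) := by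
  apply Subtype.ext
  funext τ
  simp [mul_smul]

@[simp]
theorem translate_translate_inv (γ : SL(2, ℤ)) (f : R) :
    translate R γ (translate R γ⁻¹ f) = f := by
  rw [← translate_mul, inv_mul_cancel, translate_one]

@[simp]
theorem translate_inv_translate (γ : SL(2, ℤ)) (f : R) :
    translate R γ⁻¹ (translate R γ f) = f := by
  rw [← translate_mul, mul_inv_cancel, translate_one]

/-- `-1` acts trivially. -/
@[simp]
theorem translate_neg_one (f : R) : translate R (-1) f = f := by
  apply Subtype.ext
  funext τ
  rw [translate_apply, ModularGroup.SL_neg_smul, one_smul]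

/-- Constants are fixed by every translation. -/
@[simp]
theorem translate_algebraMap (γ : SL(2, ℤ)) (c : Kbar) :
    translate R γ (algebraMap Kbar R c) = algebraMap Kbar R c := by
  apply Subtype.ext
  funext τ
  simp [algebraMap_apply_coe, constFun]

/-- `translate R γ` as a `Q̄`-algebra automorphism of `R` (`f ↦ f ∘ γ`; a RIGHT action). -/
def translateEquiv (γ : SL(2, ℤ)) : R ≃ₐ[Kbar] R where
  toFun := translate R γ
  invFun := translate R γ⁻¹
  left_inv f := translate_inv_translate R γ f
  right_inv f := translate_translate_inv R γ f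
  map_mul' f g := by
    apply Subtype.ext
    funext τ
    simp
  map_add' f g := by
    apply Subtype.ext
    funext τ
    simp
  commutes' c := translate_algebraMap R γ c

theorem translateEquiv_apply (γ : SL(2, ℤ)) (f : R) : translateEquiv R γ f = translate R γ f :=
  rfl

theorem translateEquiv_symm_apply (γ : SL(2, ℤ)) (f : R) :
    (translateEquiv R γ).symm f = translate R γ⁻¹ f :=
  rfl

theorem translate_injective (γ : SL(2, ℤ)) : Function.Injective (translate R γ) :=
  (translateEquiv R γ).injective

@[simp]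
theorem translate_zero (γ : SL(2, ℤ)) : translate R γ 0 = 0 :=
  map_zero (translateEquiv R γ)

theorem translate_ne_zero (γ : SL(2, ℤ)) {f : R} (hf : f ≠ 0) : translate R γ f ≠ 0 :=
  fun h => hf (translate_injective R γ (h.trans (translate_zero R γ).symm))

theorem translate_mul' (γ : SL(2, ℤ)) (f g : R) :
    translate R γ (f * g) = translate R γ f * translate R γ g :=
  map_mul (translateEquiv R γ) f g

theorem translate_add (γ : SL(2, ℤ)) (f g : R) :
    translate R γ (f + g) = translate R γ f + translate R γ g :=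
  map_add (translateEquiv R γ) f g

/-- If `γ` and `γ'` agree on a generating set of functions then they agree on the ring. -/
theorem translate_eq_of_gens {X : Set (ℍ → ℂ)} (hR : (R : Set (ℍ → ℂ)) ⊆ Subring.closure X)
    (γ γ' : SL(2, ℤ)) (h : ∀ g ∈ X, ∀ τ : ℍ, g (γ • τ) = g (γ' • τ)) (f : R) :
    translate R γ f = translate R γ' f := by
  apply Subtype.ext
  funext τ
  simp only [translate_apply]
  have key : ∀ g ∈ Subring.closure X, ∀ τ : ℍ, g (γ • τ) = g (γ' • τ) := by
    intro g hg
    induction hg using Subring.closure_induction with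
    | mem x hx => exact h x hx
    | zero => intro τ; rfl
    | one => intro τ; rfl
    | add x y _ _ hx hy => intro τ; simp only [Pi.add_apply, hx τ, hy τ]
    | neg x _ hx => intro τ; simp only [Pi.neg_apply, hx τ]
    | mul x y _ _ hx hy => intro τ; simp only [Pi.mul_apply, hx τ, hy τ]
  exact key _ (hR f.2) τ

end translate

section field

variable (R : Subring (ℍ → ℂ)) [IsHolStable R]

omit [IsHolStable R] in
theorem algebraMap_fractionRing_injective :
    Function.Injective (algebraMap R (FractionRing R)) :=
  IsFractionRing.injective R (FractionRing R)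

theorem algebraMap_kbar_fractionRing (c : Kbar) :
    algebraMap Kbar (FractionRing R) c = algebraMap R (FractionRing R) (algebraMap Kbar R c) :=
  IsScalarTower.algebraMap_apply Kbar R (FractionRing R) c

/-- Every element of `FractionRing R` is a quotient of two elements of `R`. -/
theorem exists_fractionRing_eq_div (m : FractionRing R) :
    ∃ a b : R, b ≠ 0 ∧ m = algebraMap R (FractionRing R) a / algebraMap R (FractionRing R) b := by
  obtain ⟨a, b, hb, rfl⟩ := IsFractionRing.div_surjective (A := R) m
  exact ⟨a, b, nonZeroDivisors.ne_zero hb, rfl⟩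

/-- The ring automorphism of `FractionRing R` induced by `f ↦ f ∘ γ⁻¹`. -/
def rhoHolRing (γ : SL(2, ℤ)) : FractionRing R ≃+* FractionRing R :=
  IsFractionRing.ringEquivOfRingEquiv (translateEquiv R γ⁻¹).toRingEquiv

theorem rhoHolRing_algebraMap (γ : SL(2, ℤ)) (f : R) :
    rhoHolRing R γ (algebraMap R (FractionRing R) f)
      = algebraMap R (FractionRing R) (translate R γ⁻¹ f) := by
  unfold rhoHolRing
  rw [IsFractionRing.ringEquivOfRingEquiv_algebraMap]
  rfl

theorem rhoHolRing_div (γ : SL(2, ℤ)) (a b : R) :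
    rhoHolRing R γ (algebraMap R (FractionRing R) a / algebraMap R (FractionRing R) b) =
      algebraMap R (FractionRing R) (translate R γ⁻¹ a) /
        algebraMap R (FractionRing R) (translate R γ⁻¹ b) := by
  rw [map_div₀, rhoHolRing_algebraMap, rhoHolRing_algebraMap]

/-- The LEFT action of `SL(2,ℤ)` on `FractionRing R`: `rhoHol γ f = f ∘ γ⁻¹` on `R`. -/
def rhoHol : SL(2, ℤ) →* (FractionRing R ≃ₐ[Kbar] FractionRing R) where
  toFun γ := AlgEquiv.ofRingEquiv (f := rhoHolRing R γ) (fun c => by
    rw [algebraMap_kbar_fractionRing, rhoHolRing_algebraMap, translate_algebraMap])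
  map_one' := by
    apply AlgEquiv.ext
    intro m
    show rhoHolRing R 1 m = m
    obtain ⟨a, b, -, rfl⟩ := exists_fractionRing_eq_div R m
    rw [rhoHolRing_div, inv_one, translate_one, translate_one]
  map_mul' γ γ' := by
    apply AlgEquiv.ext
    intro m
    show rhoHolRing R (γ * γ') m = rhoHolRing R γ (rhoHolRing R γ' m)
    obtain ⟨a, b, -, rfl⟩ := exists_fractionRing_eq_div R m
    rw [rhoHolRing_div, rhoHolRing_div, rhoHolRing_div, mul_inv_rev, translate_mul,
      translate_mul]

theorem rhoHol_apply (γ : SL(2, ℤ)) (m : FractionRing R) : rhoHol R γ m = rhoHolRing R γ m := rfl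

theorem rhoHol_algebraMap (γ : SL(2, ℤ)) (f : R) :
    rhoHol R γ (algebraMap R (FractionRing R) f)
      = algebraMap R (FractionRing R) (translate R γ⁻¹ f) :=
  rhoHolRing_algebraMap R γ f

theorem rhoHol_div (γ : SL(2, ℤ)) (a b : R) :
    rhoHol R γ (algebraMap R (FractionRing R) a / algebraMap R (FractionRing R) b) =
      algebraMap R (FractionRing R) (translate R γ⁻¹ a) /
        algebraMap R (FractionRing R) (translate R γ⁻¹ b) :=
  rhoHolRing_div R γ a b

/-- `rhoHol R γ⁻¹` is `f ↦ f ∘ γ` on `R`. -/
theorem rhoHol_inv_algebraMap (γ : SL(2, ℤ)) (f : R) :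
    rhoHol R γ⁻¹ (algebraMap R (FractionRing R) f)
      = algebraMap R (FractionRing R) (translate R γ f) := by
  rw [rhoHol_algebraMap, inv_inv]

/-- The translate by `γ` in the shape used by the place packages: `rhoHol R γ` maps the image of
`r` to the image of `r' = r ∘ γ⁻¹`. -/
theorem rhoHol_exists (γ : SL(2, ℤ)) (r : R) :
    ∃ r' : R, rhoHol R γ (algebraMap R (FractionRing R) r) = algebraMap R (FractionRing R) r' ∧
      ∀ τ : ℍ, (r' : ℍ → ℂ) τ = (r : ℍ → ℂ) (γ⁻¹ • τ) :=
  ⟨translate R γ⁻¹ r, rhoHol_algebraMap R γ r, fun _ => rfl⟩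

/-- Two elements of `SL(2,ℤ)` induce the same automorphism of the fraction field iff they
translate the ring in the same way. -/
theorem rhoHol_eq_iff (γ γ' : SL(2, ℤ)) :
    rhoHol R γ = rhoHol R γ' ↔ ∀ f : R, translate R γ⁻¹ f = translate R γ'⁻¹ f := by
  constructor
  · intro h f
    apply algebraMap_fractionRing_injective R
    rw [← rhoHol_algebraMap, ← rhoHol_algebraMap, h]
  · intro h
    apply AlgEquiv.ext
    intro m
    obtain ⟨a, b, -, rfl⟩ := exists_fractionRing_eq_div R m
    rw [rhoHol_div, rhoHol_div, h a, h b]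

/-- An element of `SL(2,ℤ)` acts trivially on the fraction field iff it acts trivially on the
ring. -/
theorem rhoHol_eq_one_iff (γ : SL(2, ℤ)) :
    rhoHol R γ = 1 ↔ ∀ f : R, translate R γ f = f := by
  rw [← map_one (rhoHol R), rhoHol_eq_iff]
  constructor
  · intro h f
    have h1 := h (translate R γ f)
    rw [translate_inv_translate, inv_one, translate_one] at h1
    exact h1.symm
  · intro h f
    rw [inv_one, translate_one]
    have h1 := translate_inv_translate R γ f
    rw [h f] at h1
    exact h1

theorem rhoHol_neg_one : rhoHol R (-1) = 1 :=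
  (rhoHol_eq_one_iff R (-1)).mpr (translate_neg_one R)

/-- `rhoHol R γ` fixes a quotient of two functions invariant under `γ⁻¹`. -/
theorem rhoHol_div_of_fixed (γ : SL(2, ℤ)) {a b : R} (ha : translate R γ⁻¹ a = a)
    (hb : translate R γ⁻¹ b = b) :
    rhoHol R γ (algebraMap R (FractionRing R) a / algebraMap R (FractionRing R) b) =
      algebraMap R (FractionRing R) a / algebraMap R (FractionRing R) b := by
  rw [rhoHol_div, ha, hb]

/-- The automorphisms `rhoHol γ` and `rhoHol γ'` agree as soon as `γ⁻¹`, `γ'⁻¹` agree on a set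
of functions generating `R` as a ring. -/
theorem rhoHol_eq_of_gens {X : Set (ℍ → ℂ)} (hR : (R : Set (ℍ → ℂ)) ⊆ Subring.closure X)
    (γ γ' : SL(2, ℤ)) (h : ∀ g ∈ X, ∀ τ : ℍ, g (γ⁻¹ • τ) = g (γ'⁻¹ • τ)) :
    rhoHol R γ = rhoHol R γ' :=
  (rhoHol_eq_iff R γ γ').mpr (translate_eq_of_gens R hR γ⁻¹ γ'⁻¹ h)

/-- finite image as soon as `R` is generated by the constants and a finite stable set. -/
theorem finite_range_rhoHol (S : Set (ℍ → ℂ)) (hS : S.Finite)
    (hgen : R = Subring.closure (Set.range constFun ∪ S))
    (hstab : ∀ (γ : SL(2, ℤ)) (f : ℍ → ℂ), f ∈ S → (fun τ => f (γ • τ)) ∈ S) :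
    Finite (rhoHol R).range := by
  have hSfin : Finite S := hS
  have hR : (R : Set (ℍ → ℂ)) ⊆ Subring.closure (Set.range constFun ∪ S) := by
    intro f hf
    rw [← hgen]
    exact hf
  -- the map recording the action on the generators
  let Φ : SL(2, ℤ) → (S → S) := fun γ g => ⟨fun τ => g.1 (γ⁻¹ • τ), hstab γ⁻¹ g.1 g.2⟩
  have hΦ : ∀ γ γ' : SL(2, ℤ), Φ γ = Φ γ' → rhoHol R γ = rhoHol R γ' := by
    intro γ γ' hγ
    refine rhoHol_eq_of_gens R hR γ γ' ?_
    intro g hg τ
    rcases hg with ⟨c, rfl⟩ | hg
    · rfl
    · have h1 := congrFun hγ ⟨g, hg⟩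
      have h2 := congrArg Subtype.val h1
      exact congrFun h2 τ
  have hfin : Finite (Set.range Φ) := inferInstance
  let Ψ : Set.range Φ → (rhoHol R).range := fun t => ⟨rhoHol R t.2.choose, ⟨_, rfl⟩⟩
  refine Finite.of_surjective Ψ ?_
  rintro ⟨σ, γ, rfl⟩
  refine ⟨⟨Φ γ, γ, rfl⟩, ?_⟩
  apply Subtype.ext
  show rhoHol R _ = rhoHol R γ
  apply hΦ
  exact (⟨Φ γ, γ, rfl⟩ : Set.range Φ).2.choose_spec

/-- With finite range, every `SL(2,ℤ)`-orbit in `R` is finite. -/
theorem finite_orbit_of_finite_range (hfin : Finite (rhoHol R).range) (b : R) :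
    (Set.range (fun γ : SL(2, ℤ) => translate R γ b)).Finite := by
  have h1 : (Set.range (fun σ : (rhoHol R).range =>
      (σ : FractionRing R ≃ₐ[Kbar] FractionRing R) (algebraMap R (FractionRing R) b))).Finite :=
    Set.finite_range _
  refine Set.Finite.of_finite_image (f := algebraMap R (FractionRing R)) (h1.subset ?_)
    (fun x _ y _ hxy => algebraMap_fractionRing_injective R hxy)
  rintro _ ⟨_, ⟨γ, rfl⟩, rfl⟩
  exact ⟨⟨rhoHol R γ⁻¹, ⟨γ⁻¹, rfl⟩⟩, rhoHol_inv_algebraMap R γ b⟩

/-- The norm trick with finite range as the hypothesis. -/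
theorem exists_invariant_denominator_of_finite_range (hfin : Finite (rhoHol R).range)
    (m : FractionRing R) :
    ∃ a b : R, b ≠ 0 ∧ (∀ γ : SL(2, ℤ), translate R γ b = b) ∧
      m * algebraMap R (FractionRing R) b = algebraMap R (FractionRing R) a := by
  classical
  obtain ⟨a₀, b₀, hb₀, rfl⟩ := exists_fractionRing_eq_div R m
  have hO := finite_orbit_of_finite_range R hfin b₀
  set O : Finset R := hO.toFinset with hOdef
  have hmemO : ∀ c : R, c ∈ O ↔ ∃ γ : SL(2, ℤ), translate R γ b₀ = c := by
    intro c
    rw [hOdef, Set.Finite.mem_toFinset]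
    rfl
  have hb₀O : b₀ ∈ O := (hmemO b₀).mpr ⟨1, translate_one R b₀⟩
  refine ⟨a₀ * ∏ c ∈ O.erase b₀, c, ∏ c ∈ O, c, ?_, ?_, ?_⟩
  · rw [Finset.prod_ne_zero_iff]
    intro c hc
    obtain ⟨γ, rfl⟩ := (hmemO c).mp hc
    exact translate_ne_zero R γ hb₀
  · intro γ
    have himg : O.image (translateEquiv R γ) = O := by
      ext c
      rw [Finset.mem_image]
      constructor
      · rintro ⟨d, hd, rfl⟩
        obtain ⟨γ', rfl⟩ := (hmemO d).mp hd
        exact (hmemO _).mpr ⟨γ' * γ, by rw [translate_mul, translateEquiv_apply]⟩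
      · intro hc
        obtain ⟨γ', rfl⟩ := (hmemO c).mp hc
        refine ⟨translate R (γ' * γ⁻¹) b₀, (hmemO _).mpr ⟨_, rfl⟩, ?_⟩
        rw [translateEquiv_apply, ← translate_mul, inv_mul_cancel_right]
    calc translate R γ (∏ c ∈ O, c) = translateEquiv R γ (∏ c ∈ O, c) := rfl
      _ = ∏ c ∈ O, translateEquiv R γ c := map_prod (translateEquiv R γ) _ _
      _ = ∏ c ∈ O.image (translateEquiv R γ), c :=
          (Finset.prod_image (f := fun c : R => c) (s := O) (g := translateEquiv R γ)
            (fun x _ y _ h => (translateEquiv R γ).injective h)).symm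
      _ = ∏ c ∈ O, c := by rw [himg]
  · have hb₀' : algebraMap R (FractionRing R) b₀ ≠ 0 :=
      (map_ne_zero_iff _ (algebraMap_fractionRing_injective R)).mpr hb₀
    rw [← Finset.mul_prod_erase O (fun c => c) hb₀O, map_mul, map_mul]
    field_simp

/-- every element of the field is a quotient with `SL(2,ℤ)`-invariant denominator (norm trick). -/
theorem exists_invariant_denominator (S : Set (ℍ → ℂ)) (hS : S.Finite)
    (hgen : R = Subring.closure (Set.range constFun ∪ S))
    (hstab : ∀ (γ : SL(2, ℤ)) (f : ℍ → ℂ), f ∈ S → (fun τ => f (γ • τ)) ∈ S)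
    (m : FractionRing R) :
    ∃ a b : R, b ≠ 0 ∧ (∀ γ : SL(2, ℤ), translate R γ b = b) ∧
      m * algebraMap R (FractionRing R) b = algebraMap R (FractionRing R) a :=
  exists_invariant_denominator_of_finite_range R (finite_range_rhoHol R S hS hgen hstab) m

end field

section lift

variable (R : Subring (ℍ → ℂ)) [IsHolStable R]

/-- an injective ring hom out of `R` extends to the fraction field. -/
def liftHol {L : Type*} [Field L] (e : R →+* L) (he : Function.Injective e) :
    FractionRing R →+* L :=
  IsFractionRing.lift he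

theorem liftHol_algebraMap {L : Type*} [Field L] (e : R →+* L) (he : Function.Injective e)
    (f : R) : liftHol R e he (algebraMap R (FractionRing R) f) = e f :=
  IsFractionRing.lift_algebraMap he f

theorem liftHol_injective {L : Type*} [Field L] (e : R →+* L) (he : Function.Injective e) :
    Function.Injective (liftHol R e he) :=
  (liftHol R e he).injective

theorem liftHol_div {L : Type*} [Field L] (e : R →+* L) (he : Function.Injective e)
    (a b : R) :
    liftHol R e he (algebraMap R (FractionRing R) a / algebraMap R (FractionRing R) b) =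
      e a / e b := by
  rw [map_div₀, liftHol_algebraMap, liftHol_algebraMap]

/-- Extension of a valuation with trivial support on `R` to the fraction field. -/
def valHol {Γ₀ : Type*} [LinearOrderedCommGroupWithZero Γ₀] (v : Valuation R Γ₀)
    (hv : ∀ f : R, v f = 0 → f = 0) : Valuation (FractionRing R) Γ₀ :=
  v.extendToLocalization (S := nonZeroDivisors R) (fun f hf hsupp =>
    nonZeroDivisors.ne_zero hf (hv f hsupp)) (FractionRing R)

omit [IsHolStable R] in
theorem valHol_algebraMap {Γ₀ : Type*} [LinearOrderedCommGroupWithZero Γ₀]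
    (v : Valuation R Γ₀) (hv : ∀ f : R, v f = 0 → f = 0) (f : R) :
    valHol R v hv (algebraMap R (FractionRing R) f) = v f :=
  Valuation.extendToLocalization_apply_map_apply _ _ _ f

theorem valHol_div {Γ₀ : Type*} [LinearOrderedCommGroupWithZero Γ₀]
    (v : Valuation R Γ₀) (hv : ∀ f : R, v f = 0 → f = 0) (a b : R) :
    valHol R v hv (algebraMap R (FractionRing R) a / algebraMap R (FractionRing R) b)
      = v a / v b := by
  rw [map_div₀, valHol_algebraMap, valHol_algebraMap]

/-- If a valuation of `R` is invariant under `f ↦ f ∘ γ⁻¹`, its extension to the fraction field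
is invariant under `rhoHol R γ`. -/
theorem valHol_rhoHol {Γ₀ : Type*} [LinearOrderedCommGroupWithZero Γ₀]
    (v : Valuation R Γ₀) (hv : ∀ f : R, v f = 0 → f = 0) (γ : SL(2, ℤ))
    (hγ : ∀ f : R, v (translate R γ⁻¹ f) = v f) (m : FractionRing R) :
    valHol R v hv (rhoHol R γ m) = valHol R v hv m := by
  obtain ⟨a, b, -, rfl⟩ := exists_fractionRing_eq_div R m
  rw [rhoHol_div, valHol_div, valHol_div, hγ a, hγ b]

/-- The extended valuation on the constants. -/
theorem valHol_algebraMap_kbar {Γ₀ : Type*} [LinearOrderedCommGroupWithZero Γ₀]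
    (v : Valuation R Γ₀) (hv : ∀ f : R, v f = 0 → f = 0) (c : Kbar) :
    valHol R v hv (algebraMap Kbar (FractionRing R) c) = v (algebraMap Kbar R c) := by
  rw [algebraMap_kbar_fractionRing, valHol_algebraMap]

end lift

section places

open AlgebraicCurve
open scoped WithZero

variable (R : Subring (ℍ → ℂ)) [IsHolStable R]

/-- **Place of the fraction field from a valuation of the ring.** A `ℤ`-valued valuation `v` of
`R` with trivial support, trivial on the nonzero constants and nontrivial, defines a place `W`
of `FractionRing R / Q̄` with `-(log (v f)) = e * ord_W f` on `R` for some `e ≥ 1`; and `W` is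
fixed by `rhoHol R γ` for every `γ` with `v (f ∘ γ⁻¹) = v f`. -/
theorem exists_place_of_valHol (v : Valuation R ℤᵐ⁰) (hv : ∀ f : R, v f = 0 → f = 0)
    (hK : ∀ c : Kbar, c ≠ 0 → v (algebraMap Kbar R c) = 1)
    (hnt : ∃ f : R, f ≠ 0 ∧ v f ≠ 1) :
    ∃ W : Place Kbar (FractionRing R),
      W.toValuationSubring = (valHol R v hv).valuationSubring ∧
      (∃ e : ℕ, 0 < e ∧ ∀ f : R, f ≠ 0 →
        -(WithZero.log (v f)) = e * W.ord (algebraMap R (FractionRing R) f)) ∧
      ∀ γ : SL(2, ℤ), (∀ f : R, v (translate R γ⁻¹ f) = v f) → rhoHol R γ • W = W := by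
  have hne : ∀ f : R, f ≠ 0 → algebraMap R (FractionRing R) f ≠ 0 := fun f hf =>
    (map_ne_zero_iff _ (algebraMap_fractionRing_injective R)).mpr hf
  obtain ⟨W, hW, e, he, hord⟩ := exists_place_of_valuation (K := Kbar) (valHol R v hv)
    (fun c hc => by rw [valHol_algebraMap_kbar]; exact hK c hc)
    (by
      obtain ⟨f, hf0, hf1⟩ := hnt
      exact ⟨algebraMap R (FractionRing R) f, hne f hf0, by rwa [valHol_algebraMap]⟩)
  refine ⟨W, hW, ⟨e, he, fun f hf => ?_⟩, fun γ hγ => ?_⟩
  · have h := hord (algebraMap R (FractionRing R) f) (hne f hf)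
    rwa [valHol_algebraMap] at h
  · exact smul_eq_of_valuation_invariant W _ hW _ (valHol_rhoHol R v hv γ hγ)

end places

end Fermat.Agent.S24
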