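/-
S24 package B7 (helper75): the Prelude function field inside `FractionRing (RN N)`.

Exact PlanB statements: `embFN`, `embFN_jBar`, `embFN_jBarLevel`, `embFN_fixed_iff`.
-/
import Mathlib
import Fermat.Agent.S24.ModDefs
import Fermat.Agent.S24.ModRing
import Fermat.Agent.S24.HolField
import Fermat.Agent.Lib.FFBridge
import Fermat.Agent.Lib.CuspLaurent
import Fermat.Agent.Lib.JqAnalytic

set_option autoImplicit false

noncomputable section

namespace Fermat.Agent.S24

open UpperHalfPlane ModularCurve CongruenceSubgroup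
open Fermat.Agent.Lib Fermat.Agent.Lib.JStab Fermat.Agent.Lib.CuspLaurent
open scoped MatrixGroups Manifold

/-! ### Analytic input: the `q`-expansion of `j(dτ)` is the Prelude series -/

theorem bridge_jInv_eq_jFun : jInv = JqAnalytic.jFun := rfl

theorem bridge_isMerCusp_jInv : IsMerCusp ((1 : ℕ) : ℝ) jInv where
  holo := mdifferentiable_jInv
  per := fun w => by
    simp only [Function.comp_apply]
    by_cases hw : 0 < w.im
    · have hw' : 0 < (w + ((1 : ℕ) : ℝ)).im := by simpa using hw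
      rw [ofComplex_apply_of_im_pos hw, ofComplex_apply_of_im_pos hw']
      have h1 : (⟨w + ((1 : ℕ) : ℝ), hw'⟩ : ℍ) = (1 : ℝ) +ᵥ (⟨w, hw⟩ : ℍ) := by
        apply UpperHalfPlane.ext
        simp [add_comm]
      rw [h1, bridge_jInv_eq_jFun]
      exact JqAnalytic.jFun_vadd_one _
    · have hw' : ¬ 0 < (w + ((1 : ℕ) : ℝ)).im := by simpa using hw
      rw [ofComplex_apply_eq_of_im_nonpos (not_lt.mp hw') (not_lt.mp hw)]
  exists_bdd := by
    refine ⟨1, ?_⟩
    have h := tendsto_qParam_mul_jInv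
    have h2 : (tParam ((1 : ℕ) : ℝ) ^ 1 * jInv) = fun τ : ℍ => Function.Periodic.qParam 1 τ * jInv τ := by
      funext τ
      simp [tParam]
    rw [h2]
    exact h.isBigO_one ℝ

theorem bridge_jInv_mem_merCusp : jInv ∈ merCusp 1 := bridge_isMerCusp_jInv

theorem bridge_coeff_jqModC (n : ℤ) :
    (jqModC ℂ).coeff n = ((jq.coeff n : ℚ) : ℂ) := by
  rw [← map_jqModC (algebraMap ℚ ℂ), jqModC_rat, HahnSeries.map_coeff]
  rfl

/-- The `q`-expansion of the analytic `j` is the Prelude series `jqModC ℂ`. -/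
theorem bridge_laurent_jInv :
    laurent 1 ⟨jInv, bridge_jInv_mem_merCusp⟩ = jqModC ℂ := by
  have hh : (0 : ℝ) < ((1 : ℕ) : ℝ) := by norm_num
  have hk : IsBoundedAtImInfty (tParam ((1 : ℕ) : ℝ) ^ 1 * jInv) := by
    have h := tendsto_qParam_mul_jInv
    have h2 : (tParam ((1 : ℕ) : ℝ) ^ 1 * jInv) =
        fun τ : ℍ => Function.Periodic.qParam 1 τ * jInv τ := by
      funext τ
      simp [tParam]
    rw [h2]
    exact h.isBigO_one ℝ
  ext n
  rw [laurent_apply, bridge_coeff_jqModC]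
  show (laurentFun ((1 : ℕ) : ℝ) jInv).coeff n = _
  by_cases hn : n < -1
  · rw [laurentFun_coeff_of_lt hh bridge_isMerCusp_jInv hk (by simpa using hn),
      coeff_jq_of_lt hn]
    simp
  · obtain ⟨m, rfl⟩ : ∃ m : ℕ, n = (m : ℤ) - 1 := ⟨(n + 1).toNat, by omega⟩
    have key := laurentFun_coeff_unique hh bridge_isMerCusp_jInv (k := 1)
      (a := fun m : ℕ => ((jq.coeff ((m : ℤ) - 1) : ℚ) : ℂ)) (fun τ => ?_) m
    · simpa using key
    · have h := JqAnalytic.hasSum_jFun τ
      simpa [tParam, bridge_jInv_eq_jFun] using h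

/-- The map `τ ↦ dτ` on `ℍ`. -/
def bridgeDil (d : ℕ) : ℍ → ℍ := fun τ => ofComplex ((d : ℂ) * (τ : ℂ))

theorem bridge_coe_dil (d : ℕ) [NeZero d] (τ : ℍ) :
    ((bridgeDil d τ : ℍ) : ℂ) = ((d : ℂ) * τ + ((0 : ℤ) : ℂ)) / ((1 : ℕ) : ℂ) := by
  have hd : (0 : ℝ) < d := Nat.cast_pos.mpr (NeZero.pos d)
  have him : 0 < ((d : ℂ) * (τ : ℂ)).im := by
    have : ((d : ℂ) * (τ : ℂ)).im = d * τ.im := by simp
    rw [this]
    exact mul_pos hd τ.im_pos
  rw [bridgeDil, ofComplex_apply_of_im_pos him]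
  simp

theorem bridge_jN_eq (d : ℕ) : jN d = jInv ∘ bridgeDil d := rfl

theorem bridge_jN_mem_merCusp (d : ℕ) [NeZero d] : jN d ∈ merCusp 1 := by
  rw [bridge_jN_eq]
  exact comp_affine_mem_merCusp (h₁ := 1) (h₂ := 1) bridge_jInv_mem_merCusp (a := d) (d := 1)
    (e := d) (b := 0) (NeZero.pos d) Nat.one_pos (bridge_coe_dil d) (by ring)

/-- The `q`-expansion of `τ ↦ j(dτ)` is the Prelude series `jqNModC ℂ d`. -/
theorem bridge_laurent_jN (d : ℕ) [NeZero d] :
    laurent 1 ⟨jN d, bridge_jN_mem_merCusp d⟩ = jqNModC ℂ d := by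
  ext n
  have h := laurent_comp_affine (h₁ := 1) (h₂ := 1) bridge_jInv_mem_merCusp (a := d) (d := 1)
    (e := d) (b := 0) (NeZero.pos d) Nat.one_pos (bridge_coe_dil d) (by ring) n
  have h' : (laurent 1 ⟨jN d, bridge_jN_mem_merCusp d⟩).coeff n =
      if (d : ℤ) ∣ n then (jqModC ℂ).coeff (n / d) else 0 := by
    rw [← bridge_laurent_jInv]
    refine h.trans ?_
    split_ifs with hdn
    · have h0 : Complex.exp (2 * (Real.pi : ℂ) * Complex.I * ((0 : ℤ) : ℂ) /
          (((1 : ℕ) : ℂ) * (((1 : ℕ) : ℝ) : ℂ))) = 1 := by simp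
      rw [h0, one_zpow, one_mul]
    · rfl
  rw [h', jqNModC]
  by_cases hdvd : (d : ℤ) ∣ n
  · obtain ⟨k, rfl⟩ := hdvd
    have hd0 : (d : ℤ) ≠ 0 := by exact_mod_cast NeZero.ne d
    rw [if_pos (dvd_mul_right _ _), qExpand_coeff_mul, Int.mul_ediv_cancel_left _ hd0]
  · rw [if_neg hdvd, qExpand_coeff_of_not_dvd d _ hdvd]

/-! ### The bridge: `FN N` inside `FractionRing (RN N)` -/

/-- The elements of `RN N` which are meromorphic at the cusp with period `1`. -/
def bridgeRing (N : ℕ) : Subring (ℍ → ℂ) := RN N ⊓ merCusp 1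

/-- The `q`-expansion on `bridgeRing N`. -/
def bridgeExp (N : ℕ) : bridgeRing N →+* LaurentSeries ℂ :=
  (laurent 1).comp (Subring.inclusion inf_le_right)

theorem bridgeExp_injective (N : ℕ) : Function.Injective (bridgeExp N) :=
  (laurent_injective 1).comp
    (Subring.inclusion_injective (inf_le_right : bridgeRing N ≤ merCusp 1))

theorem bridgeExp_mk (N : ℕ) {f : ℍ → ℂ} (hf : f ∈ bridgeRing N) :
    bridgeExp N ⟨f, hf⟩ = laurent 1 ⟨f, hf.2⟩ := rfl

/-- `bridgeRing N` inside `FractionRing (RN N)`. -/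
def bridgeIncl (N : ℕ) [NeZero N] : bridgeRing N →+* FractionRing (RN N) :=
  (algebraMap (RN N) (FractionRing (RN N))).comp (Subring.inclusion inf_le_left)

theorem bridgeIncl_injective (N : ℕ) [NeZero N] : Function.Injective (bridgeIncl N) :=
  (IsFractionRing.injective (RN N) (FractionRing (RN N))).comp
    (Subring.inclusion_injective (inf_le_left : bridgeRing N ≤ RN N))

theorem bridgeIncl_mk (N : ℕ) [NeZero N] {f : ℍ → ℂ} (hf : f ∈ bridgeRing N) :
    bridgeIncl N ⟨f, hf⟩ = algebraMap (RN N) (FractionRing (RN N)) ⟨f, hf.1⟩ := rfl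

theorem bridge_constFun_mem (N : ℕ) (a : Kbar) : constFun a ∈ bridgeRing N :=
  ⟨constFun_mem_RN N a, const_mem_merCusp 1 _⟩

theorem bridge_jN_mem (N : ℕ) {d : ℕ} [NeZero d] (hd : d ∣ N) : jN d ∈ bridgeRing N :=
  ⟨jN_mem_RN hd, bridge_jN_mem_merCusp d⟩

theorem bridgeExp_constFun (N : ℕ) (a : Kbar) :
    bridgeExp N ⟨constFun a, bridge_constFun_mem N a⟩ =
      coeffMap Basic.iota (algebraMap Kbar (LaurentSeries Kbar) a) := by
  rw [bridgeExp_mk, FFBridge.coeffMap_algebraMap']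
  exact laurent_const 1 (Basic.iota a)

theorem bridgeExp_jN (N : ℕ) {d : ℕ} [NeZero d] (hd : d ∣ N) :
    bridgeExp N ⟨jN d, bridge_jN_mem N hd⟩ = coeffMap Basic.iota (FFBridge.gen d) := by
  rw [bridgeExp_mk, FFBridge.coeffMap_gen]
  exact bridge_laurent_jN d

theorem bridgeIncl_constFun (N : ℕ) [NeZero N] (a : Kbar) :
    bridgeIncl N ⟨constFun a, bridge_constFun_mem N a⟩ =
      algebraMap Kbar (FractionRing (RN N)) a := by
  rw [bridgeIncl_mk, IsScalarTower.algebraMap_apply Kbar (RN N) (FractionRing (RN N))]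
  rfl

/-- Existence of the bridge. -/
theorem bridge_exists (N : ℕ) [NeZero N] :
    ∃ Θ : FN N →ₐ[Kbar] FractionRing (RN N),
      ∀ (x : FN N) (r : bridgeRing N),
        bridgeExp N r = coeffMap Basic.iota (x : LaurentSeries Kbar) → Θ x = bridgeIncl N r :=
  FFBridge.exists_algHom N (c := coeffMap Basic.iota) (e := bridgeExp N)
    (FFBridge.coeffMap_injective _ Basic.iota.injective) (bridgeExp_injective N)
    (bridgeIncl N) (bridgeIncl_injective N)
    (fun a => ⟨⟨constFun a, bridge_constFun_mem N a⟩, bridgeExp_constFun N a,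
      bridgeIncl_constFun N a⟩)
    (fun d _ hd => ⟨⟨jN d, bridge_jN_mem N hd⟩, bridgeExp_jN N hd⟩)

/-- **B7.** The Prelude function field `FN N` embedded in the field of fractions of the ring
`RN N` of modular functions: a series goes to the function with that `q`-expansion. -/
def embFN (N : ℕ) [NeZero N] : FN N →ₐ[Kbar] FractionRing (RN N) := (bridge_exists N).choose

theorem embFN_spec (N : ℕ) [NeZero N] (x : FN N) (r : bridgeRing N)
    (h : bridgeExp N r = coeffMap Basic.iota (x : LaurentSeries Kbar)) :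
    embFN N x = bridgeIncl N r :=
  (bridge_exists N).choose_spec x r h

/-- `embFN` of an element whose series is the `q`-expansion (at the period-`1` cusp chart) of
`f ∈ RN N` is `f`. -/
theorem embFN_eq_of_laurent (N : ℕ) [NeZero N] (x : FN N) {f : ℍ → ℂ} (hf : f ∈ RN N)
    (hf' : f ∈ merCusp 1)
    (h : laurent 1 ⟨f, hf'⟩ = coeffMap Basic.iota (x : LaurentSeries Kbar)) :
    embFN N x = algebraMap (RN N) (FractionRing (RN N)) ⟨f, hf⟩ :=
  embFN_spec N x ⟨f, hf, hf'⟩ h

theorem embFN_jBarLevel (N : ℕ) [NeZero N] (d : ℕ) [NeZero d] (hd : d ∣ N) :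
    embFN N (jBarLevel N d hd) = algebraMap (RN N) (FractionRing (RN N)) (jNR N hd) :=
  embFN_spec N (jBarLevel N d hd) ⟨jN d, bridge_jN_mem N hd⟩ (bridgeExp_jN N hd)

theorem bridge_jBar_eq (N : ℕ) [NeZero N] : jBar N = jBarLevel N 1 (one_dvd N) := by
  apply Subtype.ext
  show coeffEmb Kbar jq = coeffEmb Kbar (qExpand ℚ 1 jq)
  rw [qExpand_one_apply]

theorem bridge_jR_eq (N : ℕ) : jR N = jNR N (one_dvd N) := by
  apply Subtype.ext
  show jInv = jN 1
  exact jN_one.symm

theorem embFN_jBar (N : ℕ) [NeZero N] :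
    embFN N (jBar N) = algebraMap (RN N) (FractionRing (RN N)) (jR N) := by
  rw [bridge_jBar_eq, bridge_jR_eq]
  exact embFN_jBarLevel N 1 (one_dvd N)

theorem embFN_injective (N : ℕ) [NeZero N] : Function.Injective (embFN N) :=
  (embFN N).toRingHom.injective

/-- `rhoHol γ` fixes `embFN (FN N)` pointwise exactly for `γ ∈ Γ₀(N)`. -/
theorem embFN_fixed_iff (N : ℕ) [NeZero N] (γ : SL(2, ℤ)) :
    (∀ f : FN N, rhoHol (RN N) γ (embFN N f) = embFN N f) ↔ γ ∈ Gamma0 N := by
  constructor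
  · intro h
    have h1 := h (jBarLevel N N dvd_rfl)
    rw [embFN_jBarLevel, rhoHol_algebraMap] at h1
    have h2 := IsFractionRing.injective (RN N) (FractionRing (RN N)) h1
    have h3 : γ⁻¹ ∈ Gamma0 N := by
      apply mem_Gamma0_of_jN_smul N γ⁻¹
      intro z
      have := congrFun (congrArg Subtype.val h2) z
      exact this
    simpa using inv_mem h3
  · intro hγ
    have hγ' : γ⁻¹ ∈ Gamma0 N := inv_mem hγ
    have hgen : ∀ (d : ℕ) [NeZero d] (hd : d ∣ N),
        rhoHol (RN N) γ (embFN N (jBarLevel N d hd)) = embFN N (jBarLevel N d hd) := by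
      intro d _ hd
      have h1 : translate (RN N) γ⁻¹ (jNR N hd) = jNR N hd := by
        apply Subtype.ext
        funext z
        exact jN_smul_of_mem hd hγ' z
      rw [embFN_jBarLevel, rhoHol_algebraMap, h1]
    have key : (((rhoHol (RN N) γ).toAlgHom.comp (embFN N)).toRingHom :
        FN N →+* FractionRing (RN N)) = (embFN N).toRingHom := by
      refine FFBridge.ringHom_ext N _ _ (fun a => ?_) (fun d _ hd => ?_)
      · exact (((rhoHol (RN N) γ).toAlgHom.comp (embFN N)).commutes a).trans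
          ((embFN N).commutes a).symm
      · exact hgen d hd
    intro f
    exact congrArg (fun φ : FN N →+* FractionRing (RN N) => φ f) key

end Fermat.Agent.S24
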