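/-
S24, package B6: the `SL(2,ℤ)`-invariants of the modular tower (owner: helper97).

* `exists_poly_of_invariant` (in `S24/InvariantsRing.lean`) : an `SL(2,ℤ)`-invariant element of
  `RN N` is a polynomial in `j` with coefficients in `Q̄`;
* `mem_adjoin_of_fixed` : an element of `FractionRing (RN N)` fixed by `rhoHol` lies in `Q̄(j)`
  (norm trick: invariant denominator, then the ring-level statement twice).
-/
import Mathlib
import Fermat.Agent.S24.ModDefs
import Fermat.Agent.S24.ModRing
import Fermat.Agent.S24.HolField
import Fermat.Agent.S24.InvariantsRing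

set_option autoImplicit false

noncomputable section

namespace Fermat.Agent.S24

open UpperHalfPlane AlgebraicCurve IntermediateField Fermat.Agent.Lib.JStab
open CongruenceSubgroup ModularGroup
open scoped MatrixGroups Manifold

/-- field level (norm trick `exists_invariant_denominator`). -/
theorem mem_adjoin_of_fixed (N : ℕ) [NeZero N] (m : FractionRing (RN N))
    (h : ∀ γ : SL(2, ℤ), rhoHol (RN N) γ m = m) :
    m ∈ Kbar⟮algebraMap (RN N) (FractionRing (RN N)) (jR N)⟯ := by
  obtain ⟨a, b, hb, hbinv, hab⟩ := exists_invariant_denominator (RN N) (modGens N)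
    (ModRing.modGens_finite N) rfl (fun γ f hf => ModRing.comp_smul_mem_modGens hf γ) m
  have hinj : Function.Injective (algebraMap (RN N) (FractionRing (RN N))) :=
    IsFractionRing.injective (RN N) (FractionRing (RN N))
  have hainv : ∀ γ : SL(2, ℤ), translate (RN N) γ a = a := by
    intro γ
    apply hinj
    have h1 := rhoHol_algebraMap (RN N) γ⁻¹ a
    have h2 := rhoHol_algebraMap (RN N) γ⁻¹ b
    rw [inv_inv] at h1 h2
    rw [← h1, ← hab, map_mul, h2, hbinv γ, h γ⁻¹]
  obtain ⟨p, hp⟩ := exists_poly_of_invariant N a hainv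
  obtain ⟨q, hq⟩ := exists_poly_of_invariant N b hbinv
  have hb' : algebraMap (RN N) (FractionRing (RN N)) b ≠ 0 := by
    intro h0
    exact hb (hinj (by rw [h0, map_zero]))
  have hm : m = algebraMap (RN N) (FractionRing (RN N)) a
      / algebraMap (RN N) (FractionRing (RN N)) b := by
    rw [eq_div_iff hb', hab]
  have hmem : ∀ r : Polynomial Kbar,
      algebraMap (RN N) (FractionRing (RN N)) (Polynomial.aeval (jR N) r)
        ∈ Kbar⟮algebraMap (RN N) (FractionRing (RN N)) (jR N)⟯ := by
    intro r
    rw [← Polynomial.aeval_algebraMap_apply]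
    exact IntermediateField.algebra_adjoin_le_adjoin Kbar _
      (Polynomial.aeval_mem_adjoin_singleton Kbar _)
  rw [hm, hp, hq]
  exact div_mem (hmem p) (hmem q)

end Fermat.Agent.S24
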