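/-
S24 package [JLocal]: local behaviour of the analytic `j`-function `jC` at the elliptic points
and at generic points (exact statements of the S24 plan).  Thin wrapper over `Lib/JLocal`.
-/
import Mathlib
import Fermat.Agent.S24.Basic
import Fermat.Agent.Lib.JLocal

set_option autoImplicit false

open UpperHalfPlane Fermat.Agent.S24.Basic
open scoped MatrixGroups Manifold Real

noncomputable section

namespace Fermat.Agent.S24.JLocal

/-- The `ρ` of `S24/Basic` is the `ρ` of `Lib/JLocal`. -/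
theorem rho_eq : rho = Fermat.Agent.Lib.JLocal.rho := rfl

theorem jC_apply (τ : ℍ) : jC τ = ModularForm.E₄ τ ^ 3 / ModularForm.discriminant τ := rfl

theorem ST_smul_rho : (ModularGroup.S * ModularGroup.T) • rho = rho := by
  rw [rho_eq]
  exact Fermat.Agent.Lib.JLocal.ST_mul_smul_rho

theorem S_smul_I : ModularGroup.S • (UpperHalfPlane.I) = UpperHalfPlane.I :=
  Fermat.Agent.Lib.JLocal.S_smul_I

theorem jC_I : jC UpperHalfPlane.I = 1728 := Fermat.Agent.Lib.JLocal.j_I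

theorem jC_rho : jC rho = 0 := by
  rw [rho_eq]
  exact Fermat.Agent.Lib.JLocal.j_rho

theorem jC_eq_zero_iff (τ : ℍ) : jC τ = 0 ↔ ModularForm.E₄ τ = 0 :=
  Fermat.Agent.Lib.JLocal.j_eq_zero_iff τ

theorem jC_eq_1728_iff (τ : ℍ) : jC τ = 1728 ↔ ModularForm.E₆ τ = 0 :=
  Fermat.Agent.Lib.JLocal.j_eq_1728_iff τ

theorem analyticAt_jC (τ : ℍ) : AnalyticAt ℂ (fun z : ℂ => jC (ofComplex z)) (τ : ℂ) :=
  Fermat.Agent.Lib.JLocal.analyticAt_j τ

theorem order_generic (τ : ℍ) (h0 : jC τ ≠ 0) (h1 : jC τ ≠ 1728) :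
    analyticOrderAt (fun z : ℂ => jC (ofComplex z) - jC τ) (τ : ℂ) = 1 :=
  Fermat.Agent.Lib.JLocal.order_j_generic τ (fun h => h0 ((jC_eq_zero_iff τ).mpr h))
    (fun h => h1 ((jC_eq_1728_iff τ).mpr h))

theorem order_I :
    analyticOrderAt (fun z : ℂ => jC (ofComplex z) - 1728) ((UpperHalfPlane.I : ℍ) : ℂ) = 2 :=
  Fermat.Agent.Lib.JLocal.order_j_I

theorem order_rho :
    analyticOrderAt (fun z : ℂ => jC (ofComplex z)) ((rho : ℍ) : ℂ) = 3 := by
  rw [rho_eq]
  exact Fermat.Agent.Lib.JLocal.order_j_rho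

/-- General form: at any zero of `E₄`, `jC` vanishes to order exactly `3`. -/
theorem order_of_E₄_eq_zero (τ : ℍ) (h : ModularForm.E₄ τ = 0) :
    analyticOrderAt (fun z : ℂ => jC (ofComplex z)) (τ : ℂ) = 3 :=
  Fermat.Agent.Lib.JLocal.order_j_of_E₄_eq_zero τ h

/-- General form: at any zero of `E₆`, `jC - 1728` vanishes to order exactly `2`. -/
theorem order_of_E₆_eq_zero (τ : ℍ) (h : ModularForm.E₆ τ = 0) :
    analyticOrderAt (fun z : ℂ => jC (ofComplex z) - 1728) (τ : ℂ) = 2 :=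
  Fermat.Agent.Lib.JLocal.order_j_of_E₆_eq_zero τ h

/-- Generic points, phrased with the value. -/
theorem order_generic' (τ : ℍ) (c : ℂ) (hc : jC τ = c) (h0 : c ≠ 0) (h1 : c ≠ 1728) :
    analyticOrderAt (fun z : ℂ => jC (ofComplex z) - c) (τ : ℂ) = 1 :=
  Fermat.Agent.Lib.JLocal.order_j_generic' τ c hc h0 h1

/-- The derivative of `jC`: `j' = -2πi E₄² E₆ / Δ`. -/
theorem hasDerivAt_jC (τ : ℍ) :
    HasDerivAt (fun z : ℂ => jC (ofComplex z))
      (-(2 * π * Complex.I) * ModularForm.E₄ τ ^ 2 * ModularForm.E₆ τ / ModularForm.discriminant τ)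
      (τ : ℂ) :=
  Fermat.Agent.Lib.JLocal.hasDerivAt_j τ

end Fermat.Agent.S24.JLocal
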