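/-
S24 package [JSurj]: `j : ℍ → ℂ` is surjective.  Owner: helper62.
Thin wrapper over `Fermat.Agent.Lib.JSurjPoly`.
-/
import Mathlib
import Fermat.Agent.S24.Basic
import Fermat.Agent.Lib.JSurjPoly

set_option autoImplicit false

open UpperHalfPlane Fermat.Agent.S24.Basic

namespace Fermat.Agent.S24.JSurj

theorem jC_eq_jF : jC = Fermat.Agent.Lib.JSurjPoly.jF := rfl

theorem jC_surjective : Function.Surjective jC :=
  Fermat.Agent.Lib.JSurjPoly.jF_surjective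

/-- `|j| → ∞` at `i∞`, quantitative form. -/
theorem exists_im_bound_jC (R : ℝ) : ∃ A : ℝ, ∀ τ : ℍ, A ≤ τ.im → R < ‖jC τ‖ := by
  obtain ⟨A, hA⟩ := Fermat.Agent.Lib.JSurjPoly.exists_im_bound R
  exact ⟨A, fun τ hτ => Fermat.Agent.Lib.JSurjPoly.jF_norm_gt (hA τ hτ)⟩

end Fermat.Agent.S24.JSurj
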