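import Mathlib
import Fermat.Prelude.Def_AlgebraicCurve_CanonicalDivisor
import Fermat.Agent.S24.Defs
import Fermat.Agent.S24.Basic
import Fermat.Agent.S24.PlaceVal
import Fermat.Agent.S24.JLocal
import Fermat.Agent.S24.JSurj
import Fermat.Agent.S24.ModDefs
import Fermat.Agent.Lib.HolVal

/-!
# S24 — package B8 `Places` (helper72): the finite special places

The three fields `exists_two`, `exists_three`, `exists_generic` of `IsModularDatum`.

* Generic layer (`…_of`): `M` is the fraction field of a ring `R` of holomorphic functions on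
  `ℍ`, through an injective ring hom `φ : R →+* HolVal.Hol`; the places are the ones of the point
  valuations `HolVal.ordAtFrac φ hφ τ₀` at `τ₀ = i`, `ρ`, and at a point with `j τ₀ = a`.
* `IsHolStable` layer: the same for a subring `R` of `ℍ → ℂ` with `[IsHolStable R]` (the
  vocabulary of `S24/ModDefs`), with the automorphism acting through `translate`.
-/

set_option autoImplicit false

namespace Fermat.Agent.S24.Places

open AlgebraicCurve UpperHalfPlane ModularGroup Fermat.Agent.S24.Basic Fermat.Agent.Lib.HolVal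
open scoped WithZero MatrixGroups Manifold

/-! ### Pure algebra: from a valuation with a known value to a place -/

section algebra

variable {K M : Type*} [Field K] [Field M] [Algebra K M]

/-- A `ℤ`-valued valuation, trivial on `K`, at which `x` has order `n > 0`, gives a place `W`
with the same valuation ring at which `0 < ord x ≤ n` (and `ord x = 1` if `n = 1`). -/
theorem exists_place_ord_le (v : Valuation M ℤᵐ⁰)
    (hK : ∀ a : K, a ≠ 0 → v (algebraMap K M a) = 1) {x : M} (hx : x ≠ 0) {n : ℤ} (hn : 0 < n)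
    (hvx : -(WithZero.log (v x)) = n) :
    ∃ W : Place K M, W.toValuationSubring = v.valuationSubring ∧
      0 < W.ord x ∧ W.ord x ≤ n ∧ (n = 1 → W.ord x = 1) := by
  have hnt : ∃ m : M, m ≠ 0 ∧ v m ≠ 1 := by
    refine ⟨x, hx, fun h => ?_⟩
    rw [h, WithZero.log_one] at hvx
    omega
  obtain ⟨W, hW, e, he, hord⟩ := exists_place_of_valuation (K := K) v hK hnt
  have h1 : n = e * W.ord x := by rw [← hord x hx, hvx]
  have he' : (0 : ℤ) < e := by exact_mod_cast he
  have hpos : 0 < W.ord x := by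
    by_contra hcon
    have : (e : ℤ) * W.ord x ≤ 0 := mul_nonpos_of_nonneg_of_nonpos he'.le (not_lt.mp hcon)
    omega
  refine ⟨W, hW, hpos, ?_, ?_⟩
  · rw [h1]
    nlinarith
  · intro hn1
    have h2 : (e : ℤ) * W.ord x = 1 := by rw [← h1, hn1]
    have h3 : W.ord x ≤ 1 := by nlinarith
    omega

end algebra

/-! ### Generic layer -/

section generic

variable {M : Type*} [Field M] [Algebra Kbar M]
  {R : Type*} [CommRing R] [Algebra R M] [IsFractionRing R M]
  (φ : R →+* Hol) (hφ : Function.Injective φ)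

/-- The point valuations are trivial on the constants. -/
theorem ordAtFrac_algebraMap_kbar
    (hK : ∀ c : Kbar, ∃ r : R, algebraMap R M r = algebraMap Kbar M c ∧
      (φ r : ℍ → ℂ) = fun _ => iota c)
    (τ₀ : ℍ) (a : Kbar) (ha : a ≠ 0) :
    ordAtFrac (M := M) φ hφ τ₀ (algebraMap Kbar M a) = 1 := by
  obtain ⟨r, hr, hrφ⟩ := hK a
  rw [← hr]
  apply ordAtFrac_eq_one
  rw [hrφ]
  exact (map_ne_zero iota).mpr ha

/-- The place of the point valuation at `τ₀`, where `j - j(τ₀)` vanishes to order `n`. -/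
theorem exists_place_at
    (hK : ∀ c : Kbar, ∃ r : R, algebraMap R M r = algebraMap Kbar M c ∧
      (φ r : ℍ → ℂ) = fun _ => iota c)
    (jM : M) (hj : ∃ r : R, algebraMap R M r = jM ∧ (φ r : ℍ → ℂ) = jC)
    (τ₀ : ℍ) (a : Kbar) (ha : jC τ₀ = iota a) (n : ℕ) (hn : 0 < n)
    (hord : analyticOrderAt (fun z : ℂ => jC (ofComplex z) - jC τ₀) (τ₀ : ℂ) = n) :
    ∃ W : Place Kbar M,
      W.toValuationSubring = (ordAtFrac (M := M) φ hφ τ₀).valuationSubring ∧
      0 < W.ord (jM - algebraMap Kbar M a) ∧ W.ord (jM - algebraMap Kbar M a) ≤ n ∧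
      (n = 1 → W.ord (jM - algebraMap Kbar M a) = 1) := by
  obtain ⟨rj, hrj, hφj⟩ := hj
  obtain ⟨ra, hra, hφa⟩ := hK a
  have hx : algebraMap R M (rj - ra) = jM - algebraMap Kbar M a := by
    rw [map_sub, hrj, hra]
  have hfun : ((φ (rj - ra) : Hol) : ℍ → ℂ) ∘ ofComplex
      = fun z : ℂ => jC (ofComplex z) - jC τ₀ := by
    funext z
    have h1 : ((φ (rj - ra) : Hol) : ℍ → ℂ) = (φ rj : ℍ → ℂ) - (φ ra : ℍ → ℂ) := by
      rw [map_sub]; rfl
    simp only [Function.comp_apply, h1, Pi.sub_apply, hφj, hφa, ha]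
  have hv : ordAtFrac (M := M) φ hφ τ₀ (jM - algebraMap Kbar M a)
      = WithZero.exp (-(n : ℤ)) := by
    rw [← hx]
    exact ordAtFrac_of_analyticOrderAt φ hφ τ₀ (rj - ra) n (by rw [hfun]; exact hord)
  have hx0 : jM - algebraMap Kbar M a ≠ 0 := by
    intro h0
    rw [h0, map_zero] at hv
    exact WithZero.exp_ne_zero hv.symm
  have hn' : (0 : ℤ) < (n : ℤ) := by exact_mod_cast hn
  obtain ⟨W, hW, h1, h2, h3⟩ := exists_place_ord_le (K := Kbar)
    (ordAtFrac (M := M) φ hφ τ₀) (ordAtFrac_algebraMap_kbar φ hφ hK τ₀) hx0 hn'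
    (by rw [hv, WithZero.log_exp, neg_neg])
  exact ⟨W, hW, h1, h2, fun hn1 => h3 (by exact_mod_cast hn1)⟩

/-- An automorphism acting on `R` by `f ↦ f ∘ γ` with `γ • τ₀ = τ₀` fixes the place of the point
valuation at `τ₀`. -/
theorem smul_eq_of_fixed (τ₀ : ℍ) (W : Place Kbar M)
    (hW : W.toValuationSubring = (ordAtFrac (M := M) φ hφ τ₀).valuationSubring)
    (σ : M ≃ₐ[Kbar] M) (γ : SL(2, ℤ)) (hγ : γ • τ₀ = τ₀)
    (hσ : ∀ r : R, ∃ r' : R, σ (algebraMap R M r) = algebraMap R M r' ∧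
      ∀ τ : ℍ, (φ r' : ℍ → ℂ) τ = (φ r : ℍ → ℂ) (γ • τ)) :
    σ • W = W := by
  classical
  refine smul_eq_of_valuation_invariant W _ hW σ fun m => ?_
  have hγ' : γ⁻¹ • τ₀ = τ₀ := inv_smul_eq_iff.mpr hγ.symm
  refine ordAtFrac_map_eq φ hφ τ₀ γ⁻¹ hγ' (σ : M →+* M) (fun r => Classical.choose (hσ r))
    (fun r => (Classical.choose_spec (hσ r)).1) (fun r => ?_) m
  apply Subtype.ext
  funext z
  rw [(Classical.choose_spec (hσ r)).2 z, act_apply, inv_inv]

variable (hK : ∀ c : Kbar, ∃ r : R, algebraMap R M r = algebraMap Kbar M c ∧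
      (φ r : ℍ → ℂ) = fun _ => iota c)
  (jM : M) (hj : ∃ r : R, algebraMap R M r = jM ∧ (φ r : ℍ → ℂ) = jC)

include hφ hK hj

/-- `IsModularDatum.exists_generic`, generic form. -/
theorem exists_generic_of (a : Kbar) (ha0 : a ≠ 0) (ha : a ≠ 1728) :
    ∃ W : Place Kbar M, W.ord (jM - algebraMap Kbar M a) = 1 := by
  obtain ⟨τ₀, hτ₀⟩ := JSurj.jC_surjective (iota a)
  have h0 : jC τ₀ ≠ 0 := by
    rw [hτ₀]; exact (map_ne_zero iota).mpr ha0
  have h1 : jC τ₀ ≠ 1728 := by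
    rw [hτ₀]
    intro h
    apply ha
    apply iota_injective
    rw [h, map_ofNat]
  obtain ⟨W, -, -, -, hW⟩ := exists_place_at φ hφ hK jM hj τ₀ a hτ₀ 1 one_pos
    (by simpa using JLocal.order_generic τ₀ h0 h1)
  exact ⟨W, hW rfl⟩

/-- `IsModularDatum.exists_two`, generic form: `σ` acts on `R` by `f ↦ f ∘ γ`, `γ • i = i`. -/
theorem exists_two_of (σ : M ≃ₐ[Kbar] M) (γ : SL(2, ℤ))
    (hγ : γ • UpperHalfPlane.I = UpperHalfPlane.I)
    (hσ : ∀ r : R, ∃ r' : R, σ (algebraMap R M r) = algebraMap R M r' ∧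
      ∀ τ : ℍ, (φ r' : ℍ → ℂ) τ = (φ r : ℍ → ℂ) (γ • τ)) :
    ∃ W : Place Kbar M, 0 < W.ord (jM - algebraMap Kbar M 1728) ∧
      W.ord (jM - algebraMap Kbar M 1728) ≤ 2 ∧ σ • W = W := by
  have hI : jC UpperHalfPlane.I = iota 1728 := by rw [JLocal.jC_I, map_ofNat]
  obtain ⟨W, hW, h1, h2, -⟩ := exists_place_at φ hφ hK jM hj UpperHalfPlane.I 1728 hI 2
    two_pos (by rw [JLocal.jC_I]; exact_mod_cast JLocal.order_I)
  exact ⟨W, h1, by exact_mod_cast h2, smul_eq_of_fixed φ hφ _ W hW σ γ hγ hσ⟩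

/-- `IsModularDatum.exists_three`, generic form: `σ` acts on `R` by `f ↦ f ∘ γ`, `γ • ρ = ρ`. -/
theorem exists_three_of (σ : M ≃ₐ[Kbar] M) (γ : SL(2, ℤ)) (hγ : γ • rho = rho)
    (hσ : ∀ r : R, ∃ r' : R, σ (algebraMap R M r) = algebraMap R M r' ∧
      ∀ τ : ℍ, (φ r' : ℍ → ℂ) τ = (φ r : ℍ → ℂ) (γ • τ)) :
    ∃ W : Place Kbar M, 0 < W.ord jM ∧ W.ord jM ≤ 3 ∧ σ • W = W := by
  have hρ : jC rho = iota 0 := by rw [JLocal.jC_rho, map_zero]
  obtain ⟨W, hW, h1, h2, -⟩ := exists_place_at φ hφ hK jM hj rho 0 hρ 3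
    (by norm_num) (by rw [JLocal.jC_rho]; simpa using JLocal.order_rho)
  rw [map_zero, sub_zero] at h1 h2
  exact ⟨W, h1, by exact_mod_cast h2, smul_eq_of_fixed φ hφ _ W hW σ γ hγ hσ⟩

end generic

/-! ### The fixed points -/

theorem S_inv_smul_I : (S : SL(2, ℤ))⁻¹ • UpperHalfPlane.I = UpperHalfPlane.I :=
  inv_smul_eq_iff.mpr JLocal.S_smul_I.symm

theorem ST_inv_smul_rho : (S * T : SL(2, ℤ))⁻¹ • rho = rho :=
  inv_smul_eq_iff.mpr JLocal.ST_smul_rho.symm

/-! ### `IsHolStable` layer (vocabulary of `S24/ModDefs`) -/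

section holStable

variable (R : Subring (ℍ → ℂ)) [IsHolStable R]

/-- The inclusion of a stable ring of holomorphic functions into `HolVal.Hol`. -/
def toHol : R →+* Hol := Subring.inclusion (fun f hf => IsHolStable.mdiff f hf)

theorem toHol_injective : Function.Injective (toHol R) := Subring.inclusion_injective _

theorem toHol_coe (f : R) : ((toHol R f : Hol) : ℍ → ℂ) = (f : ℍ → ℂ) := rfl

theorem toHol_const {M : Type*} [Field M] [Algebra Kbar M] [Algebra R M]
    [IsScalarTower Kbar R M] (c : Kbar) :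
    ∃ r : R, algebraMap R M r = algebraMap Kbar M c ∧
      ((toHol R r : Hol) : ℍ → ℂ) = fun _ => iota c :=
  ⟨algebraMap Kbar R c, (IsScalarTower.algebraMap_apply Kbar R M c).symm, rfl⟩

/-- The point valuation at `τ₀` on the fraction field `M` of `R`. -/
noncomputable def pointVal {M : Type*} [Field M] [Algebra R M] [IsFractionRing R M] (τ₀ : ℍ) :
    Valuation M ℤᵐ⁰ :=
  ordAtFrac (M := M) (toHol R) (toHol_injective R) τ₀

theorem pointVal_algebraMap {M : Type*} [Field M] [Algebra R M] [IsFractionRing R M] (τ₀ : ℍ)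
    (f : R) : pointVal R (M := M) τ₀ (algebraMap R M f) = ordAt τ₀ (toHol R f) :=
  ordAtFrac_algebraMap _ _ _ _

variable {M : Type*} [Field M] [Algebra Kbar M] [Algebra R M] [IsFractionRing R M]
  [IsScalarTower Kbar R M]

/-- `IsModularDatum.exists_generic` for the fraction field of a stable ring containing `j`. -/
theorem exists_generic (jR : R) (hjR : (jR : ℍ → ℂ) = jC) (a : Kbar) (ha0 : a ≠ 0)
    (ha : a ≠ 1728) :
    ∃ W : Place Kbar M, W.ord (algebraMap R M jR - algebraMap Kbar M a) = 1 :=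
  exists_generic_of (toHol R) (toHol_injective R) (toHol_const R) (algebraMap R M jR)
    ⟨jR, rfl, hjR⟩ a ha0 ha

/-- `exists_two` for an automorphism acting on `R` through `translate R γ`, `γ • i = i`. -/
theorem exists_two' (jR : R) (hjR : (jR : ℍ → ℂ) = jC) (σ : M ≃ₐ[Kbar] M) (γ : SL(2, ℤ))
    (hγ : γ • UpperHalfPlane.I = UpperHalfPlane.I)
    (hσ : ∀ f : R, σ (algebraMap R M f) = algebraMap R M (translate R γ f)) :
    ∃ W : Place Kbar M, 0 < W.ord (algebraMap R M jR - algebraMap Kbar M 1728) ∧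
      W.ord (algebraMap R M jR - algebraMap Kbar M 1728) ≤ 2 ∧ σ • W = W :=
  exists_two_of (toHol R) (toHol_injective R) (toHol_const R) (algebraMap R M jR)
    ⟨jR, rfl, hjR⟩ σ γ hγ (fun f => ⟨translate R γ f, hσ f, fun _ => rfl⟩)

/-- `exists_three` for an automorphism acting on `R` through `translate R γ`, `γ • ρ = ρ`. -/
theorem exists_three' (jR : R) (hjR : (jR : ℍ → ℂ) = jC) (σ : M ≃ₐ[Kbar] M) (γ : SL(2, ℤ))
    (hγ : γ • rho = rho)
    (hσ : ∀ f : R, σ (algebraMap R M f) = algebraMap R M (translate R γ f)) :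
    ∃ W : Place Kbar M, 0 < W.ord (algebraMap R M jR) ∧
      W.ord (algebraMap R M jR) ≤ 3 ∧ σ • W = W :=
  exists_three_of (toHol R) (toHol_injective R) (toHol_const R) (algebraMap R M jR)
    ⟨jR, rfl, hjR⟩ σ γ hγ (fun f => ⟨translate R γ f, hσ f, fun _ => rfl⟩)

/-- `IsModularDatum.exists_two`: `σ = ρ(S)` acts by `f ↦ f ∘ S⁻¹`. -/
theorem exists_two (jR : R) (hjR : (jR : ℍ → ℂ) = jC) (σ : M ≃ₐ[Kbar] M)
    (hσ : ∀ f : R, σ (algebraMap R M f) = algebraMap R M (translate R (S : SL(2, ℤ))⁻¹ f)) :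
    ∃ W : Place Kbar M, 0 < W.ord (algebraMap R M jR - algebraMap Kbar M 1728) ∧
      W.ord (algebraMap R M jR - algebraMap Kbar M 1728) ≤ 2 ∧ σ • W = W :=
  exists_two' R jR hjR σ _ S_inv_smul_I hσ

/-- `IsModularDatum.exists_three`: `σ = ρ(S T)` acts by `f ↦ f ∘ (S T)⁻¹`. -/
theorem exists_three (jR : R) (hjR : (jR : ℍ → ℂ) = jC) (σ : M ≃ₐ[Kbar] M)
    (hσ : ∀ f : R, σ (algebraMap R M f) = algebraMap R M (translate R (S * T : SL(2, ℤ))⁻¹ f)) :
    ∃ W : Place Kbar M, 0 < W.ord (algebraMap R M jR) ∧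
      W.ord (algebraMap R M jR) ≤ 3 ∧ σ • W = W :=
  exists_three' R jR hjR σ _ ST_inv_smul_rho hσ

end holStable

end Fermat.Agent.S24.Places
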