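/-
S24 — B9: the analytic datum.  Owner: helper24.

`exists_modular_datum`: the field `MN N = FractionRing (RN N)` with the action `rhoHol` of
`SL(2,ℤ)` and the embedding `embFN` of the Prelude function field is a modular datum
(`IsModularDatum`, `Fermat/Agent/S24/Defs.lean`).
-/
import Mathlib
import Fermat.Agent.S24.ModDefs
import Fermat.Agent.S24.ModRing
import Fermat.Agent.S24.HolField
import Fermat.Agent.S24.Invariants
import Fermat.Agent.S24.Places
import Fermat.Agent.S24.PlaceCuspCore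
import Fermat.Agent.S24.Bridge

set_option autoImplicit false

noncomputable section

namespace Fermat.Agent.S24

open UpperHalfPlane AlgebraicCurve IntermediateField Fermat.Agent.Lib.JStab
open CongruenceSubgroup ModularGroup
open scoped MatrixGroups Manifold

/-- The Galois closure of `F_N / Q̄(j)`: the fraction field of `RN N`. -/
def MN (N : ℕ) [NeZero N] : Type := FractionRing (RN N)

instance instFieldMN (N : ℕ) [NeZero N] : Field (MN N) :=
  inferInstanceAs (Field (FractionRing (RN N)))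

instance instAlgebraKbarMN (N : ℕ) [NeZero N] : Algebra Kbar (MN N) :=
  inferInstanceAs (Algebra Kbar (FractionRing (RN N)))

instance instAlgebraFNMN (N : ℕ) [NeZero N] : Algebra (FN N) (MN N) :=
  (embFN N).toRingHom.toAlgebra

instance instIsScalarTowerMN (N : ℕ) [NeZero N] : IsScalarTower Kbar (FN N) (MN N) :=
  IsScalarTower.of_algebraMap_eq fun c => ((embFN N).commutes c).symm

/-- The action of `SL(2,ℤ)` on the Galois closure. -/
def rhoMN (N : ℕ) [NeZero N] : SL(2, ℤ) →* (MN N ≃ₐ[Kbar] MN N) := rhoHol (RN N)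

/-- `j` in the Galois closure. -/
def jMN (N : ℕ) [NeZero N] : MN N := algebraMap (RN N) (FractionRing (RN N)) (jR N)

theorem algebraMap_jBar (N : ℕ) [NeZero N] : algebraMap (FN N) (MN N) (jBar N) = jMN N :=
  embFN_jBar N

theorem translate_jR (N : ℕ) [NeZero N] (γ : SL(2, ℤ)) : translate (RN N) γ (jR N) = jR N :=
  Subtype.ext (funext fun τ => jInv_smul γ τ)

theorem rhoHol_jR (N : ℕ) [NeZero N] (γ : SL(2, ℤ)) :
    rhoHol (RN N) γ (algebraMap (RN N) (FractionRing (RN N)) (jR N))
      = algebraMap (RN N) (FractionRing (RN N)) (jR N) := by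
  have h := rhoHol_algebraMap (RN N) γ (jR N)
  rw [translate_jR] at h
  exact h

theorem rhoMN_jMN (N : ℕ) [NeZero N] (γ : SL(2, ℤ)) : rhoMN N γ (jMN N) = jMN N :=
  rhoHol_jR N γ

theorem datum_finite_range (N : ℕ) [NeZero N] : Finite (rhoMN N).range :=
  finite_range_rhoHol (RN N) (modGens N) (finite_modGens N) rfl
    (fun γ _ hf => smul_mem_modGens N γ hf)

theorem datum_fixed (N : ℕ) [NeZero N] (m : MN N) (hm : ∀ γ, rhoMN N γ m = m) :
    m ∈ Kbar⟮jMN N⟯ :=
  mem_adjoin_of_fixed N m hm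

theorem datum_two (N : ℕ) [NeZero N] : ∃ W : Place Kbar (MN N),
    0 < W.ord (jMN N - algebraMap Kbar (MN N) 1728) ∧
    W.ord (jMN N - algebraMap Kbar (MN N) 1728) ≤ 2 ∧ rhoMN N S • W = W :=
  Places.exists_two (M := FractionRing (RN N)) (RN N) (jR N) rfl (rhoHol (RN N) S)
    (rhoHol_algebraMap (RN N) S)

theorem datum_three (N : ℕ) [NeZero N] : ∃ W : Place Kbar (MN N),
    0 < W.ord (jMN N) ∧ W.ord (jMN N) ≤ 3 ∧ rhoMN N (S * T) • W = W :=
  Places.exists_three (M := FractionRing (RN N)) (RN N) (jR N) rfl (rhoHol (RN N) (S * T))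
    (rhoHol_algebraMap (RN N) (S * T))

theorem datum_cusp (N : ℕ) [NeZero N] : ∃ W : Place Kbar (MN N),
    W.ord (jMN N) < 0 ∧ -(N : ℤ) ≤ W.ord (jMN N) ∧ rhoMN N T • W = W :=
  exists_place_cusp_core N (RN N) (ModRing.RN_le_merCusp N) (jInv_mem_RN N) (rhoHol (RN N) T)
    (rhoHol_algebraMap (RN N) T)

theorem datum_generic (N : ℕ) [NeZero N] (a : Kbar) (h0 : a ≠ 0) (h1 : a ≠ 1728) :
    ∃ W : Place Kbar (MN N), W.ord (jMN N - algebraMap Kbar (MN N) a) = 1 :=
  Places.exists_generic (M := FractionRing (RN N)) (RN N) (jR N) rfl a h0 h1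

theorem isModularDatum (N : ℕ) [NeZero N] : IsModularDatum N (MN N) (rhoMN N) where
  finite_range := datum_finite_range N
  neg_one := rhoHol_neg_one (RN N)
  fix_j := fun γ => (algebraMap_jBar N).symm ▸ rhoMN_jMN N γ
  fixed := fun m hm => (algebraMap_jBar N).symm ▸ datum_fixed N m hm
  fixer := fun γ => embFN_fixed_iff N γ
  exists_two := (algebraMap_jBar N).symm ▸ datum_two N
  exists_three := (algebraMap_jBar N).symm ▸ datum_three N
  exists_cusp := (algebraMap_jBar N).symm ▸ datum_cusp N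
  exists_generic := fun a h0 h1 => (algebraMap_jBar N).symm ▸ datum_generic N a h0 h1

/-- ANALYTIC TARGET of S24. -/
theorem exists_modular_datum (N : ℕ) [NeZero N] :
    ∃ (M : Type) (_ : Field M) (_ : Algebra Kbar M) (_ : Algebra (FN N) M)
      (_ : IsScalarTower Kbar (FN N) M) (ρ : SL(2, ℤ) →* (M ≃ₐ[Kbar] M)),
      IsModularDatum N M ρ :=
  ⟨MN N, inferInstance, inferInstance, inferInstance, inferInstance, rhoMN N, isModularDatum N⟩

end Fermat.Agent.S24
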