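import Mathlib
import Fermat.Agent.S24.Defs

/-!
# S24 — small glue lemmas (helper34)

`j` is transcendental over `Q̄` in the Prelude function field; shifting / inverting a generator
does not change `K⟮y⟯`, transcendence, or (up to exchanging zeros and poles) the divisor.
Everything lives in the sub-namespace `Fermat.Agent.S24.JGlue`.
-/

set_option autoImplicit false

namespace Fermat.Agent.S24.JGlue

open AlgebraicCurve ModularCurve IntermediateField

/-- `j` is transcendental over `Q̄` in the Prelude function field of `X₀(N)`. -/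
theorem transcendental_jBar (N : ℕ) [NeZero N] : Transcendental Kbar (jBar N) := by
  intro halg
  have hint : IsIntegral Kbar (jBar N) := halg.isIntegral
  have hdeg : (minpoly Kbar (jBar N)).degree = 1 :=
    IsAlgClosed.degree_eq_one_of_irreducible Kbar (minpoly.irreducible hint)
  obtain ⟨a, ha⟩ := minpoly.mem_range_of_degree_eq_one Kbar (jBar N) hdeg
  have h1 : ((jBar N : FN N) : LaurentSeries Kbar).coeff (-1) = 1 := by
    show (coeffEmb Kbar jq).coeff (-1) = 1
    rw [coeffEmb_coeff, coeff_jq_neg_one, map_one]
  have h2 : ((algebraMap Kbar (FN N) a : FN N) : LaurentSeries Kbar).coeff (-1) = 0 := by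
    show (algebraMap Kbar (LaurentSeries Kbar) a).coeff (-1) = 0
    rw [HahnSeries.algebraMap_apply']
    simp only [PowerSeries.algebraMap_eq, HahnSeries.ofPowerSeries_C, HahnSeries.C_apply,
      Int.reduceNeg, ne_eq, neg_eq_zero, one_ne_zero, not_false_eq_true,
      HahnSeries.coeff_single_of_ne]
  rw [ha, h1] at h2
  exact one_ne_zero h2

section generic

variable {K F : Type*} [Field K] [Field F] [Algebra K F]

theorem transcendental_sub_algebraMap {x : F} (hx : Transcendental K x) (a : K) :
    Transcendental K (x - algebraMap K F a) := by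
  intro h
  apply hx
  have := h.add (isAlgebraic_algebraMap (R := K) (A := F) a)
  rwa [sub_add_cancel] at this

theorem transcendental_inv {x : F} (hx : Transcendental K x) : Transcendental K x⁻¹ := by
  intro h
  apply hx
  have := h.inv
  rwa [inv_inv] at this

theorem adjoin_simple_sub_algebraMap (x : F) (a : K) :
    K⟮x - algebraMap K F a⟯ = K⟮x⟯ := by
  apply le_antisymm
  · rw [adjoin_simple_le_iff]
    exact sub_mem (mem_adjoin_simple_self K x) (IntermediateField.algebraMap_mem _ a)
  · rw [adjoin_simple_le_iff]
    have h : (x - algebraMap K F a) + algebraMap K F a ∈ K⟮x - algebraMap K F a⟯ :=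
      add_mem (mem_adjoin_simple_self K _) (IntermediateField.algebraMap_mem _ a)
    rwa [sub_add_cancel] at h

theorem adjoin_simple_inv (x : F) : K⟮x⁻¹⟯ = K⟮x⟯ := by
  apply le_antisymm
  · rw [adjoin_simple_le_iff]
    exact inv_mem (mem_adjoin_simple_self K x)
  · rw [adjoin_simple_le_iff]
    have h : (x⁻¹)⁻¹ ∈ K⟮x⁻¹⟯ := inv_mem (mem_adjoin_simple_self K _)
    rwa [inv_inv] at h

/-- zeros of `y⁻¹` are the poles of `y`. -/
theorem zerosOf_inv (y : F) : zerosOf K y⁻¹ = polesOf K y := by
  ext w
  simp only [zerosOf, polesOf, Set.mem_ofPred_eq, Place.ord_inv]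
  omega

/-- poles of `y⁻¹` are the zeros of `y`. -/
theorem polesOf_inv (y : F) : polesOf K y⁻¹ = zerosOf K y := by
  ext w
  simp only [zerosOf, polesOf, Set.mem_ofPred_eq, Place.ord_inv]
  omega

variable {M : Type*} [Field M] [Algebra K M] [Algebra F M] [IsScalarTower K F M]

/-- the image in `M` of a shifted generator generates the same subfield. -/
theorem adjoin_simple_algebraMap_sub (y : F) (a : K) :
    K⟮algebraMap F M (y - algebraMap K F a)⟯ = K⟮algebraMap F M y⟯ := by
  rw [map_sub, ← IsScalarTower.algebraMap_apply, adjoin_simple_sub_algebraMap]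

omit [Algebra K F] [IsScalarTower K F M] in
/-- the image in `M` of the inverse of a generator generates the same subfield. -/
theorem adjoin_simple_algebraMap_inv (y : F) :
    K⟮algebraMap F M y⁻¹⟯ = K⟮algebraMap F M y⟯ := by
  rw [map_inv₀, adjoin_simple_inv]

end generic

end Fermat.Agent.S24.JGlue
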