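/-
S24 — package B8 (cusp), generic core.  Owner: helper78.

For a ring `R` of holomorphic functions on `ℍ` (stable under `SL(2,ℤ)`, containing `Q̄` and `j`)
all of whose elements are `N`-periodic with a finite order pole at `i∞`, the order of the
`t = q^{1/N}`-expansion is a valuation of `Frac R`, trivial on `Q̄`, with `ord_t j = -N`, and
invariant under `τ ↦ τ - 1`.  By package A6 it gives a place `W` of `Frac R` with
`-N ≤ W.ord j < 0`, fixed by every automorphism acting on `R` as `f ↦ f ∘ T⁻¹`.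
-/
import Mathlib
import Fermat.Agent.S24.ModDefs
import Fermat.Agent.S24.PlaceVal
import Fermat.Agent.Lib.CuspLaurent
import Fermat.Agent.Lib.HolVal
import Fermat.Agent.Lib.JqAnalytic

set_option autoImplicit false

noncomputable section

namespace Fermat.Agent.S24

open UpperHalfPlane AlgebraicCurve Filter Topology
open Fermat.Agent.Lib.JStab Fermat.Agent.Lib.CuspLaurent
open scoped MatrixGroups Manifold WithZero

namespace PlaceCusp

/-! ### Valuations of Laurent series from coefficients -/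

/-- The valuation of a Laurent series is read off from its lowest nonzero coefficient. -/
theorem laurent_val_eq {f : LaurentSeries ℂ} {D : ℤ} (h0 : f.coeff D ≠ 0)
    (h1 : ∀ n : ℤ, n < D → f.coeff n = 0) :
    (Valued.v f : ℤᵐ⁰) = WithZero.exp (-D) := by
  have hle : (Valued.v f : ℤᵐ⁰) ≤ WithZero.exp (-D) :=
    (LaurentSeries.valuation_le_iff_coeff_lt_eq_zero ℂ).mpr h1
  have hnle : ¬ (Valued.v f : ℤᵐ⁰) ≤ WithZero.exp (-(D + 1)) := fun h =>
    h0 ((LaurentSeries.valuation_le_iff_coeff_lt_eq_zero ℂ).mp h D (by omega))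
  have hne : (Valued.v f : ℤᵐ⁰) ≠ 0 := by
    intro h
    apply hnle
    rw [h]
    exact zero_le
  rw [← WithZero.exp_log hne] at hle hnle ⊢
  rw [WithZero.exp_le_exp] at hle hnle
  congr 1
  omega

/-- Two Laurent series with the same support have the same valuation. -/
theorem laurent_val_eq_of_coeff_iff {f g : LaurentSeries ℂ}
    (h : ∀ n : ℤ, f.coeff n = 0 ↔ g.coeff n = 0) :
    (Valued.v f : ℤᵐ⁰) = Valued.v g := by
  have key : ∀ f g : LaurentSeries ℂ, (∀ n : ℤ, f.coeff n = 0 ↔ g.coeff n = 0) →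
      (Valued.v f : ℤᵐ⁰) ≤ Valued.v g := by
    intro f g h
    by_cases hg : g = 0
    · have hf : f = 0 := by
        ext n
        rw [(h n).mpr (by rw [hg]; rfl)]
        rfl
      rw [hf, hg]
    · have hne : (Valued.v g : ℤᵐ⁰) ≠ 0 := (Valuation.ne_zero_iff _).mpr hg
      have h1 : (Valued.v g : ℤᵐ⁰) ≤ WithZero.exp (-(-(WithZero.log (Valued.v g)))) := by
        rw [neg_neg, WithZero.exp_log hne]
      have h2 := (LaurentSeries.valuation_le_iff_coeff_lt_eq_zero ℂ).mp h1
      have h3 : (Valued.v f : ℤᵐ⁰) ≤ WithZero.exp (-(-(WithZero.log (Valued.v g)))) :=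
        (LaurentSeries.valuation_le_iff_coeff_lt_eq_zero ℂ).mpr
          (fun n hn => (h n).mpr (h2 n hn))
      rwa [neg_neg, WithZero.exp_log hne] at h3
  exact le_antisymm (key f g h) (key g f (fun n => (h n).symm))

/-- Constants have valuation one. -/
theorem laurent_val_C {c : ℂ} (hc : c ≠ 0) :
    (Valued.v (HahnSeries.C c : LaurentSeries ℂ) : ℤᵐ⁰) = 1 := by
  have h := laurent_val_eq (f := (HahnSeries.C c : LaurentSeries ℂ)) (D := 0)
    (by rw [HahnSeries.C_apply, HahnSeries.coeff_single_same]; exact hc)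
    (fun n hn => by
      rw [HahnSeries.C_apply, HahnSeries.coeff_single_of_ne (by omega)])
  rw [h, neg_zero, WithZero.exp_zero]

/-! ### The cusp expansion of `j` -/

theorem tParam_pow_eq (N : ℕ) [NeZero N] (τ : ℍ) :
    tParam (N : ℝ) τ ^ N = Function.Periodic.qParam 1 (τ : ℂ) := by
  have hN : (N : ℂ) ≠ 0 := Nat.cast_ne_zero.mpr (NeZero.ne N)
  unfold tParam Function.Periodic.qParam
  rw [← Complex.exp_nat_mul]
  congr 1
  push_cast
  field_simp

theorem tendsto_tParam_pow_mul_jInv (N : ℕ) [NeZero N] :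
    Tendsto (tParam (N : ℝ) ^ N * jInv) atImInfty (𝓝 1) := by
  refine Fermat.Agent.Lib.JqAnalytic.tendsto_qParam_mul_jFun.congr fun τ => ?_
  show Function.Periodic.qParam 1 (τ : ℂ) * jInv τ = tParam (N : ℝ) τ ^ N * jInv τ
  rw [tParam_pow_eq]

/-- The `t = q^{1/N}`-expansion of `j` starts with `t^{-N}`. -/
theorem laurentFun_jInv (N : ℕ) [NeZero N] (hmer : IsMerCusp (N : ℝ) jInv) :
    (laurentFun (N : ℝ) jInv).coeff (-(N : ℤ)) = 1 ∧
      ∀ n : ℤ, n < -(N : ℤ) → (laurentFun (N : ℝ) jInv).coeff n = 0 := by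
  have hh : (0 : ℝ) < (N : ℝ) := natCast_pos' N
  have hlim := tendsto_tParam_pow_mul_jInv N
  have hbd : IsBoundedAtImInfty (tParam (N : ℝ) ^ N * jInv) := hlim.isBigO_one ℝ
  refine ⟨?_, fun n hn => laurentFun_coeff_of_lt hh hmer hbd hn⟩
  have h1 := laurentFun_coeff_sub hh hmer hbd 0
  have hhol := hmer.isHolCusp hh hbd
  rw [qExpansion_coeff_zero hh (hhol.analyticAt hh) hhol.per] at h1
  have h2 : valueAtInfty (tParam (N : ℝ) ^ N * jInv) = 1 := hlim.limUnder_eq
  rw [h2] at h1
  simpa using h1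

/-! ### The cusp valuation -/

section val

variable (N : ℕ) [NeZero N] (R : Subring (ℍ → ℂ)) [IsHolStable R] (hR : R ≤ merCusp N)

/-- The `t = q^{1/N}`-expansion on `R`. -/
def cuspHom : R →+* LaurentSeries ℂ := (laurent N).comp (Subring.inclusion hR)

omit [IsHolStable R] in
theorem cuspHom_apply (f : R) : cuspHom N R hR f = laurentFun (N : ℝ) (f : ℍ → ℂ) := rfl

omit [IsHolStable R] in
theorem cuspHom_injective : Function.Injective (cuspHom N R hR) :=
  (laurent_injective N).comp (Subring.inclusion_injective hR)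

/-- The cusp valuation on the fraction field of `R`: the order in `t = q^{1/N}`. -/
def cuspVal : Valuation (FractionRing R) ℤᵐ⁰ :=
  Fermat.Agent.Lib.HolVal.fracVal (Valued.v : Valuation (LaurentSeries ℂ) ℤᵐ⁰)
    (fun _ hs => (Valuation.zero_iff _).mp hs) (cuspHom N R hR) (cuspHom_injective N R hR)

theorem cuspVal_algebraMap (f : R) :
    cuspVal N R hR (algebraMap R (FractionRing R) f)
      = Valued.v (laurentFun (N : ℝ) (f : ℍ → ℂ)) := by
  unfold cuspVal
  rw [Fermat.Agent.Lib.HolVal.fracVal_algebraMap]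
  rfl

/-- The cusp valuation is trivial on the constants. -/
theorem cuspVal_const (a : Kbar) (ha : a ≠ 0) :
    cuspVal N R hR (algebraMap Kbar (FractionRing R) a) = 1 := by
  rw [IsScalarTower.algebraMap_apply Kbar R (FractionRing R), cuspVal_algebraMap]
  have h1 : laurentFun (N : ℝ) ((algebraMap Kbar R a : R) : ℍ → ℂ)
      = HahnSeries.C (Basic.iota a) := laurent_const N (Basic.iota a)
  rw [h1]
  exact laurent_val_C (fun h => ha (Basic.iota_injective (by rw [h, map_zero])))

/-- `ord_t j = -N`. -/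
theorem cuspVal_jInv (hj : jInv ∈ R) :
    cuspVal N R hR (algebraMap R (FractionRing R) ⟨jInv, hj⟩) = WithZero.exp (N : ℤ) := by
  rw [cuspVal_algebraMap]
  obtain ⟨h0, h1⟩ := laurentFun_jInv N (hR hj)
  have h := laurent_val_eq (f := laurentFun (N : ℝ) jInv) (D := -(N : ℤ))
    (by rw [h0]; exact one_ne_zero) h1
  rw [h, neg_neg]

/-- The cusp valuation is invariant under `τ ↦ τ - 1`. -/
theorem cuspVal_translate (f : R) :
    (Valued.v (cuspHom N R hR (translate R ModularGroup.T⁻¹ f)) : ℤᵐ⁰)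
      = Valued.v (cuspHom N R hR f) := by
  have hh : (0 : ℝ) < (N : ℝ) := natCast_pos' N
  have hmer : IsMerCusp (N : ℝ) (f : ℍ → ℂ) := hR f.2
  have hm : ∀ τ : ℍ, (((ModularGroup.T⁻¹ • τ : ℍ)) : ℂ) = τ + ((-1 : ℤ) : ℂ) := by
    intro τ
    have h1 : ModularGroup.T⁻¹ • τ = (((-1 : ℤ) : ℝ)) +ᵥ τ := by
      rw [← UpperHalfPlane.modular_T_zpow_smul, zpow_neg_one]
    rw [h1, UpperHalfPlane.coe_vadd]
    push_cast
    ring
  apply laurent_val_eq_of_coeff_iff
  intro n
  have h2 := laurentFun_translate (m := fun τ : ℍ => ModularGroup.T⁻¹ • τ) hh hmer hm n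
  have h3 : cuspHom N R hR (translate R ModularGroup.T⁻¹ f)
      = laurentFun (N : ℝ) ((f : ℍ → ℂ) ∘ fun τ : ℍ => ModularGroup.T⁻¹ • τ) := rfl
  rw [h3, h2, cuspHom_apply, mul_eq_zero]
  constructor
  · rintro (h | h)
    · exact absurd h (zpow_ne_zero _ (Complex.exp_ne_zero _))
    · exact h
  · intro h
    exact Or.inr h

end val

end PlaceCusp

open PlaceCusp in
/-- **B8 (cusp), generic core.**  If every element of the stable ring `R` is `N`-periodic with a
finite order pole at `i∞` and `j ∈ R`, then `Frac R` has a place `W` over `j = ∞` with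
`-N ≤ W.ord j < 0`, fixed by any automorphism `σ` acting on `R` as `f ↦ f ∘ T⁻¹`. -/
theorem exists_place_cusp_core (N : ℕ) [NeZero N] (R : Subring (ℍ → ℂ)) [IsHolStable R]
    (hR : R ≤ merCusp N) (hj : jInv ∈ R)
    (σ : FractionRing R ≃ₐ[Kbar] FractionRing R)
    (hσ : ∀ f : R, σ (algebraMap R (FractionRing R) f)
      = algebraMap R (FractionRing R) (translate R ModularGroup.T⁻¹ f)) :
    ∃ W : Place Kbar (FractionRing R),
      W.ord (algebraMap R (FractionRing R) ⟨jInv, hj⟩) < 0 ∧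
      -(N : ℤ) ≤ W.ord (algebraMap R (FractionRing R) ⟨jInv, hj⟩) ∧ σ • W = W := by
  have hvj := cuspVal_jInv N R hR hj
  have hj0 : algebraMap R (FractionRing R) (⟨jInv, hj⟩ : R) ≠ 0 := by
    intro h
    rw [h, map_zero] at hvj
    exact WithZero.exp_ne_zero hvj.symm
  have hN : 0 < N := NeZero.pos N
  have hnt : ∃ m : FractionRing R, m ≠ 0 ∧ cuspVal N R hR m ≠ 1 := by
    refine ⟨_, hj0, ?_⟩
    rw [hvj, ← WithZero.exp_zero]
    intro h
    have h' := WithZero.exp_injective h
    omega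
  obtain ⟨W, hW, e, he, hord⟩ :=
    exists_place_of_valuation (K := Kbar) (cuspVal N R hR) (cuspVal_const N R hR) hnt
  have h1 := hord _ hj0
  rw [hvj, WithZero.log_exp] at h1
  have hNz : (0 : ℤ) < (N : ℤ) := by exact_mod_cast hN
  have hez : (1 : ℤ) ≤ (e : ℤ) := by exact_mod_cast he
  refine ⟨W, ?_, ?_, ?_⟩
  · nlinarith
  · nlinarith
  · refine smul_eq_of_valuation_invariant W (cuspVal N R hR) hW σ fun m => ?_
    exact Fermat.Agent.Lib.HolVal.fracVal_map_eq _ _ _ _ (σ : FractionRing R →+* FractionRing R)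
      (translate R ModularGroup.T⁻¹) hσ (cuspVal_translate N R hR) m

end Fermat.Agent.S24
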