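import Mathlib
import Fermat.Agent.S24.Defs

/-!
# S24 — early draft of analytic definitions (helper25) — INERT, DO NOT IMPORT

Superseded by `S24/ModDefs.lean` (the team vocabulary).  Everything here lives in the
sub-namespace `Fermat.Agent.S24.ADefsInert` so that it cannot clash with any other file.
-/

set_option autoImplicit false

namespace Fermat.Agent.S24.ADefsInert

open UpperHalfPlane ModularForm EisensteinSeries MatrixGroups CongruenceSubgroup
open scoped Manifold

noncomputable section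

theorem kbar_isAlgebraic : Algebra.IsAlgebraic ℚ Kbar := by
  have h := AlgebraicClosure.isAlgebraic ℚ
  constructor
  intro x
  obtain ⟨p, hp0, hp⟩ := h.isAlgebraic x
  refine ⟨p, hp0, ?_⟩
  rw [← hp]
  simp only [Polynomial.aeval_def]
  congr 1

/-- A fixed embedding `Q̄ → ℂ`. -/
def iotaBar : Kbar →+* ℂ :=
  haveI := kbar_isAlgebraic
  (IsAlgClosed.lift : Kbar →ₐ[ℚ] ℂ).toRingHom

/-- `ℂ` as a `Q̄`-algebra through `iotaBar` (scoped). -/
scoped instance kbarAlgebraComplex : Algebra Kbar ℂ := iotaBar.toAlgebra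

/-- The `ℂ`-algebra of holomorphic functions on the upper half plane. -/
def Hol : Subalgebra ℂ (ℍ → ℂ) where
  carrier := {f | MDiff f}
  mul_mem' hf hg := hf.mul hg
  add_mem' hf hg := hf.add hg
  algebraMap_mem' _ := mdifferentiable_const

theorem mem_Hol {f : ℍ → ℂ} : f ∈ Hol ↔ MDiff f := Iff.rfl

/-- The (left) action of `SL(2,ℤ)` on functions: `(γ • f)(z) = f(γ⁻¹ z)`. -/
def mob (γ : SL(2, ℤ)) (f : ℍ → ℂ) : ℍ → ℂ := fun z => f (γ⁻¹ • z)

/-- The `j`-function `E₄³ / Δ`. -/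
def jFun : ℍ → ℂ := fun z => E₄ z ^ 3 / discriminant z

/-- `z ↦ j(d z)`. -/
def jLevel (d : ℕ) : ℍ → ℂ := fun z => jFun (ofComplex ((d : ℂ) * (z : ℂ)))

/-- The local parameter `t = e^{2πiz/N}` at `i∞`. -/
def tPar (N : ℕ) (z : ℍ) : ℂ := Function.Periodic.qParam (N : ℝ) (z : ℂ)

/-- `f * t^k` is given on all of `ℍ` by the convergent power series `P` in `t = e^{2πiz/N}`. -/
def HasTExp (N : ℕ) (f : ℍ → ℂ) (k : ℕ) (P : PowerSeries ℂ) : Prop :=
  ∀ z : ℍ, HasSum (fun n : ℕ => P.coeff n * tPar N z ^ n) (f z * tPar N z ^ k)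

/-- The Laurent series `t^{-k} P`. -/
def laurentOf (k : ℕ) (P : PowerSeries ℂ) : LaurentSeries ℂ :=
  HahnSeries.single (-(k : ℤ)) (1 : ℂ) * HahnSeries.ofPowerSeries ℤ ℂ P

/-- All coefficients lie in (the image of) `Q̄`. -/
def IsKRat (P : PowerSeries ℂ) : Prop :=
  ∀ n, P.coeff n ∈ Set.range (algebraMap Kbar ℂ)

/-- The generators of the Galois closure: all `SL(2,ℤ)`-translates of `z ↦ j(dz)`, `d ∣ N`. -/
def genSet (N : ℕ) : Set Hol :=
  {f | ∃ d : ℕ, d ∣ N ∧ ∃ γ : SL(2, ℤ), (f : ℍ → ℂ) = mob γ (jLevel d)}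

/-- The `Q̄`-algebra generated by the generators; its fraction field is the Galois closure. -/
def RN (N : ℕ) : Subalgebra Kbar Hol := Algebra.adjoin Kbar (genSet N)

end

end Fermat.Agent.S24.ADefsInert
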