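/-
S24, package B6, ring level: the `SL(2,ℤ)`-invariants of `RN N` (owner: helper97).

* `exists_poly_of_invariant` : an `SL(2,ℤ)`-invariant element of `RN N` is a polynomial in `j`
  with coefficients in `Q̄`.
(The field-level statement `mem_adjoin_of_fixed` is in `S24/Invariants.lean`.)

Method: the function is holomorphic, invariant and has a pole of finite
order at `i∞`, hence is a polynomial in `j` with COMPLEX coefficients (`Lib/JSurjPoly`).  The
relation `f = ∑ c_k j^k` holds between the `t`-expansions at `i∞`, which have coefficients in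
`Q̄`; by linear disjointness (`Lib/FFDegreeLD`) the `c_k` may be replaced by elements of `Q̄`.
-/
import Mathlib
import Fermat.Agent.S24.ModDefs
import Fermat.Agent.S24.ModRing
import Fermat.Agent.Lib.JSurjPoly
import Fermat.Agent.Lib.FFDegreeLD

set_option autoImplicit false

noncomputable section

namespace Fermat.Agent.S24

open UpperHalfPlane AlgebraicCurve IntermediateField Fermat.Agent.Lib.JStab
open CongruenceSubgroup ModularGroup
open scoped MatrixGroups Manifold

namespace Invariants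

open Filter Topology Fermat.Agent.Lib.DeltaLevelN Fermat.Agent.Lib.CuspLaurent
open scoped Real

local notation "Δ" => ModularForm.discriminant

/-- `‖Δ τ‖ ≤ ‖prodFactor τ‖ · ‖t_N(τ)‖`. -/
lemma norm_disc_le (N : ℕ) [NeZero N] (τ : ℍ) :
    ‖Δ τ‖ ≤ ‖prodFactor τ‖ * ‖tParam (N : ℝ) τ‖ := by
  have hN : (1 : ℝ) ≤ (N : ℝ) := by exact_mod_cast Nat.one_le_iff_ne_zero.mpr (NeZero.ne N)
  have hy : 0 < τ.im := τ.im_pos
  have ht : ‖tParam (N : ℝ) τ‖ = Real.exp (-2 * π * τ.im / N) := by
    unfold tParam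
    rw [Function.Periodic.norm_qParam]
    rfl
  rw [norm_discriminant_eq, ht, mul_comm]
  refine mul_le_mul_of_nonneg_left ?_ (norm_nonneg _)
  rw [Real.exp_le_exp]
  have hpi : 0 < 2 * π * τ.im := by positivity
  have h1 : 2 * π * τ.im / N ≤ 2 * π * τ.im := div_le_self hpi.le hN
  have h2 : -2 * π * τ.im / N = -(2 * π * τ.im / N) := by ring
  rw [h2]
  linarith

/-- If `t_N^k · f` is bounded at `i∞`, so is `Δ^k · f`. -/
lemma isBounded_disc_pow_mul {N : ℕ} [NeZero N] {f : ℍ → ℂ} {k : ℕ}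
    (h : IsBoundedAtImInfty (tParam (N : ℝ) ^ k * f)) :
    IsBoundedAtImInfty (fun τ : ℍ => Δ τ ^ k * f τ) := by
  rw [isBoundedAtImInfty_iff] at h ⊢
  obtain ⟨M, A, hM⟩ := h
  have h1 : ∀ᶠ τ in atImInfty, ‖prodFactor τ‖ ≤ 2 := by
    have := tendsto_prodFactor.norm
    rw [norm_one] at this
    exact this.eventually_le_const (by norm_num)
  obtain ⟨A', hA'⟩ := (atImInfty_mem _).mp h1
  refine ⟨2 ^ k * M, max A A', fun τ hτ => ?_⟩
  have hP : ‖prodFactor τ‖ ≤ 2 := hA' τ (le_trans (le_max_right _ _) hτ)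
  have hMτ : ‖tParam (N : ℝ) τ‖ ^ k * ‖f τ‖ ≤ M := by
    have := hM τ (le_trans (le_max_left _ _) hτ)
    simpa [norm_mul, norm_pow] using this
  have hΔ : ‖Δ τ‖ ≤ 2 * ‖tParam (N : ℝ) τ‖ :=
    (norm_disc_le N τ).trans (mul_le_mul_of_nonneg_right hP (norm_nonneg _))
  calc ‖Δ τ ^ k * f τ‖ = ‖Δ τ‖ ^ k * ‖f τ‖ := by rw [norm_mul, norm_pow]
    _ ≤ (2 * ‖tParam (N : ℝ) τ‖) ^ k * ‖f τ‖ :=
        mul_le_mul_of_nonneg_right (pow_le_pow_left₀ (norm_nonneg _) hΔ k) (norm_nonneg _)
    _ = 2 ^ k * (‖tParam (N : ℝ) τ‖ ^ k * ‖f τ‖) := by rw [mul_pow, mul_assoc]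
    _ ≤ 2 ^ k * M := mul_le_mul_of_nonneg_left hMτ (by positivity)

/-- Every element of `RN N` has at most a pole of finite order at `i∞`, measured by `Δ`. -/
theorem exists_isBounded_disc (N : ℕ) [NeZero N] {f : ℍ → ℂ} (hf : f ∈ RN N) :
    ∃ m : ℕ, IsBoundedAtImInfty (fun τ : ℍ => Δ τ ^ m * f τ) := by
  obtain ⟨k, hk⟩ := (ModRing.RN_le_merCusp N hf).exists_bdd
  exact ⟨k, isBounded_disc_pow_mul hk⟩

/-- An invariant element of `RN N` is a polynomial in `j` with complex coefficients. -/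
theorem exists_complex_poly (N : ℕ) [NeZero N] (f : RN N)
    (hinv : ∀ γ : SL(2, ℤ), translate (RN N) γ f = f) :
    ∃ p : Polynomial ℂ, ∀ τ : ℍ, (f : ℍ → ℂ) τ = p.eval (jInv τ) := by
  obtain ⟨m, hm⟩ := exists_isBounded_disc N f.2
  have hinv' : ∀ (γ : SL(2, ℤ)) (τ : ℍ), (f : ℍ → ℂ) (γ • τ) = (f : ℍ → ℂ) τ := by
    intro γ τ
    have := congrArg (fun g : RN N => (g : ℍ → ℂ) τ) (hinv γ)
    simpa using this
  obtain ⟨p, -, hp⟩ := Fermat.Agent.Lib.JSurjPoly.exists_poly_of_invariant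
    (ModRing.mdiff_of_mem_RN f.2) hinv' m hm
  exact ⟨p, hp⟩

/-- The `Q̄`-rational expansion of a constant. -/
theorem laurentKRN_algebraMap (N : ℕ) [NeZero N] (c : Kbar) :
    ModRing.laurentKRN N (algebraMap Kbar (RN N) c) = HahnSeries.C c := by
  apply coeffMap_injective Basic.iota
  rw [ModRing.coeffMap_laurentKRN, ModRing.laurentRN_apply]
  have h := laurent_const N (Basic.iota c)
  have h' : laurent N ⟨((algebraMap Kbar (RN N) c : RN N) : ℍ → ℂ),
      ModRing.RN_le_merCusp N (algebraMap Kbar (RN N) c).2⟩ = HahnSeries.C (Basic.iota c) := h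
  rw [h', HahnSeries.C_apply, HahnSeries.C_apply, ModularCurve.coeffMap_single]

/-- The complex expansion of an element of `RN N` through the `Q̄`-rational one. -/
theorem laurent_mk_eq (N : ℕ) [NeZero N] (f : RN N) :
    laurent N ⟨(f : ℍ → ℂ), ModRing.RN_le_merCusp N f.2⟩
      = ModularCurve.coeffMap Basic.iota (ModRing.laurentKRN N f) := by
  rw [ModRing.coeffMap_laurentKRN, ModRing.laurentRN_apply]

end Invariants

open Invariants in
/-- an `SL(2,ℤ)`-invariant element of `RN N` is a polynomial in `j` with coefficients in `Q̄`. -/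
theorem exists_poly_of_invariant (N : ℕ) [NeZero N] (f : RN N)
    (hinv : ∀ γ : SL(2, ℤ), translate (RN N) γ f = f) :
    ∃ p : Polynomial Kbar, f = Polynomial.aeval (jR N) p := by
  classical
  obtain ⟨p, hp⟩ := exists_complex_poly N f hinv
  set d := p.natDegree with hd
  -- the relation in the ring of functions meromorphic at the cusp
  let Mc := Fermat.Agent.Lib.CuspLaurent.merCusp N
  let F : Mc := ⟨(f : ℍ → ℂ), ModRing.RN_le_merCusp N f.2⟩
  let J : Mc := ⟨((jR N : RN N) : ℍ → ℂ), ModRing.RN_le_merCusp N (jR N).2⟩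
  let cst : ℂ → Mc := fun c => ⟨fun _ : ℍ => c, Fermat.Agent.Lib.CuspLaurent.const_mem_merCusp N c⟩
  have hrel : F = ∑ k ∈ Finset.range (d + 1), cst (p.coeff k) * J ^ k := by
    apply Subtype.ext
    funext τ
    have h0 : ((∑ k ∈ Finset.range (d + 1), cst (p.coeff k) * J ^ k : Mc) : ℍ → ℂ)
        = ∑ k ∈ Finset.range (d + 1), fun τ : ℍ => p.coeff k * jInv τ ^ k :=
      (map_sum Mc.subtype (fun k => cst (p.coeff k) * J ^ k) (Finset.range (d + 1))).trans
        (Finset.sum_congr rfl fun k _ => rfl)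
    have h1 : ((∑ k ∈ Finset.range (d + 1), cst (p.coeff k) * J ^ k : Mc) : ℍ → ℂ) τ
        = ∑ k ∈ Finset.range (d + 1), p.coeff k * jInv τ ^ k := by
      rw [h0, Finset.sum_apply]
    rw [h1]
    show (f : ℍ → ℂ) τ = _
    rw [hp τ, Polynomial.eval_eq_sum_range]
  -- push it to Laurent series
  have hL := congrArg (Fermat.Agent.Lib.CuspLaurent.laurent N) hrel
  rw [map_sum] at hL
  have hJk : ∀ k : ℕ, Fermat.Agent.Lib.CuspLaurent.laurent N (cst (p.coeff k) * J ^ k)
      = HahnSeries.C (p.coeff k)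
        * ModularCurve.coeffMap Basic.iota (ModRing.laurentKRN N (jR N ^ k)) := by
    intro k
    rw [map_mul, map_pow, map_pow, map_pow]
    congr 1
    · exact Fermat.Agent.Lib.CuspLaurent.laurent_const N (p.coeff k)
    · congr 1
      exact laurent_mk_eq N (jR N)
  have hF : Fermat.Agent.Lib.CuspLaurent.laurent N F
      = ModularCurve.coeffMap Basic.iota (ModRing.laurentKRN N f) := laurent_mk_eq N f
  rw [hF, Finset.sum_congr rfl (fun k _ => hJk k)] at hL
  -- the index shift: index `0` is `f`, index `k + 1` is `j ^ k`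
  let x : ℕ → LaurentSeries Kbar := fun i =>
    Nat.casesOn i (ModRing.laurentKRN N f) (fun k => ModRing.laurentKRN N (jR N ^ k))
  let c : ℕ → ℂ := fun i => Nat.casesOn i (-1) (fun k => p.coeff k)
  have hsum : ∑ i ∈ Finset.range (d + 2),
      HahnSeries.C (c i) * ModularCurve.coeffMap Basic.iota (x i) = 0 := by
    rw [Finset.sum_range_succ']
    show ∑ k ∈ Finset.range (d + 1), HahnSeries.C (p.coeff k)
        * ModularCurve.coeffMap Basic.iota (ModRing.laurentKRN N (jR N ^ k))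
        + HahnSeries.C (-1 : ℂ) * ModularCurve.coeffMap Basic.iota (ModRing.laurentKRN N f) = 0
    rw [← hL, map_neg, map_one]
    ring
  obtain ⟨c', hc', hsum'⟩ :=
    Fermat.Agent.Lib.FFDegreeLD.exists_rational_relation Basic.iota (Finset.range (d + 2)) x c hsum
  have hc0 : c' 0 = -1 := hc' 0 (-1) (by simp [c])
  rw [Finset.sum_range_succ'] at hsum'
  have hsum'' : ∑ k ∈ Finset.range (d + 1), HahnSeries.C (c' (k + 1))
        * ModRing.laurentKRN N (jR N ^ k)
        + HahnSeries.C (c' 0) * ModRing.laurentKRN N f = 0 := hsum'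
  rw [hc0, map_neg, map_one, neg_one_mul, ← sub_eq_add_neg, sub_eq_zero] at hsum''
  refine ⟨∑ k ∈ Finset.range (d + 1), Polynomial.C (c' (k + 1)) * Polynomial.X ^ k, ?_⟩
  apply ModRing.laurentKRN_injective N
  rw [← hsum'', map_sum, map_sum]
  refine Finset.sum_congr rfl fun k _ => ?_
  have e1 : Polynomial.aeval (jR N) (Polynomial.C (c' (k + 1)) * Polynomial.X ^ k)
      = algebraMap Kbar (RN N) (c' (k + 1)) * jR N ^ k := by
    rw [map_mul, map_pow, Polynomial.aeval_C, Polynomial.aeval_X]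
  rw [e1, map_mul, laurentKRN_algebraMap]

end Fermat.Agent.S24
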