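import Mathlib
import Fermat.Agent.S24.Basic
import Fermat.Agent.Lib.JqAnalytic

/-!
# S24, package `JFun`: the analytic `j`-function `jC` and the Prelude's formal `jq`

Exact statements of the S24 plan (`PlanMod`), proved from `Fermat.Agent.Lib.JqAnalytic`
(`jC` is definitionally `Fermat.Agent.Lib.JqAnalytic.jFun`).
-/

set_option autoImplicit false

open UpperHalfPlane Fermat.Agent.S24.Basic
open scoped MatrixGroups Manifold Real

noncomputable section

namespace Fermat.Agent.S24.JFun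

open Fermat.Agent.Lib.JqAnalytic

theorem jC_eq_jFun : jC = jFun := rfl

/-- `exp (2πiτ)` is Mathlib's `q`-parameter of width `1`. -/
theorem exp_eq_qParam (z : ℂ) :
    Complex.exp (2 * π * Complex.I * z) = Function.Periodic.qParam 1 z := by
  simp [Function.Periodic.qParam]

theorem mdifferentiable_jC : MDiff jC := jFun_mdifferentiable

theorem jC_smul (γ : SL(2, ℤ)) (τ : ℍ) : jC (γ • τ) = jC τ := jFun_smul γ τ

/-- THE BRIDGE: `j · q = ∑ jNumQ_n qⁿ` with the Prelude's formal coefficients. -/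
theorem hasSum_jC (τ : ℍ) :
    HasSum (fun n : ℕ => ((PowerSeries.coeff n ModularCurve.jNumQ : ℚ) : ℂ)
        * Complex.exp (2 * π * Complex.I * τ) ^ n)
      (jC τ * Complex.exp (2 * π * Complex.I * τ)) := by
  have h := hasSum_jNumFun (q := Function.Periodic.qParam 1 τ)
    (by simpa using UpperHalfPlane.norm_qParam_lt_one 1 τ)
  rw [jNumFun_qParam, mul_comm] at h
  rw [exp_eq_qParam, jC_eq_jFun]
  have hfun : (fun n : ℕ => ((PowerSeries.coeff n ModularCurve.jNumQ : ℚ) : ℂ)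
      * Function.Periodic.qParam 1 τ ^ n) =
      fun n : ℕ => ((ModularCurve.jNum.coeff n : ℤ) : ℂ) * Function.Periodic.qParam 1 τ ^ n := by
    funext n
    rw [ModularCurve.jNumQ, PowerSeries.coeff_map]
    simp
  rw [hfun]
  exact h

/-- consequence: `j(τ) · q(τ) → 1` at `i∞` -/
theorem tendsto_jC_mul_q :
    Filter.Tendsto (fun τ : ℍ => jC τ * Complex.exp (2 * π * Complex.I * τ)) atImInfty (nhds 1) := by
  refine tendsto_qParam_mul_jFun.congr fun τ => ?_
  rw [exp_eq_qParam, jC_eq_jFun, mul_comm]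

/-- `ℤ`-indexed form: `j(τ) = ∑_{n ∈ ℤ} (jq)_n qⁿ` with the coefficients of the Prelude's formal
Laurent series `jq`. -/
theorem hasSum_jC_int (τ : ℍ) :
    HasSum (fun n : ℤ => ((ModularCurve.jq.coeff n : ℚ) : ℂ)
        * Complex.exp (2 * π * Complex.I * τ) ^ n) (jC τ) := by
  rw [exp_eq_qParam, jC_eq_jFun]
  exact hasSum_jFun_int τ

/-- The point `(a τ + b) / d` of the upper half plane. -/
theorem im_affine_pos (a b d : ℕ) (ha : 0 < a) (hd : 0 < d) (τ : ℍ) :
    0 < ((((a : ℂ) * (τ : ℂ) + (b : ℂ)) / (d : ℂ))).im := by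
  have h1 : ((((a : ℂ) * (τ : ℂ) + (b : ℂ)) / (d : ℂ))).im = (a : ℝ) * τ.im / (d : ℝ) := by
    rw [Complex.div_natCast_im]
    simp
  rw [h1]
  have ha' : (0 : ℝ) < a := by exact_mod_cast ha
  have hd' : (0 : ℝ) < d := by exact_mod_cast hd
  exact div_pos (mul_pos ha' τ.im_pos) hd'

/-- Expansion of `jM a b d = j((aτ + b)/d)` in the parameter `t = exp(2πiτ/d)`:
`j((aτ+b)/d) = ∑_{n ∈ ℤ} (jq)_n ζ_d^{bn} t^{an}`, `ζ_d = exp(2πi/d)`. -/
theorem hasSum_jM (a b d : ℕ) (ha : 0 < a) (hd : 0 < d) (τ : ℍ) :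
    HasSum (fun n : ℤ => ((ModularCurve.jq.coeff n : ℚ) : ℂ)
        * (Complex.exp (2 * π * Complex.I * (b : ℂ) / (d : ℂ)) ^ n
          * Complex.exp (2 * π * Complex.I * (τ : ℂ) / (d : ℂ)) ^ ((a : ℤ) * n)))
      (jM a b d τ) := by
  have him := im_affine_pos a b d ha hd τ
  have h := hasSum_jC_int (ofComplex (((a : ℂ) * (τ : ℂ) + (b : ℂ)) / (d : ℂ)))
  rw [ofComplex_apply_of_im_pos him] at h
  have hd' : (d : ℂ) ≠ 0 := by exact_mod_cast hd.ne'
  have hexp : Complex.exp (2 * π * Complex.I *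
      ((⟨((a : ℂ) * (τ : ℂ) + (b : ℂ)) / (d : ℂ), him⟩ : ℍ) : ℂ)) =
      Complex.exp (2 * π * Complex.I * (b : ℂ) / (d : ℂ)) *
        Complex.exp (2 * π * Complex.I * (τ : ℂ) / (d : ℂ)) ^ a := by
    rw [← Complex.exp_nat_mul, ← Complex.exp_add]
    congr 1
    show 2 * π * Complex.I * (((a : ℂ) * (τ : ℂ) + (b : ℂ)) / (d : ℂ)) = _
    field_simp
    ring
  rw [hexp] at h
  have hfun : (fun n : ℤ => ((ModularCurve.jq.coeff n : ℚ) : ℂ)
        * (Complex.exp (2 * π * Complex.I * (b : ℂ) / (d : ℂ)) ^ n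
          * Complex.exp (2 * π * Complex.I * (τ : ℂ) / (d : ℂ)) ^ ((a : ℤ) * n))) =
      fun n : ℤ => ((ModularCurve.jq.coeff n : ℚ) : ℂ)
        * (Complex.exp (2 * π * Complex.I * (b : ℂ) / (d : ℂ)) *
          Complex.exp (2 * π * Complex.I * (τ : ℂ) / (d : ℂ)) ^ a) ^ n := by
    funext n
    rw [mul_zpow, zpow_mul, zpow_natCast]
  rw [hfun]
  have hjM : jM a b d τ = jC ⟨((a : ℂ) * (τ : ℂ) + (b : ℂ)) / (d : ℂ), him⟩ := by
    rw [jM, ofComplex_apply_of_im_pos him]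
  rw [hjM]
  exact h

end Fermat.Agent.S24.JFun
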