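/-
S24 package [JInv]: level-one invariant holomorphic functions with a finite order pole at the
cusp are polynomials in `j`.  Owner: helper62.
Thin wrapper over `Fermat.Agent.Lib.JSurjPoly`.
-/
import Mathlib
import Fermat.Agent.S24.Basic
import Fermat.Agent.Lib.JSurjPoly

set_option autoImplicit false

open UpperHalfPlane Fermat.Agent.S24.Basic
open scoped MatrixGroups Manifold

namespace Fermat.Agent.S24.JInv

/-- a holomorphic `SL₂(ℤ)`-invariant function with a pole of order `≤ m` at `i∞` is a polynomial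
of degree `≤ m` in `j` -/
theorem exists_poly_of_invariant (f : ℍ → ℂ) (hf : MDiff f)
    (hinv : ∀ (γ : SL(2, ℤ)) (τ : ℍ), f (γ • τ) = f τ) (m : ℕ)
    (hbd : IsBoundedAtImInfty (fun τ : ℍ => f τ * ModularForm.discriminant τ ^ m)) :
    ∃ P : Polynomial ℂ, P.natDegree ≤ m ∧ ∀ τ : ℍ, f τ = P.eval (jC τ) := by
  have hbd' : IsBoundedAtImInfty (fun τ : ℍ => ModularForm.discriminant τ ^ m * f τ) := by
    have : (fun τ : ℍ => ModularForm.discriminant τ ^ m * f τ)
        = (fun τ : ℍ => f τ * ModularForm.discriminant τ ^ m) := by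
      funext τ; ring
    rw [this]; exact hbd
  exact Fermat.Agent.Lib.JSurjPoly.exists_poly_of_invariant hf hinv m hbd'

/-- rational version: if moreover the first `m + 1` `q`-expansion coefficients of `Δ ^ m * f`
lie in a subfield `K₀` of `ℂ`, the polynomial has coefficients in `K₀`. -/
theorem exists_poly_of_invariant_subfield (K₀ : Subfield ℂ) (f : ℍ → ℂ) (hf : MDiff f)
    (hinv : ∀ (γ : SL(2, ℤ)) (τ : ℍ), f (γ • τ) = f τ) (m : ℕ)
    (hbd : IsBoundedAtImInfty (fun τ : ℍ => ModularForm.discriminant τ ^ m * f τ))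
    (hK : ∀ n ≤ m, (qExpansion 1 (fun τ : ℍ => ModularForm.discriminant τ ^ m * f τ)).coeff n
      ∈ K₀) :
    ∃ P : Polynomial ℂ, P.natDegree ≤ m ∧ (∀ i, P.coeff i ∈ K₀) ∧
      ∀ τ : ℍ, f τ = P.eval (jC τ) :=
  Fermat.Agent.Lib.JSurjPoly.exists_poly_of_invariant_subfield K₀ hf hinv m hbd hK

/-- a bounded holomorphic `SL₂(ℤ)`-invariant function is constant. -/
theorem const_of_invariant_bdd (f : ℍ → ℂ) (hf : MDiff f)
    (hinv : ∀ (γ : SL(2, ℤ)) (τ : ℍ), f (γ • τ) = f τ) (hbd : IsBoundedAtImInfty f) :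
    ∃ c : ℂ, ∀ τ : ℍ, f τ = c := by
  obtain ⟨P, hP, hPf⟩ := exists_poly_of_invariant f hf hinv 0 (by simpa using hbd)
  refine ⟨P.coeff 0, fun τ => ?_⟩
  rw [hPf τ, Polynomial.eq_C_of_natDegree_le_zero hP]
  simp

end Fermat.Agent.S24.JInv
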