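import Mathlib

set_option autoImplicit false

namespace Fermat.Agent.S24.PermCount

open MulAction

section LinearAlgebra

variable {G X : Type*} [Group G] [MulAction G X]

/-- The permutation action of `g` on functions: `(act g v) x = v (g⁻¹ • x)`. -/
noncomputable def act (g : G) : (X → ℚ) →ₗ[ℚ] (X → ℚ) :=
  LinearMap.funLeft ℚ ℚ (fun x => g⁻¹ • x)

@[simp] lemma act_apply (g : G) (v : X → ℚ) (x : X) : act g v x = v (g⁻¹ • x) := rfl

lemma act_mul (g h : G) (v : X → ℚ) : act (g * h) v = act g (act h v) := by
  ext x; simp [mul_smul]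

lemma act_inv_act (g : G) (v : X → ℚ) : act g⁻¹ (act g v) = v := by
  ext x; simp

lemma act_act_inv (g : G) (v : X → ℚ) : act g (act g⁻¹ v) = v := by
  ext x; simp

/-- The fixed space of `g`. -/
noncomputable def fixedSpace (g : G) : Submodule ℚ (X → ℚ) := LinearMap.ker (act g - LinearMap.id)

lemma mem_fixedSpace {g : G} {v : X → ℚ} : v ∈ fixedSpace g ↔ act g v = v := by
  simp [fixedSpace, sub_eq_zero]

/-- The subgroup of elements fixing a function. -/
def stab (v : X → ℚ) : Subgroup G where
  carrier := {h | ∀ x, v (h • x) = v x}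
  one_mem' := by simp
  mul_mem' := fun {a b} ha hb x => by rw [mul_smul, ha, hb]
  inv_mem' := fun {a} ha x => by
    have := ha (a⁻¹ • x)
    simp only [smul_inv_smul] at this
    exact this.symm

lemma mem_stab_of_act {g : G} {v : X → ℚ} (hv : act g v = v) : g ∈ stab v := by
  intro x
  have := congrFun hv (g • x)
  simp only [act_apply, inv_smul_smul] at this
  exact this.symm

lemma act_of_mem_stab {g : G} {v : X → ℚ} (hg : g ∈ stab v) : act g v = v := by
  ext x
  have := (stab v).inv_mem hg x
  simpa using this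

theorem finrank_fixedSpace [Finite X] (g : G) :
    Module.finrank ℚ (fixedSpace (X := X) g)
      = Nat.card (orbitRel.Quotient (Subgroup.zpowers g) X) := by
  classical
  have : Fintype (orbitRel.Quotient (Subgroup.zpowers g) X) := Fintype.ofFinite _
  let f : (orbitRel.Quotient (Subgroup.zpowers g) X → ℚ) →ₗ[ℚ] fixedSpace (X := X) g :=
    { toFun := fun φ => ⟨fun x => φ (Quotient.mk'' x), by
        rw [mem_fixedSpace]
        ext x
        simp only [act_apply]
        congr 1
        apply Quotient.sound'
        exact ⟨⟨g⁻¹, Subgroup.inv_mem _ (Subgroup.mem_zpowers g)⟩, rfl⟩⟩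
      map_add' := fun φ ψ => rfl
      map_smul' := fun c φ => rfl }
  have hinj : Function.Injective f := by
    intro φ ψ h
    funext q
    induction q using Quotient.inductionOn' with
    | h x => exact congrFun (congrArg Subtype.val h) x
  have hsurj : Function.Surjective f := by
    rintro ⟨v, hv⟩
    rw [mem_fixedSpace] at hv
    have hle : Subgroup.zpowers g ≤ stab v := (Subgroup.zpowers_le).mpr (mem_stab_of_act hv)
    refine ⟨Quotient.lift v ?_, ?_⟩
    · rintro x y ⟨⟨h, hh⟩, rfl⟩
      exact hle hh y
    · ext x; rfl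
  have e := LinearEquiv.ofBijective f ⟨hinj, hsurj⟩
  rw [← e.finrank_eq, Module.finrank_fintype_fun_eq_card, Nat.card_eq_fintype_card]

end LinearAlgebra

section Inequality

variable {G X : Type*} [Group G] [MulAction G X]

/-- Scott's map `(v₁, v₂, v₃) ↦ (1 - a) v₁ + a (1 - b) v₂ - (1 - ab) v₃`. -/
noncomputable def Psi (a b : G) : ((X → ℚ) × (X → ℚ) × (X → ℚ)) →ₗ[ℚ] (X → ℚ) :=
  LinearMap.coprod (LinearMap.id - act a)
    (LinearMap.coprod (act a ∘ₗ (LinearMap.id - act b)) (act (a * b) - LinearMap.id))

lemma Psi_apply (a b : G) (v : (X → ℚ) × (X → ℚ) × (X → ℚ)) :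
    Psi a b v = (v.1 - act a v.1) + ((act a v.2.1 - act a (act b v.2.1))
      + (act (a * b) v.2.2 - v.2.2)) := by
  simp [Psi, LinearMap.coprod_apply, map_sub]

/-- The map `((k₁, k₂, k₃), v) ↦ (k₁ + v, k₂ + v, k₃ + v)`. -/
noncomputable def Lam (a b : G) :
    ((fixedSpace (X := X) a × fixedSpace (X := X) b × fixedSpace (X := X) (a * b)) × (X → ℚ))
      →ₗ[ℚ] ((X → ℚ) × (X → ℚ) × (X → ℚ)) :=
  LinearMap.coprod
    (LinearMap.prodMap (fixedSpace a).subtype
      (LinearMap.prodMap (fixedSpace b).subtype (fixedSpace (a * b)).subtype))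
    (LinearMap.prod LinearMap.id (LinearMap.prod LinearMap.id LinearMap.id))

lemma Lam_apply (a b : G)
    (x : (fixedSpace (X := X) a × fixedSpace (X := X) b × fixedSpace (X := X) (a * b)) × (X → ℚ)) :
    Lam a b x = ((x.1.1 : X → ℚ) + x.2, (x.1.2.1 : X → ℚ) + x.2, (x.1.2.2 : X → ℚ) + x.2) := by
  simp [Lam, LinearMap.coprod_apply]

lemma Psi_Lam (a b : G)
    (x : (fixedSpace (X := X) a × fixedSpace (X := X) b × fixedSpace (X := X) (a * b)) × (X → ℚ)) :
    Psi a b (Lam a b x) = 0 := by
  obtain ⟨⟨⟨k1, h1⟩, ⟨k2, h2⟩, ⟨k3, h3⟩⟩, v⟩ := x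
  rw [mem_fixedSpace] at h1 h2 h3
  rw [Lam_apply, Psi_apply]
  simp only [map_add, h1, h2, h3, act_mul]
  abel

lemma range_Lam_le_ker_Psi (a b : G) :
    LinearMap.range (Lam (X := X) a b) ≤ LinearMap.ker (Psi (X := X) a b) := by
  rintro _ ⟨x, rfl⟩
  exact Psi_Lam a b x

/-- The subgroup of `g` such that `v - g v` lies in the range of `Psi` for all `v`. -/
def rangeSub (a b : G) : Subgroup G where
  carrier := {g | ∀ v : X → ℚ, v - act g v ∈ LinearMap.range (Psi (X := X) a b)}
  one_mem' := fun v => by
    have : v - act (1 : G) v = 0 := by ext x; simp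
    rw [this]; exact Submodule.zero_mem _
  mul_mem' := fun {g h} hg hh v => by
    have : v - act (g * h) v = (v - act h v) + (act h v - act g (act h v)) := by
      rw [act_mul]; abel
    rw [this]
    exact Submodule.add_mem _ (hh v) (hg (act h v))
  inv_mem' := fun {g} hg v => by
    have : v - act g⁻¹ v = -(act g⁻¹ v - act g (act g⁻¹ v)) := by
      rw [act_act_inv]; abel
    rw [this]
    exact Submodule.neg_mem _ (hg _)

lemma rangeSub_eq_top (a b : G) (hgen : Subgroup.closure {a, b} = (⊤ : Subgroup G)) :
    rangeSub (X := X) a b = ⊤ := by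
  have ha : a ∈ rangeSub (X := X) a b := fun v => ⟨(v, 0, 0), by simp [Psi_apply]⟩
  have hc : a * b * a⁻¹ ∈ rangeSub (X := X) a b := fun v =>
    ⟨(0, act a⁻¹ v, 0), by
      simp only [Psi_apply, map_zero, sub_zero, zero_add, add_zero, act_mul, act_act_inv]⟩
  have hb : b ∈ rangeSub (X := X) a b := by
    have := (rangeSub (X := X) a b).mul_mem ((rangeSub (X := X) a b).mul_mem
      ((rangeSub (X := X) a b).inv_mem ha) hc) ha
    simpa [mul_assoc] using this
  rw [eq_top_iff, ← hgen, Subgroup.closure_le]
  rintro g (rfl | rfl)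
  · exact ha
  · exact hb

lemma act_single [DecidableEq X] (g : G) (x : X) :
    act g (Pi.single x (1 : ℚ)) = Pi.single (g • x) (1 : ℚ) := by
  ext z
  simp only [act_apply, Pi.single_apply, inv_smul_eq_iff]

/-- **Ree / Scott inequality** for permutation actions. -/
theorem card_orbits_le {G X : Type*} [Group G] [MulAction G X] [Finite X]
    [MulAction.IsPretransitive G X] (a b : G)
    (hgen : Subgroup.closure {a, b} = (⊤ : Subgroup G)) :
    Nat.card (MulAction.orbitRel.Quotient (Subgroup.zpowers a) X)
      + Nat.card (MulAction.orbitRel.Quotient (Subgroup.zpowers b) X)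
      + Nat.card (MulAction.orbitRel.Quotient (Subgroup.zpowers (a * b)) X) ≤ Nat.card X + 2 := by
  classical
  have : Fintype X := Fintype.ofFinite X
  rw [← finrank_fixedSpace, ← finrank_fixedSpace, ← finrank_fixedSpace]
  have hn : Module.finrank ℚ (X → ℚ) = Nat.card X := by
    rw [Module.finrank_fintype_fun_eq_card, Nat.card_eq_fintype_card]
  rcases isEmpty_or_nonempty X with hX | ⟨⟨x0⟩⟩
  · have h0 : Module.finrank ℚ (X → ℚ) = 0 := by
      rw [hn]; exact Nat.card_of_isEmpty
    have ha := Submodule.finrank_le (fixedSpace (X := X) a)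
    have hb := Submodule.finrank_le (fixedSpace (X := X) b)
    have hab := Submodule.finrank_le (fixedSpace (X := X) (a * b))
    omega
  -- rank–nullity for `Lam`
  have h1 := LinearMap.finrank_range_add_finrank_ker (Lam (X := X) a b)
  rw [Module.finrank_prod, Module.finrank_prod, Module.finrank_prod, hn] at h1
  -- range Lam ≤ ker Psi
  have h2 : Module.finrank ℚ (LinearMap.range (Lam (X := X) a b))
      ≤ Module.finrank ℚ (LinearMap.ker (Psi (X := X) a b)) :=
    Submodule.finrank_mono (range_Lam_le_ker_Psi a b)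
  -- rank–nullity for `Psi`
  have h3 := LinearMap.finrank_range_add_finrank_ker (Psi (X := X) a b)
  rw [Module.finrank_prod, Module.finrank_prod, hn] at h3
  -- the kernel of `Lam` is at most one-dimensional
  have h4 : Module.finrank ℚ (LinearMap.ker (Lam (X := X) a b)) ≤ 1 := by
    let ev : LinearMap.ker (Lam (X := X) a b) →ₗ[ℚ] ℚ :=
      (LinearMap.proj x0) ∘ₗ (LinearMap.snd ℚ _ _) ∘ₗ (LinearMap.ker (Lam (X := X) a b)).subtype
    have hev : Function.Injective ev := by
      rw [injective_iff_map_eq_zero]
      rintro ⟨⟨⟨⟨k1, h1⟩, ⟨k2, h2⟩, ⟨k3, h3⟩⟩, v⟩, hx⟩ hv0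
      rw [LinearMap.mem_ker, Lam_apply] at hx
      simp only [Prod.mk_eq_zero] at hx
      obtain ⟨e1, e2, e3⟩ := hx
      have hv0' : v x0 = 0 := hv0
      rw [mem_fixedSpace] at h1 h2
      have hk1 : k1 = -v := eq_neg_of_add_eq_zero_left e1
      have hk2 : k2 = -v := eq_neg_of_add_eq_zero_left e2
      have hk3 : k3 = -v := eq_neg_of_add_eq_zero_left e3
      have hva : act a v = v := by
        have : act a (-v) = -v := hk1 ▸ h1
        rw [map_neg] at this
        exact neg_injective this
      have hvb : act b v = v := by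
        have : act b (-v) = -v := hk2 ▸ h2
        rw [map_neg] at this
        exact neg_injective this
      have htop : stab v = (⊤ : Subgroup G) := by
        rw [eq_top_iff, ← hgen, Subgroup.closure_le]
        rintro g (rfl | rfl)
        · exact mem_stab_of_act hva
        · exact mem_stab_of_act hvb
      have hv : v = 0 := by
        funext y
        obtain ⟨g, rfl⟩ := MulAction.exists_smul_eq G x0 y
        have hg : g ∈ stab v := htop ▸ Subgroup.mem_top g
        rw [hg x0, hv0']
        rfl
      subst hv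
      simp only [neg_zero] at hk1 hk2 hk3
      subst hk1 hk2 hk3
      rfl
    have := LinearMap.finrank_le_finrank_of_injective hev
    simpa using this
  -- the range of `Psi` has codimension at most one
  have h5 : Nat.card X ≤ Module.finrank ℚ (LinearMap.range (Psi (X := X) a b)) + 1 := by
    have htop := rangeSub_eq_top (X := X) a b hgen
    have hsup : LinearMap.range (Psi (X := X) a b) ⊔ Submodule.span ℚ {Pi.single x0 (1 : ℚ)} = ⊤ := by
      rw [eq_top_iff]
      intro v _
      have hv : v = ∑ y, v y • (Pi.single y (1 : ℚ) : X → ℚ) := by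
        funext z
        simp [Finset.sum_apply, Pi.single_apply]
      rw [hv]
      refine Submodule.sum_mem _ fun y _ => Submodule.smul_mem _ _ ?_
      obtain ⟨g, rfl⟩ := MulAction.exists_smul_eq G x0 y
      have hg : g ∈ rangeSub (X := X) a b := htop ▸ Subgroup.mem_top g
      have h := hg (Pi.single x0 (1 : ℚ))
      rw [act_single] at h
      have e : (Pi.single (g • x0) (1 : ℚ) : X → ℚ)
          = Pi.single x0 (1 : ℚ) - (Pi.single x0 (1 : ℚ) - Pi.single (g • x0) (1 : ℚ)) := by abel
      rw [e]
      exact Submodule.sub_mem _ (Submodule.mem_sup_right (Submodule.mem_span_singleton_self _))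
        (Submodule.mem_sup_left h)
    have h6 := Submodule.finrank_add_le_finrank_add_finrank (LinearMap.range (Psi (X := X) a b))
      (Submodule.span ℚ {(Pi.single x0 (1 : ℚ) : X → ℚ)})
    rw [hsup, finrank_top, hn] at h6
    have h7 : Module.finrank ℚ (Submodule.span ℚ {(Pi.single x0 (1 : ℚ) : X → ℚ)}) ≤ 1 :=
      (finrank_span_le_card _).trans (by simp)
    omega
  omega

end Inequality

section Parity

variable {G X : Type*} [Group G] [MulAction G X]

open Equiv Equiv.Perm

lemma toPerm_zpow_apply (g : G) (k : ℤ) (y : X) :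
    ((MulAction.toPerm g : Perm X) ^ k) y = g ^ k • y := by
  have h := (MulAction.toPermHom G X).map_zpow g k
  have h2 : (MulAction.toPermHom G X) g = MulAction.toPerm g := rfl
  rw [h2] at h
  rw [← h]
  rfl

/-- The orbit relation of `zpowers g` is the `SameCycle` relation of `toPerm g`. -/
lemma orbitRel_iff_sameCycle (g : G) (x y : X) :
    (orbitRel (Subgroup.zpowers g) X) x y ↔ (MulAction.toPerm g : Perm X).SameCycle y x := by
  rw [orbitRel_apply, mem_orbit_iff]
  constructor
  · rintro ⟨⟨h, k, rfl⟩, rfl⟩
    exact ⟨k, toPerm_zpow_apply g k y⟩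
  · rintro ⟨k, hk⟩
    exact ⟨⟨g ^ k, k, rfl⟩, by rw [← hk, toPerm_zpow_apply]; rfl⟩

lemma card_orbits_add_sum [Fintype X] [DecidableEq X] (g : G) :
    Nat.card (orbitRel.Quotient (Subgroup.zpowers g) X)
        + (MulAction.toPerm g : Perm X).cycleType.sum
      = Fintype.card X + Multiset.card (MulAction.toPerm g : Perm X).cycleType := by
  set σ : Perm X := MulAction.toPerm g with hσ
  let φ : X → (Function.fixedPoints σ) ⊕ σ.cycleFactorsFinset := fun x =>
    if h : σ x = x then Sum.inl ⟨x, h⟩
    else Sum.inr ⟨σ.cycleOf x, cycleOf_mem_cycleFactorsFinset_iff.mpr (mem_support.mpr h)⟩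
  have hφ : ∀ x y, φ x = φ y ↔ σ.SameCycle x y := by
    intro x y
    by_cases hx : σ x = x <;> by_cases hy : σ y = y
    · simp only [φ, dif_pos hx, dif_pos hy, Sum.inl.injEq]
      constructor
      · intro h
        have hxy : x = y := congrArg Subtype.val h
        subst hxy
        exact SameCycle.refl _ _
      · intro h
        exact Subtype.ext (h.eq_of_left hx)
    · simp only [φ, dif_pos hx, dif_neg hy, reduceCtorEq, false_iff]
      intro h
      exact hy (h.apply_eq_self_iff.mp hx)
    · simp only [φ, dif_neg hx, dif_pos hy, reduceCtorEq, false_iff]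
      intro h
      exact hx (h.apply_eq_self_iff.mpr hy)
    · simp only [φ, dif_neg hx, dif_neg hy, Sum.inr.injEq, Subtype.mk.injEq]
      exact (sameCycle_iff_cycleOf_eq_of_mem_support (mem_support.mpr hx) (mem_support.mpr hy)).symm
  have hsurj : Function.Surjective φ := by
    rintro (⟨x, hx⟩ | ⟨c, hc⟩)
    · have hx' : σ x = x := hx
      exact ⟨x, by simp only [φ, dif_pos hx']⟩
    · obtain ⟨hcyc, hcs⟩ := mem_cycleFactorsFinset_iff.mp hc
      obtain ⟨x, hx, -⟩ := hcyc
      have hxs : x ∈ c.support := mem_support.mpr hx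
      have hσx : σ x ≠ x := by rw [← hcs x hxs]; exact hx
      refine ⟨x, ?_⟩
      simp only [φ]
      rw [dif_neg hσx]
      congr 1
      exact Subtype.ext (cycle_is_cycleOf hxs hc).symm
  let ψ : orbitRel.Quotient (Subgroup.zpowers g) X → (Function.fixedPoints σ) ⊕ σ.cycleFactorsFinset :=
    Quotient.lift φ (fun x y h => (hφ x y).mpr ((orbitRel_iff_sameCycle g x y).mp h).symm)
  have hψ : Function.Bijective ψ := by
    constructor
    · intro q1 q2
      induction q1 using Quotient.inductionOn' with
      | h x =>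
        induction q2 using Quotient.inductionOn' with
        | h y =>
          intro h
          apply Quotient.sound'
          exact (orbitRel_iff_sameCycle g x y).mpr ((hφ x y).mp h).symm
    · intro t
      obtain ⟨x, rfl⟩ := hsurj t
      exact ⟨Quotient.mk'' x, rfl⟩
  rw [Nat.card_congr (Equiv.ofBijective ψ hψ), Nat.card_eq_fintype_card, Fintype.card_sum,
    Fintype.card_coe, cycleType_def, Multiset.card_map]
  have h1 := card_fixedPoints σ
  have h2 := sum_cycleType_le σ
  rw [cycleType_def] at h1 h2
  have h3 : Fintype.card (Function.fixedPoints σ)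
      = Fintype.card X - (Multiset.map (Finset.card ∘ support) σ.cycleFactorsFinset.val).sum := by
    convert h1
  have h4 : Multiset.card σ.cycleFactorsFinset.val = σ.cycleFactorsFinset.card := rfl
  omega

lemma sign_toPerm [Fintype X] [DecidableEq X] (g : G) :
    Equiv.Perm.sign (MulAction.toPerm g : Perm X)
      = (-1 : ℤˣ) ^ (Fintype.card X + Nat.card (orbitRel.Quotient (Subgroup.zpowers g) X)) := by
  rw [sign_of_cycleType]
  have h := card_orbits_add_sum (X := X) g
  have h2 : ((MulAction.toPerm g : Perm X).cycleType.sum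
        + Multiset.card (MulAction.toPerm g : Perm X).cycleType)
        + 2 * Nat.card (orbitRel.Quotient (Subgroup.zpowers g) X)
      = (Fintype.card X + Nat.card (orbitRel.Quotient (Subgroup.zpowers g) X))
        + 2 * Multiset.card (MulAction.toPerm g : Perm X).cycleType := by omega
  have h3 := congrArg (fun k => (-1 : ℤˣ) ^ k) h2
  simp only [pow_add, pow_mul, neg_one_sq, one_pow, mul_one] at h3
  rw [pow_add, pow_add]
  exact h3

/-- Parity of `|X| + o_a + o_b + o_{ab}` (sign of permutations). -/
theorem even_card_add_orbits {G X : Type*} [Group G] [MulAction G X] [Finite X] (a b : G)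
    (hgen : Subgroup.closure {a, b} = (⊤ : Subgroup G)) :
    Even (Nat.card X
      + Nat.card (MulAction.orbitRel.Quotient (Subgroup.zpowers a) X)
      + Nat.card (MulAction.orbitRel.Quotient (Subgroup.zpowers b) X)
      + Nat.card (MulAction.orbitRel.Quotient (Subgroup.zpowers (a * b)) X)) := by
  classical
  have _ := hgen
  have : Fintype X := Fintype.ofFinite X
  have h := sign_toPerm (X := X) (a * b)
  have hmul : (MulAction.toPerm (a * b) : Perm X) = MulAction.toPerm a * MulAction.toPerm b := by
    ext x; simp [mul_smul]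
  rw [hmul, map_mul, sign_toPerm, sign_toPerm, ← pow_add] at h
  have h2 : (-1 : ℤˣ) ^ ((Fintype.card X + Nat.card (orbitRel.Quotient (Subgroup.zpowers a) X)
      + (Fintype.card X + Nat.card (orbitRel.Quotient (Subgroup.zpowers b) X)))
      + (Fintype.card X + Nat.card (orbitRel.Quotient (Subgroup.zpowers (a * b)) X))) = 1 := by
    rw [pow_add, h, ← pow_add, ← two_mul, pow_mul]
    simp
  have h3 := (neg_one_pow_eq_one_iff_even (R := ℤˣ) (by decide)).mp h2
  rw [Nat.card_eq_fintype_card]
  obtain ⟨k, hk⟩ := h3
  exact ⟨k - Fintype.card X, by omega⟩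

end Parity

end Fermat.Agent.S24.PermCount
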