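/-
S24 — package B8 (cusp): the place of `FractionRing (RN N)` above `j = ∞`.  Owner: helper78.
The exact PlanB statement `exists_place_cusp`, an instantiation of `exists_place_cusp_core`.
-/
import Mathlib
import Fermat.Agent.S24.ModRing
import Fermat.Agent.S24.HolField
import Fermat.Agent.S24.PlaceCuspCore

set_option autoImplicit false

noncomputable section

namespace Fermat.Agent.S24

open UpperHalfPlane AlgebraicCurve Fermat.Agent.Lib.JStab
open ModularGroup
open scoped MatrixGroups Manifold

/-- **B8 (cusp).**  `FractionRing (RN N)` has a place `W` with `-N ≤ W.ord j < 0`, fixed by the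
automorphism attached to `T`. -/
theorem exists_place_cusp (N : ℕ) [NeZero N] :
    ∃ W : Place Kbar (FractionRing (RN N)),
      W.ord (algebraMap (RN N) (FractionRing (RN N)) (jR N)) < 0 ∧
      -(N : ℤ) ≤ W.ord (algebraMap (RN N) (FractionRing (RN N)) (jR N)) ∧
      rhoHol (RN N) T • W = W :=
  exists_place_cusp_core N (RN N) (ModRing.RN_le_merCusp N) (jInv_mem_RN N) (rhoHol (RN N) T)
    (rhoHol_algebraMap (RN N) T)

end Fermat.Agent.S24
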