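import Mathlib
import Fermat.Agent.S24.ModDefs
import Fermat.Agent.S24.ModRing
import Fermat.Agent.S24.HolField
import Fermat.Agent.S24.Places

/-!
# S24 — package B8 (finite part), exact PlanB statements (helper72)

The special places of `FractionRing (RN N)` over `j = 1728`, `j = 0` and `j = a`
(`a ≠ 0, 1728`): thin instantiation of `S24/Places.lean` at `R = RN N`, `σ = rhoHol (RN N) γ`.
-/

set_option autoImplicit false

namespace Fermat.Agent.S24

open UpperHalfPlane AlgebraicCurve ModularGroup
open scoped MatrixGroups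

theorem exists_place_two (N : ℕ) [NeZero N] :
    ∃ W : Place Kbar (FractionRing (RN N)),
      0 < W.ord (algebraMap (RN N) (FractionRing (RN N)) (jR N)
            - algebraMap Kbar (FractionRing (RN N)) 1728) ∧
      W.ord (algebraMap (RN N) (FractionRing (RN N)) (jR N)
            - algebraMap Kbar (FractionRing (RN N)) 1728) ≤ 2 ∧
      rhoHol (RN N) S • W = W :=
  Places.exists_two (RN N) (jR N) rfl (rhoHol (RN N) S) (rhoHol_algebraMap (RN N) S)

theorem exists_place_three (N : ℕ) [NeZero N] :
    ∃ W : Place Kbar (FractionRing (RN N)),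
      0 < W.ord (algebraMap (RN N) (FractionRing (RN N)) (jR N)) ∧
      W.ord (algebraMap (RN N) (FractionRing (RN N)) (jR N)) ≤ 3 ∧
      rhoHol (RN N) (S * T) • W = W :=
  Places.exists_three (RN N) (jR N) rfl (rhoHol (RN N) (S * T))
    (rhoHol_algebraMap (RN N) (S * T))

theorem exists_place_generic (N : ℕ) [NeZero N] (a : Kbar) (h0 : a ≠ 0) (h1 : a ≠ 1728) :
    ∃ W : Place Kbar (FractionRing (RN N)),
      W.ord (algebraMap (RN N) (FractionRing (RN N)) (jR N)
            - algebraMap Kbar (FractionRing (RN N)) a) = 1 :=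
  Places.exists_generic (RN N) (jR N) rfl a h0 h1

end Fermat.Agent.S24
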