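import Mathlib
import Fermat.Prelude.Def_AlgebraicCurve_CanonicalDivisor
import Fermat.Agent.S24.Defs
import Fermat.Agent.S24.PlaceBridge
import Fermat.Agent.S24.PlaceExt
import Fermat.Agent.S24.PlaceGaloisFixed
import Fermat.Agent.Lib.PlaceChart

/-!
# S24 — package A5 (b): Galois action on the places over `y = 0` (helper40)
-/

set_option autoImplicit false
set_option linter.unusedSectionVars false
set_option linter.style.haveILetI false

namespace Fermat.Agent.S24

open AlgebraicCurve IntermediateField IsDedekindDomain Polynomial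
open scoped Pointwise

noncomputable section

namespace PlaceGalois

/-! ### Chart level: primes of the integral closure of `K[X]` in `M` -/

section Chart

variable {K M : Type*} [Field K] [Field M] [Algebra K M]
  [Algebra K[X] M] [Algebra (RatFunc K) M] [IsScalarTower K[X] (RatFunc K) M]
  [IsScalarTower K K[X] M] [FunctionField K M] [Algebra.IsSeparable (RatFunc K) M]
  (Γ : Subgroup (M ≃ₐ[K] M)) [SMulCommClass Γ K[X] M]

/-- The action of `Γ` on the ring of integers of the chart. -/
@[reducible] def actB : MulSemiringAction Γ (FunctionField.ringOfIntegers K M) :=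
  inferInstanceAs (MulSemiringAction Γ (integralClosure K[X] M))

attribute [local instance] actB

/-- The action of `Γ` on the ideals of the ring of integers of the chart. -/
@[reducible] def actI : MulAction Γ (Ideal (FunctionField.ringOfIntegers K M)) :=
  (Ideal.pointwiseDistribMulAction (M := Γ) (R := FunctionField.ringOfIntegers K M)).toMulAction

attribute [local instance] actI

theorem coe_smulB (σ : Γ) (b : FunctionField.ringOfIntegers K M) :
    ((σ • b : FunctionField.ringOfIntegers K M) : M) = (σ : M ≃ₐ[K] M) (b : M) := rfl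

theorem algebraMap_smulB (σ : Γ) (b : FunctionField.ringOfIntegers K M) :
    algebraMap (FunctionField.ringOfIntegers K M) M (σ • b) =
      (σ : M ≃ₐ[K] M) (algebraMap (FunctionField.ringOfIntegers K M) M b) := rfl

/-- One inclusion of the equivariance of `Place.ofHeightOneSpectrum`. -/
theorem smul_le (σ : Γ) (P Q : HeightOneSpectrum (FunctionField.ringOfIntegers K M))
    (h : Q.asIdeal = σ • P.asIdeal) :
    ((σ : M ≃ₐ[K] M) • (P.valuation M).valuationSubring : ValuationSubring M) ≤
      (Q.valuation M).valuationSubring := by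
  intro x hx
  rw [ValuationSubring.mem_pointwise_smul_iff_inv_smul_mem] at hx
  have hx' : P.valuation M ((σ : M ≃ₐ[K] M)⁻¹ • x) ≤ 1 := hx
  obtain ⟨n, d, hnd⟩ := P.exists_primeCompl_mul_eq_of_integer _ hx'
  have hd : (d : FunctionField.ringOfIntegers K M) ∉ P.asIdeal := d.2
  have hσd : σ • (d : FunctionField.ringOfIntegers K M) ∉ Q.asIdeal := by
    rw [h, Ideal.smul_mem_pointwise_smul_iff]
    exact hd
  have h1 : x * algebraMap (FunctionField.ringOfIntegers K M) M (σ • (d : FunctionField.ringOfIntegers K M))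
      = algebraMap (FunctionField.ringOfIntegers K M) M (σ • n) := by
    rw [algebraMap_smulB, algebraMap_smulB, ← hnd, map_mul]
    congr 1
    rw [AlgEquiv.smul_def]
    exact ((σ : M ≃ₐ[K] M).apply_symm_apply x).symm
  have h2 : Q.valuation M (algebraMap (FunctionField.ringOfIntegers K M) M
      (σ • (d : FunctionField.ringOfIntegers K M))) = 1 :=
    (HeightOneSpectrum.valuation_eq_one_iff_notMem Q).mpr hσd
  have h3 : Q.valuation M x = Q.valuation M (algebraMap (FunctionField.ringOfIntegers K M) M (σ • n)) := by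
    rw [← h1, map_mul, h2, mul_one]
  show Q.valuation M x ≤ 1
  rw [h3]
  exact Q.valuation_le_one _


/-- Equivariance of `Place.ofHeightOneSpectrum`. -/
theorem smul_ofHeightOneSpectrum (σ : Γ)
    (P Q : HeightOneSpectrum (FunctionField.ringOfIntegers K M))
    (h : Q.asIdeal = σ • P.asIdeal) :
    (σ : M ≃ₐ[K] M) • Place.ofHeightOneSpectrum (K := K) (F := M) P =
      Place.ofHeightOneSpectrum (K := K) (F := M) Q := by
  apply Place.ext
  apply le_antisymm
  · exact smul_le Γ σ P Q h
  · have h' : P.asIdeal = σ⁻¹ • Q.asIdeal := by rw [h, inv_smul_smul]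
    have key := smul_le Γ σ⁻¹ Q P h'
    intro x hx
    rw [Place.smul_toValuationSubring, ValuationSubring.mem_pointwise_smul_iff_inv_smul_mem]
    apply key
    have := ValuationSubring.smul_mem_pointwise_smul ((σ⁻¹ : Γ) : M ≃ₐ[K] M) x _ hx
    exact this

/-- The translate of a height one prime. -/
def smulH (σ : Γ) (P : HeightOneSpectrum (FunctionField.ringOfIntegers K M)) :
    HeightOneSpectrum (FunctionField.ringOfIntegers K M) where
  asIdeal := σ • P.asIdeal
  isPrime := P.isPrime.smul σ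
  ne_bot := fun h => P.ne_bot (by
    have h2 : σ⁻¹ • (σ • P.asIdeal) = σ⁻¹ • (⊥ : Ideal (FunctionField.ringOfIntegers K M)) := by
      rw [h]
    rwa [inv_smul_smul, Ideal.smul_bot] at h2)

theorem smul_ofHeightOneSpectrum' (σ : Γ)
    (P : HeightOneSpectrum (FunctionField.ringOfIntegers K M)) :
    (σ : M ≃ₐ[K] M) • Place.ofHeightOneSpectrum (K := K) (F := M) P =
      Place.ofHeightOneSpectrum (K := K) (F := M) (smulH Γ σ P) :=
  smul_ofHeightOneSpectrum Γ σ P (smulH Γ σ P) rfl

/-- Transitivity on primes with the same trace on the invariants. -/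
theorem exists_smul_eq_of_fixed [Finite Γ]
    (P Q : HeightOneSpectrum (FunctionField.ringOfIntegers K M))
    (h : ∀ b : FunctionField.ringOfIntegers K M, (∀ σ : Γ, σ • b = b) →
      (b ∈ P.asIdeal ↔ b ∈ Q.asIdeal)) :
    ∃ σ : Γ, Q.asIdeal = σ • P.asIdeal := by
  haveI : Algebra.IsInvariant (FixedPoints.subring (FunctionField.ringOfIntegers K M) Γ)
      (FunctionField.ringOfIntegers K M) Γ := ⟨fun b hb => ⟨⟨b, hb⟩, rfl⟩⟩
  haveI := P.isPrime
  haveI := Q.isPrime
  apply Algebra.IsInvariant.exists_smul_of_under_eq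
    (FixedPoints.subring (FunctionField.ringOfIntegers K M) Γ)
    (FunctionField.ringOfIntegers K M) Γ P.asIdeal Q.asIdeal
  ext a
  exact h a.1 a.2

theorem mem_asIdeal_iff (P : HeightOneSpectrum (FunctionField.ringOfIntegers K M))
    (b : FunctionField.ringOfIntegers K M) :
    b ∈ P.asIdeal ↔ (b : M) = 0 ∨ 0 < (Place.ofHeightOneSpectrum (K := K) (F := M) P).ord (b : M) := by
  rw [Fermat.Agent.Lib.PlaceChart.ord_ofHeightOneSpectrum, ← P.valuation_lt_one_iff_mem (K := M)]
  show P.valuation M (b : M) < 1 ↔ _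
  by_cases hb : (b : M) = 0
  · simp [hb]
  · have hne : P.valuation M (b : M) ≠ 0 := (Valuation.ne_zero_iff _).mpr hb
    simp only [hb, false_or]
    rw [← WithZero.exp_log hne, ← WithZero.exp_zero, WithZero.exp_lt_exp, WithZero.log_exp]
    omega


/-! #### The Galois group at ring level -/

section ChartGalois

variable (hinv : ∀ m : M, (∀ σ ∈ Γ, σ m = m) → m ∈ (algebraMap (RatFunc K) M).range)

include hinv

theorem isInvariant_poly :
    Algebra.IsInvariant K[X] (FunctionField.ringOfIntegers K M) Γ := by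
  refine ⟨fun b hb => ?_⟩
  have h1 : (b : M) ∈ (algebraMap (RatFunc K) M).range := hinv (b : M) (fun σ hσ => by
    have := congrArg (Subtype.val) (hb ⟨σ, hσ⟩)
    exact this)
  obtain ⟨r, hr⟩ := h1
  have hbint : IsIntegral K[X] (b : M) := b.2
  rw [← hr, isIntegral_algebraMap_iff (algebraMap (RatFunc K) M).injective] at hbint
  obtain ⟨q, hq⟩ := (IsIntegrallyClosed.isIntegral_iff (R := K[X]) (K := RatFunc K)).mp hbint
  refine ⟨q, Subtype.ext ?_⟩
  show algebraMap K[X] M q = (b : M)
  rw [IsScalarTower.algebraMap_apply K[X] (RatFunc K) M, hq, hr]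

theorem isGaloisGroup_poly : IsGaloisGroup Γ K[X] (FunctionField.ringOfIntegers K M) where
  faithful := ⟨fun {σ τ} h => by
    apply Subtype.ext
    apply AlgEquiv.ext
    intro m
    obtain ⟨a, s, hs, rfl⟩ :=
      IsFractionRing.div_surjective (A := FunctionField.ringOfIntegers K M) m
    have ha : (σ : M ≃ₐ[K] M) (a : M) = (τ : M ≃ₐ[K] M) (a : M) := congrArg Subtype.val (h a)
    have hs' : (σ : M ≃ₐ[K] M) (s : M) = (τ : M ≃ₐ[K] M) (s : M) := congrArg Subtype.val (h s)
    show (σ : M ≃ₐ[K] M) ((a : M) / (s : M)) = (τ : M ≃ₐ[K] M) ((a : M) / (s : M))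
    rw [map_div₀, map_div₀, ha, hs']⟩
  commutes := inferInstanceAs (SMulCommClass Γ K[X] (integralClosure K[X] M))
  isInvariant := isInvariant_poly Γ hinv


omit hinv in
theorem algebraMap_X_ne_zero :
    algebraMap K[X] (FunctionField.ringOfIntegers K M) X ≠ 0 := by
  intro h
  have := FunctionField.ringOfIntegers.algebraMap_injective K M (h.trans (map_zero _).symm)
  exact Polynomial.X_ne_zero this

omit hinv in
theorem span_X_isMaximal : (Ideal.span {(X : K[X])}).IsMaximal :=
  PrincipalIdealRing.isMaximal_of_irreducible Polynomial.irreducible_X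

omit hinv in
theorem liesOver_span_X (P : HeightOneSpectrum (FunctionField.ringOfIntegers K M))
    (hP : algebraMap K[X] (FunctionField.ringOfIntegers K M) X ∈ P.asIdeal) :
    P.asIdeal.LiesOver (Ideal.span {(X : K[X])}) := by
  haveI := P.isPrime
  refine ⟨?_⟩
  have hle : Ideal.span {(X : K[X])} ≤ P.asIdeal.under K[X] := by
    rw [Ideal.span_le, Set.singleton_subset_iff]
    exact hP
  have hne : P.asIdeal.under K[X] ≠ ⊤ := (Ideal.IsPrime.under K[X] P.asIdeal).ne_top
  exact (span_X_isMaximal (K := K)).eq_of_le hne hle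

omit hinv in
/-- The ramification index over `(X)` is the order of `X`. -/
theorem ramificationIdx_eq_ord (P : HeightOneSpectrum (FunctionField.ringOfIntegers K M))
    (hP : algebraMap K[X] (FunctionField.ringOfIntegers K M) X ∈ P.asIdeal) :
    (P.asIdeal.ramificationIdx K[X] : ℤ) =
      (Place.ofHeightOneSpectrum (K := K) (F := M) P).ord (algebraMap K[X] M X) := by
  haveI := P.isPrime
  haveI := liesOver_span_X P hP
  have hX0 := algebraMap_X_ne_zero (K := K) (M := M)
  have hmap : (Ideal.span {(X : K[X])}).map (algebraMap K[X] (FunctionField.ringOfIntegers K M))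
      = Ideal.span {algebraMap K[X] (FunctionField.ringOfIntegers K M) X} := by
    rw [Ideal.map_span, Set.image_singleton]
  have hne : (Ideal.span {(X : K[X])}).map (algebraMap K[X] (FunctionField.ringOfIntegers K M))
      ≠ ⊥ := by
    rw [hmap, Ne, Ideal.span_singleton_eq_bot]
    exact hX0
  rw [Ideal.IsDedekindDomain.ramificationIdx_eq_multiplicity (Ideal.span {(X : K[X])})
    P.asIdeal hne, hmap, Fermat.Agent.Lib.PlaceChart.ord_ofHeightOneSpectrum,
    IsScalarTower.algebraMap_apply K[X] (FunctionField.ringOfIntegers K M) M,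
    HeightOneSpectrum.valuation_of_algebraMap, P.intValuation_eq_exp_neg_multiplicity hX0,
    WithZero.log_exp, neg_neg]

omit hinv in
theorem inertiaDeg_eq_one [IsAlgClosed K]
    (P : HeightOneSpectrum (FunctionField.ringOfIntegers K M))
    (hP : algebraMap K[X] (FunctionField.ringOfIntegers K M) X ∈ P.asIdeal) :
    P.asIdeal.inertiaDeg K[X] = 1 := by
  haveI := P.isPrime
  haveI := liesOver_span_X P hP
  haveI := span_X_isMaximal (K := K)
  haveI : P.asIdeal.IsMaximal := P.isMaximal
  rw [Ideal.inertiaDeg_eq_of_isMaximal (Ideal.span {(X : K[X])}) P.asIdeal]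
  letI : Field (K[X] ⧸ Ideal.span {(X : K[X])}) := Ideal.Quotient.field _
  apply finrank_eq_one (1 : FunctionField.ringOfIntegers K M ⧸ P.asIdeal) one_ne_zero
  intro w
  obtain ⟨b, rfl⟩ := Ideal.Quotient.mk_surjective w
  obtain ⟨a, ha⟩ := Fermat.Agent.Lib.PlaceChart.exists_sub_mem_asIdeal P b
  refine ⟨Ideal.Quotient.mk _ (C a), ?_⟩
  rw [Algebra.smul_def, mul_one]
  have h1 : algebraMap (K[X] ⧸ Ideal.span {(X : K[X])})
      (FunctionField.ringOfIntegers K M ⧸ P.asIdeal) (Ideal.Quotient.mk _ (C a)) =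
      Ideal.Quotient.mk P.asIdeal (algebraMap K[X] (FunctionField.ringOfIntegers K M) (C a)) :=
    rfl
  rw [h1, eq_comm, Ideal.Quotient.eq]
  have h2 : algebraMap K[X] (FunctionField.ringOfIntegers K M) (C a) =
      algebraMap K (FunctionField.ringOfIntegers K M) a := by
    rw [← Polynomial.algebraMap_eq, ← IsScalarTower.algebraMap_apply]
  rw [h2]
  exact ha


/-- The decomposition group of a prime over `(X)` has `e` elements (the residue degree is one). -/
theorem card_stabilizer_ideal [IsAlgClosed K] [CharZero K] [Finite Γ]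
    (P : HeightOneSpectrum (FunctionField.ringOfIntegers K M))
    (hP : algebraMap K[X] (FunctionField.ringOfIntegers K M) X ∈ P.asIdeal) :
    Nat.card (MulAction.stabilizer Γ P.asIdeal) = P.asIdeal.ramificationIdx K[X] := by
  haveI := isGaloisGroup_poly Γ hinv
  haveI := P.isPrime
  haveI := liesOver_span_X P hP
  haveI hmax := span_X_isMaximal (K := K)
  haveI : (Ideal.span {(X : K[X])}).IsPrime := hmax.isPrime
  haveI : CharZero (Ideal.span {(X : K[X])}).ResidueField :=
    charZero_of_injective_ringHom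
      (f := (algebraMap K[X] (Ideal.span {(X : K[X])}).ResidueField).comp C)
      (RingHom.injective _)
  haveI : Module.IsTorsionFree K[X] (FunctionField.ringOfIntegers K M) :=
    Module.isTorsionFree_iff_algebraMap_injective.mpr
      (FunctionField.ringOfIntegers.algebraMap_injective K M)
  haveI : Module.Flat K[X] (FunctionField.ringOfIntegers K M) := inferInstance
  have h := Ideal.card_stabilizer_eq (G := Γ) (Ideal.span {(X : K[X])}) P.asIdeal
  rw [Ideal.ramificationIdxIn_eq_ramificationIdx _ P.asIdeal Γ,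
    Ideal.inertiaDegIn_eq_inertiaDeg _ P.asIdeal Γ, inertiaDeg_eq_one P hP, mul_one] at h
  exact h


omit hinv in
theorem exists_prime_of_ord_pos (W : Place K M) (hW : 0 < W.ord (algebraMap K[X] M X)) :
    ∃ P : HeightOneSpectrum (FunctionField.ringOfIntegers K M),
      Place.ofHeightOneSpectrum (K := K) (F := M) P = W ∧
        algebraMap K[X] (FunctionField.ringOfIntegers K M) X ∈ P.asIdeal := by
  have hne : algebraMap K[X] M X ≠ 0 := by
    intro h
    rw [h, Place.ord_zero] at hW
    exact lt_irrefl _ hW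
  have hmem : algebraMap K[X] M X ∈ W.toValuationSubring :=
    (mem_iff_ord_nonneg W hne).mpr hW.le
  obtain ⟨P, rfl⟩ := Fermat.Agent.Lib.PlaceChart.exists_ofHeightOneSpectrum_eq W hmem
  refine ⟨P, rfl, ?_⟩
  rw [mem_asIdeal_iff]
  right
  exact hW

omit hinv in
/-- Place-level transitivity, relative to the invariants of `Γ`. -/
theorem exists_smul_place_of_fixed [Finite Γ] (W W' : Place K M)
    (hW : algebraMap K[X] M X ∈ W.toValuationSubring)
    (hW' : algebraMap K[X] M X ∈ W'.toValuationSubring)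
    (h : ∀ m : M, (∀ σ ∈ Γ, σ m = m) → (0 < W.ord m ↔ 0 < W'.ord m)) :
    ∃ σ : Γ, σ • W = W' := by
  obtain ⟨P, rfl⟩ := Fermat.Agent.Lib.PlaceChart.exists_ofHeightOneSpectrum_eq W hW
  obtain ⟨Q, rfl⟩ := Fermat.Agent.Lib.PlaceChart.exists_ofHeightOneSpectrum_eq W' hW'
  obtain ⟨σ, hσ⟩ := exists_smul_eq_of_fixed Γ P Q (fun b hb => by
    rw [mem_asIdeal_iff, mem_asIdeal_iff]
    have := h (b : M) (fun σ hσ => congrArg Subtype.val (hb ⟨σ, hσ⟩))
    rw [this])
  exact ⟨σ, smul_ofHeightOneSpectrum Γ σ P Q hσ⟩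

/-- Place-level transitivity over `X = 0`. -/
theorem exists_smul_place [Finite Γ] (W W' : Place K M)
    (hW : 0 < W.ord (algebraMap K[X] M X)) (hW' : 0 < W'.ord (algebraMap K[X] M X)) :
    ∃ σ : Γ, σ • W = W' := by
  obtain ⟨P, rfl, hP⟩ := exists_prime_of_ord_pos W hW
  obtain ⟨Q, rfl, hQ⟩ := exists_prime_of_ord_pos W' hW'
  haveI := isGaloisGroup_poly Γ hinv
  haveI := P.isPrime
  haveI := Q.isPrime
  haveI := liesOver_span_X P hP
  haveI := liesOver_span_X Q hQ
  obtain ⟨σ, hσ⟩ := Ideal.exists_smul_eq_of_isGaloisGroup (Ideal.span {(X : K[X])})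
    P.asIdeal Q.asIdeal Γ
  exact ⟨σ, smul_ofHeightOneSpectrum Γ σ P Q hσ.symm⟩

/-- Place-level: the decomposition group has `ord_W(X)` elements. -/
theorem card_stabilizer_place [IsAlgClosed K] [CharZero K] [Finite Γ] (W : Place K M)
    (hW : 0 < W.ord (algebraMap K[X] M X)) :
    (Nat.card (MulAction.stabilizer Γ W) : ℤ) = W.ord (algebraMap K[X] M X) := by
  obtain ⟨P, rfl, hP⟩ := exists_prime_of_ord_pos W hW
  have hstab : MulAction.stabilizer Γ (Place.ofHeightOneSpectrum (K := K) (F := M) P) =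
      MulAction.stabilizer Γ P.asIdeal := by
    ext σ
    rw [MulAction.mem_stabilizer_iff, MulAction.mem_stabilizer_iff]
    have h1 : σ • Place.ofHeightOneSpectrum (K := K) (F := M) P =
        Place.ofHeightOneSpectrum (K := K) (F := M) (smulH Γ σ P) :=
      smul_ofHeightOneSpectrum' Γ σ P
    rw [h1]
    constructor
    · intro h
      have h2 := Fermat.Agent.Lib.PlaceChart.ofHeightOneSpectrum_injective h
      exact congrArg HeightOneSpectrum.asIdeal h2
    · intro h
      have h2 : smulH Γ σ P = P := HeightOneSpectrum.ext h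
      rw [h2]
  rw [← ramificationIdx_eq_ord P hP, ← card_stabilizer_ideal Γ hinv P hP, hstab]

end ChartGalois

end Chart


/-! ### Without chart instances -/

section NoChart

variable {K M : Type*} [Field K] [IsAlgClosed K] [CharZero K] [Field M] [Algebra K M]

/-- The chart-level results, with the chart `X ↦ x` hidden. -/
theorem chart_main (Γ : Subgroup (M ≃ₐ[K] M)) [Finite Γ] (x : M) (hx : Transcendental K x)
    (hfin : FiniteDimensional K⟮x⟯ M) (hfix : ∀ σ ∈ Γ, σ x = x) :
    (∀ W W' : Place K M, x ∈ W.toValuationSubring → x ∈ W'.toValuationSubring →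
      (∀ m : M, (∀ σ ∈ Γ, σ m = m) → (0 < W.ord m ↔ 0 < W'.ord m)) →
        ∃ σ : Γ, σ • W = W') ∧
    ((∀ m : M, (∀ σ ∈ Γ, σ m = m) → m ∈ K⟮x⟯) →
      (∀ W W' : Place K M, 0 < W.ord x → 0 < W'.ord x → ∃ σ : Γ, σ • W = W') ∧
      (∀ W : Place K M, 0 < W.ord x →
        (Nat.card (MulAction.stabilizer Γ W) : ℤ) = W.ord x)) := by
  letI := Fermat.Agent.Lib.PlaceChart.algPoly (K := K) x
  letI := Fermat.Agent.Lib.PlaceChart.algRat x hx
  haveI := Fermat.Agent.Lib.PlaceChart.tower_poly_rat x hx
  haveI := Fermat.Agent.Lib.PlaceChart.tower_base_poly (K := K) x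
  haveI : FunctionField K M := Fermat.Agent.Lib.PlaceChart.functionField_of_finite x hx hfin
  haveI := Fermat.Agent.Lib.PlaceChart.isSeparable_of_charZero x hx hfin
  have hX : algebraMap K[X] M X = x := Fermat.Agent.Lib.PlaceChart.algPoly_X x
  haveI : SMulCommClass Γ K[X] M := ⟨fun σ q m => by
    show (σ : M ≃ₐ[K] M) (q • m) = q • (σ : M ≃ₐ[K] M) m
    rw [Algebra.smul_def, Algebra.smul_def, map_mul]
    congr 1
    show (σ : M ≃ₐ[K] M) (Polynomial.aeval x q) = Polynomial.aeval x q
    have h := Polynomial.aeval_algHom_apply ((σ : M ≃ₐ[K] M) : M →ₐ[K] M) x q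
    have h' : (σ : M ≃ₐ[K] M) (Polynomial.aeval x q) =
        Polynomial.aeval ((σ : M ≃ₐ[K] M) x) q := h.symm
    rw [h', hfix σ σ.2]⟩
  refine ⟨fun W W' hW hW' h => ?_, fun hinv0 => ?_⟩
  · exact exists_smul_place_of_fixed Γ W W' (by rw [hX]; exact hW) (by rw [hX]; exact hW') h
  · have hinv : ∀ m : M, (∀ σ ∈ Γ, σ m = m) → m ∈ (algebraMap (RatFunc K) M).range := by
      intro m hm
      have h1 := hinv0 m hm
      exact ⟨(RatFunc.algEquivOfTranscendental x hx).symm ⟨m, h1⟩,
        Fermat.Agent.Lib.PlaceChart.ratEmb_coe x hx ⟨m, h1⟩⟩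
    refine ⟨fun W W' hW hW' => ?_, fun W hW => ?_⟩
    · exact exists_smul_place Γ hinv W W' (by rw [hX]; exact hW) (by rw [hX]; exact hW')
    · have h := card_stabilizer_place Γ hinv W (by rw [hX]; exact hW)
      rw [hX] at h
      exact h

end NoChart

end PlaceGalois

namespace PlaceGalois

/-! ### Group theory: counting fibres by double cosets -/

theorem card_eq_of_fibres {A Q S : Type*} (π : A → Q) (φ : A → S)
    (hπ : Function.Surjective π) (hφ : Function.Surjective φ)
    (h : ∀ a b, φ a = φ b ↔ π a = π b) : Nat.card S = Nat.card Q := by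
  refine (Nat.card_congr (Equiv.ofBijective (fun q => φ (Function.surjInv hπ q)) ⟨?_, ?_⟩)).symm
  · intro q q' hq
    have := (h _ _).mp hq
    rw [Function.surjInv_eq hπ q, Function.surjInv_eq hπ q'] at this
    exact this
  · intro s
    obtain ⟨a, rfl⟩ := hφ s
    exact ⟨π a, (h _ _).mpr (Function.surjInv_eq hπ (π a))⟩

/-- Pure group theory: the fibres of a "lies over" relation that are the `H`-orbits on a
transitive `G`-set `Z ∋ W` are counted by the orbits of `Stab_G(W)` on `G ⧸ H`. -/
theorem card_eq_card_orbits {G : Type*} [Group G] (H : Subgroup G)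
    {Pl Y : Type*} [MulAction G Pl] (Z : Set Pl) (S : Set Y) (r : Pl → Y → Prop)
    (W : Pl) (hW : W ∈ Z)
    (hZ : ∀ (g : G) (W' : Pl), W' ∈ Z → g • W' ∈ Z)
    (htrans : ∀ W' ∈ Z, ∃ g : G, g • W = W')
    (hex : ∀ w ∈ S, ∃ W' ∈ Z, r W' w)
    (hun : ∀ W' ∈ Z, ∃ w ∈ S, r W' w)
    (huniq : ∀ W' w w', r W' w → r W' w' → w = w')
    (hH : ∀ W' W'' w, W' ∈ Z → W'' ∈ Z → r W' w → r W'' w → ∃ h ∈ H, h • W' = W'')
    (hH' : ∀ (h : G) (W' : Pl) (w : Y), h ∈ H → r W' w → r (h • W') w) :
    Nat.card S =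
      Nat.card (MulAction.orbitRel.Quotient (MulAction.stabilizer G W) (G ⧸ H)) := by
  classical
  have hmem : ∀ g : G, g⁻¹ • W ∈ Z := fun g => hZ g⁻¹ W hW
  let φ : G → S := fun g => ⟨(hun _ (hmem g)).choose, (hun _ (hmem g)).choose_spec.1⟩
  have hφ : ∀ g : G, r (g⁻¹ • W) (φ g : Y) := fun g => (hun _ (hmem g)).choose_spec.2
  let π : G → MulAction.orbitRel.Quotient (MulAction.stabilizer G W) (G ⧸ H) :=
    fun g => Quotient.mk'' (g : G ⧸ H)
  have hπsurj : Function.Surjective π := by
    intro q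
    induction q using Quotient.inductionOn' with
    | h a =>
      induction a using QuotientGroup.induction_on with
      | H g => exact ⟨g, rfl⟩
  have hφsurj : Function.Surjective φ := by
    rintro ⟨w, hw⟩
    obtain ⟨W', hW'Z, hW'⟩ := hex w hw
    obtain ⟨g, rfl⟩ := htrans W' hW'Z
    refine ⟨g⁻¹, Subtype.ext ?_⟩
    have h1 := hφ g⁻¹
    rw [inv_inv] at h1
    exact huniq _ _ _ h1 hW'
  have hπeq : ∀ a b : G, π a = π b ↔
      ∃ d ∈ MulAction.stabilizer G W, (d * b)⁻¹ * a ∈ H := by
    intro a b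
    show (Quotient.mk'' (a : G ⧸ H) : MulAction.orbitRel.Quotient _ _) = Quotient.mk'' (b : G ⧸ H) ↔ _
    rw [Quotient.eq'', MulAction.orbitRel_apply, MulAction.mem_orbit_iff]
    constructor
    · rintro ⟨d, hd⟩
      refine ⟨d.1, d.2, ?_⟩
      have hd' : (((d : G) * b : G) : G ⧸ H) = (a : G ⧸ H) := hd
      exact QuotientGroup.eq.mp hd'
    · rintro ⟨d, hd, hmemH⟩
      refine ⟨⟨d, hd⟩, ?_⟩
      show (((d : G) * b : G) : G ⧸ H) = (a : G ⧸ H)
      exact QuotientGroup.eq.mpr hmemH
  refine card_eq_of_fibres π φ hπsurj hφsurj (fun a b => ?_)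
  rw [hπeq]
  constructor
  · intro hab
    -- both `a⁻¹ • W` and `b⁻¹ • W` lie over the same `w`
    have ha := hφ a
    have hb := hφ b
    rw [hab] at ha
    obtain ⟨h, hh, hhW⟩ := hH _ _ _ (hmem a) (hmem b) ha hb
    -- h • a⁻¹ • W = b⁻¹ • W, so d := b * h * a⁻¹ ∈ D
    refine ⟨(b * h * a⁻¹)⁻¹, ?_, ?_⟩
    · rw [MulAction.mem_stabilizer_iff, inv_smul_eq_iff, mul_smul, mul_smul, hhW, smul_inv_smul]
    · have : ((b * h * a⁻¹)⁻¹ * b)⁻¹ * a = b⁻¹ * (b * h * a⁻¹) * a := by group
      rw [this]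
      have : b⁻¹ * (b * h * a⁻¹) * a = h := by group
      rw [this]
      exact hh
  · rintro ⟨d, hd, hmemH⟩
    rw [MulAction.mem_stabilizer_iff] at hd
    have ha : a⁻¹ • W = ((d * b)⁻¹ * a)⁻¹ • (b⁻¹ • W) := by
      rw [mul_inv_rev, inv_inv, mul_smul, mul_smul, smul_inv_smul, hd]
    have h3 : r (a⁻¹ • W) (φ b : Y) := by
      rw [ha]
      exact hH' _ _ _ (H.inv_mem hmemH) (hφ b)
    exact Subtype.ext (huniq _ _ _ (hφ a) h3)

end PlaceGalois

/-! ## The statements of section A5 (b) of the plan -/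

section A5

variable {K F M : Type*} [Field K] [IsAlgClosed K] [CharZero K] [Field F] [Field M]
  [Algebra K F] [Algebra K M] [Algebra F M] [IsScalarTower K F M]
  (G : Subgroup (M ≃ₐ[K] M)) [Finite G] (y : F) (hy : Transcendental K y)
  (hG : ∀ m : M, (∀ σ ∈ G, σ m = m) ↔ m ∈ K⟮algebraMap F M y⟯)

include hy hG

omit [IsAlgClosed K] [CharZero K] [Finite G] hy in
theorem PlaceGalois.fix_gen (σ : M ≃ₐ[K] M) (hσ : σ ∈ G) :
    σ (algebraMap F M y) = algebraMap F M y :=
  (hG _).mpr (IntermediateField.mem_adjoin_simple_self K _) σ hσ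

/-- `G` is transitive on the places of `M` over `y = 0`. -/
theorem exists_smul_eq (W W' : Place K M) (hW : 0 < W.ord (algebraMap F M y))
    (hW' : 0 < W'.ord (algebraMap F M y)) : ∃ σ : G, σ • W = W' :=
  ((PlaceGalois.chart_main G (algebraMap F M y)
    ((transcendental_algebraMap_iff (algebraMap F M).injective).mpr hy)
    (PlaceGaloisFixed.finiteDimensional_top G y hG) (PlaceGalois.fix_gen G y hG)).2
    (fun m hm => (hG m).mp hm)).1 W W' hW hW'

/-- decomposition group = ramification index (residue degree is `1`). -/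
theorem card_stabilizer (W : Place K M) (hW : 0 < W.ord (algebraMap F M y)) :
    (Nat.card (MulAction.stabilizer G W) : ℤ) = W.ord (algebraMap F M y) :=
  ((PlaceGalois.chart_main G (algebraMap F M y)
    ((transcendental_algebraMap_iff (algebraMap F M).injective).mpr hy)
    (PlaceGaloisFixed.finiteDimensional_top G y hG) (PlaceGalois.fix_gen G y hG)).2
    (fun m hm => (hG m).mp hm)).2 W hW

omit [IsAlgClosed K] [CharZero K] [Finite G] hy in
theorem PlaceGalois.ord_smul_gen (σ : G) (W : Place K M) :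
    (σ • W).ord (algebraMap F M y) = W.ord (algebraMap F M y) := by
  have h := Place.ord_smul (σ : M ≃ₐ[K] M) W (algebraMap F M y)
  rw [PlaceGalois.fix_gen G y hG σ σ.2] at h
  exact h

/-- unramified criterion. -/
theorem ord_eq_one_of_exists (W : Place K M) (hW : W.ord (algebraMap F M y) = 1)
    (w : Place K F) (hw : 0 < w.ord y) : w.ord y = 1 := by
  obtain ⟨hFF, -, hfinFM⟩ := isFF1_of_fixed G y hy hG
  haveI := hFF
  haveI := hfinFM
  obtain ⟨W', hW'⟩ := exists_place_liesOver (M := M) w
  obtain ⟨e, he, hord⟩ := exists_ramificationIdx hW'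
  have h1 : W'.ord (algebraMap F M y) = e * w.ord y := hord y
  have he' : (1 : ℤ) ≤ e := by exact_mod_cast he
  have hpos : 0 < W'.ord (algebraMap F M y) := by
    rw [h1]; positivity
  obtain ⟨σ, hσ⟩ := exists_smul_eq G y hy hG W W' (by rw [hW]; exact one_pos) hpos
  have h2 : W'.ord (algebraMap F M y) = 1 := by
    rw [← hσ, PlaceGalois.ord_smul_gen G y hG σ W, hW]
  rw [h1] at h2
  nlinarith


/-! ### The orbit count -/

omit [IsAlgClosed K] [CharZero K] [IsScalarTower K F M] [Finite G] hy hG in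
theorem PlaceGalois.liesOver_unique {W : Place K M} {w w' : Place K F}
    (h : PlaceLiesOver W w) (h' : PlaceLiesOver W w') : w = w' := by
  apply Place.ext
  ext f
  rw [← h f, ← h' f]

omit [IsAlgClosed K] [CharZero K] [IsScalarTower K F M] [Finite G] hy hG in
theorem PlaceGalois.liesOver_smul (σ : G) (hσ : σ ∈ fixerOf F G) {W : Place K M}
    {w : Place K F} (h : PlaceLiesOver W w) : PlaceLiesOver (σ • W) w := by
  intro f
  rw [← h f]
  show algebraMap F M f ∈ ((σ : M ≃ₐ[K] M) • W.toValuationSubring) ↔ _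
  rw [ValuationSubring.mem_pointwise_smul_iff_inv_smul_mem]
  have h1 : (σ : M ≃ₐ[K] M)⁻¹ • algebraMap F M f = algebraMap F M f := by
    rw [inv_smul_eq_iff, AlgEquiv.smul_def]
    exact (hσ f).symm
  rw [h1]

omit [Finite G] hy hG in
theorem PlaceGalois.ord_pos_iff [IsFF1 K F] [FiniteDimensional F M] {W : Place K M}
    {w : Place K F} (h : PlaceLiesOver W w) (f : F) :
    0 < W.ord (algebraMap F M f) ↔ 0 < w.ord f := by
  obtain ⟨e, he, hord⟩ := exists_ramificationIdx h
  have he' : (0 : ℤ) < e := by exact_mod_cast he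
  rw [hord f]
  exact mul_pos_iff_of_pos_left he'

/-- The fixer of `F` is transitive on the places of `M` over a place of `F` (over `y = 0`). -/
theorem PlaceGalois.exists_fixer_smul_eq (W' W'' : Place K M) (w : Place K F)
    (hW' : 0 < W'.ord (algebraMap F M y)) (hW'' : 0 < W''.ord (algebraMap F M y))
    (h' : PlaceLiesOver W' w) (h'' : PlaceLiesOver W'' w) :
    ∃ σ : G, σ ∈ fixerOf F G ∧ σ • W' = W'' := by
  obtain ⟨hFF, -, hfinFM⟩ := isFF1_of_fixed G y hy hG
  haveI := hFF
  haveI := hfinFM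
  have hΓG : (fixerOf F G).map G.subtype ≤ G := by
    rintro _ ⟨σ, -, rfl⟩
    exact σ.2
  haveI : Finite ((fixerOf F G).map G.subtype) :=
    Finite.of_injective (Subgroup.inclusion hΓG) (Subgroup.inclusion_injective hΓG)
  have hy' := (transcendental_algebraMap_iff (algebraMap F M).injective).mpr hy
  have hmem : ∀ V : Place K M, 0 < V.ord (algebraMap F M y) →
      algebraMap F M y ∈ V.toValuationSubring := by
    intro V hV
    have hne : algebraMap F M y ≠ 0 := by
      intro h0
      rw [h0, Place.ord_zero] at hV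
      exact lt_irrefl _ hV
    exact (mem_iff_ord_nonneg V hne).mpr hV.le
  obtain ⟨σ, hσ⟩ := (PlaceGalois.chart_main ((fixerOf F G).map G.subtype) (algebraMap F M y) hy'
    (PlaceGaloisFixed.finiteDimensional_top G y hG)
    (fun σ hσ => PlaceGalois.fix_gen G y hG σ (hΓG hσ))).1 W' W'' (hmem W' hW') (hmem W'' hW'')
    (fun m hm => by
      obtain ⟨f, rfl⟩ := PlaceGaloisFixed.mem_range_of_fixerOf G y hG m
        (fun τ hτ => hm τ ⟨τ, hτ, rfl⟩)
      rw [PlaceGalois.ord_pos_iff h' f, PlaceGalois.ord_pos_iff h'' f])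
  obtain ⟨τ, hτ, hτσ⟩ := σ.2
  refine ⟨τ, hτ, ?_⟩
  rw [← hσ]
  show (τ : M ≃ₐ[K] M) • W' = (σ : M ≃ₐ[K] M) • W'
  rw [← hτσ]
  rfl

/-- the places of `F` over `y = 0` are the orbits of the decomposition group on `G ⧸ H`. -/
theorem card_zerosOf_eq_card_orbits (W : Place K M) (hW : 0 < W.ord (algebraMap F M y)) :
    Nat.card (zerosOf K y) =
      Nat.card (MulAction.orbitRel.Quotient (MulAction.stabilizer G W) (G ⧸ fixerOf F G)) := by
  obtain ⟨hFF, -, hfinFM⟩ := isFF1_of_fixed G y hy hG
  haveI := hFF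
  haveI := hfinFM
  refine PlaceGalois.card_eq_card_orbits (fixerOf F G)
    {W' : Place K M | 0 < W'.ord (algebraMap F M y)} (zerosOf K y)
    (fun W' w => PlaceLiesOver W' w) W hW ?_ ?_ ?_ ?_ ?_ ?_ ?_
  · intro g W' hW'
    show 0 < (g • W').ord _
    rw [PlaceGalois.ord_smul_gen G y hG g W']
    exact hW'
  · intro W' hW'
    exact exists_smul_eq G y hy hG W W' hW hW'
  · intro w hw
    obtain ⟨W', hW'⟩ := exists_place_liesOver (M := M) w
    exact ⟨W', (PlaceGalois.ord_pos_iff hW' y).mpr hw, hW'⟩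
  · intro W' hW'
    obtain ⟨w, hw⟩ := exists_place_under (F := F) W'
    exact ⟨w, (PlaceGalois.ord_pos_iff hw y).mp hW', hw⟩
  · intro W' w w' h h'
    exact PlaceGalois.liesOver_unique h h'
  · intro W' W'' w hW' hW'' h' h''
    exact PlaceGalois.exists_fixer_smul_eq G y hy hG W' W'' w hW' hW'' h' h''
  · intro h W' w hh hr
    exact PlaceGalois.liesOver_smul G h hh hr

end A5

end


end Fermat.Agent.S24
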