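import Mathlib
import Fermat.Prelude.Def_AlgebraicCurve_CanonicalDivisor
import Fermat.Agent.Lib.PlaceChart
import Fermat.Agent.Lib.FFPlaces
import Fermat.Agent.S24.Defs
import Fermat.Agent.S24.PlaceBridge
import Fermat.Agent.S24.PlaceDiff
import Fermat.Agent.S24.RiemannHurwitzCore

/-!
# S24 — package A3: Riemann–Hurwitz for `F / K(x)` in the shape of the Prelude genus (helper36)

The Plan statement `genus_eq_of_ramification`, obtained by feeding the packages A0
(`PlaceBridge`), A2 (`PlaceDiff`) and the place theory of `Lib/PlaceChart` + `Lib/FFPlaces`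
(residue field `K`, fundamental identity) into
`RiemannHurwitz.genus_eq_of_ramification_core`.

The few A1-type inputs are derived here directly from the two `Lib` files, under names of the
form `RiemannHurwitz.rh…`, so that this file does not depend on `S24/PlaceBasic.lean`.
-/

set_option autoImplicit false

namespace Fermat.Agent.S24

open AlgebraicCurve IntermediateField KaehlerDifferential

variable {K F : Type*} [Field K] [IsAlgClosed K] [CharZero K] [Field F] [Algebra K F]

namespace RiemannHurwitz

omit [CharZero K] in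
/-- Over an algebraically closed field every element is a constant or transcendental. -/
theorem rhConst_or_transcendental (f : F) :
    (∃ a : K, f = algebraMap K F a) ∨ Transcendental K f := by
  by_cases h : IsAlgebraic K f
  · left
    have hint : IsIntegral K f := h.isIntegral
    have hdeg := IsAlgClosed.degree_eq_one_of_irreducible K (minpoly.irreducible hint)
    obtain ⟨a, ha⟩ := minpoly.mem_range_of_degree_eq_one K f hdeg
    exact ⟨a, ha.symm⟩
  · exact Or.inr h

omit [IsAlgClosed K] [CharZero K] in
theorem rhIsFunctionField1 [IsFF1 K F] : Lib.PlaceChart.IsFunctionField1 K F :=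
  IsFF1.exists_gen

omit [IsAlgClosed K] [CharZero K] in
theorem rhFiniteDimensional [IsFF1 K F] {f : F} (hf : Transcendental K f) :
    FiniteDimensional K⟮f⟯ F :=
  (rhIsFunctionField1 (K := K) (F := F)).finite hf

theorem rhDeg_eq_one [IsFF1 K F] (w : Place K F) : w.deg = 1 :=
  Lib.PlaceChart.deg_eq_one rhIsFunctionField1 w

/-- The residue field of every place is `K`. -/
theorem rhExists_residue [IsFF1 K F] (w : Place K F) {f : F} (hf : f ∈ w.toValuationSubring) :
    ∃ a : K, f = algebraMap K F a ∨ 0 < w.ord (f - algebraMap K F a) := by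
  obtain ⟨a, ha⟩ := Lib.PlaceChart.exists_sub_mem_maximalIdeal rhIsFunctionField1 w ⟨f, hf⟩
  refine ⟨a, ?_⟩
  by_cases h0 : f = algebraMap K F a
  · exact Or.inl h0
  right
  have hne : f - algebraMap K F a ≠ 0 := sub_ne_zero.mpr h0
  rw [Lib.FFPlaces.ord_pos_iff w hne]
  refine ⟨sub_mem hf (w.algebraMap_mem' a), fun hinv => ?_⟩
  have hunit : IsUnit ((⟨f, hf⟩ : w.toValuationSubring) - algebraMap K w.toValuationSubring a) := by
    refine IsUnit.of_mul_eq_one ⟨(f - algebraMap K F a)⁻¹, hinv⟩ ?_
    apply Subtype.ext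
    change (f - algebraMap K F a) * (f - algebraMap K F a)⁻¹ = 1
    exact mul_inv_cancel₀ hne
  exact (IsLocalRing.mem_maximalIdeal _).mp ha hunit

omit [IsAlgClosed K] in
theorem rhZerosOf_finite [IsFF1 K F] {f : F} (hf : Transcendental K f) :
    (zerosOf K f).Finite := by
  have := rhFiniteDimensional hf
  exact Lib.FFPlaces.finite_zeros_self hf

theorem rhSum_ord_zerosOf [IsFF1 K F] {f : F} (hf : Transcendental K f) :
    ∑ᶠ w ∈ zerosOf K f, w.ord f = (Module.finrank K⟮f⟯ F : ℤ) := by
  have := rhFiniteDimensional hf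
  exact Lib.FFPlaces.sum_ord_zeros_self hf

omit [IsAlgClosed K] in
theorem rhPolesOf_finite [IsFF1 K F] {f : F} (hf : Transcendental K f) :
    (polesOf K f).Finite := by
  have := rhFiniteDimensional hf
  exact Lib.FFPlaces.finite_poles hf

theorem rhSum_ord_polesOf [IsFF1 K F] {f : F} (hf : Transcendental K f) :
    ∑ᶠ w ∈ polesOf K f, w.ord f = -(Module.finrank K⟮f⟯ F : ℤ) := by
  have := rhFiniteDimensional hf
  exact Lib.FFPlaces.sum_ord_poles hf

end RiemannHurwitz

open RiemannHurwitz in
/-- Riemann–Hurwitz for `F / K(x)`, in the shape of the Prelude genus. -/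
theorem genus_eq_of_ramification [IsFF1 K F] [HasCanonicalDivisor (K := K) (F := F)]
    (x : F) (hx : Transcendental K x) (S : Finset K)
    (hS : ∀ a : K, a ∉ S → ∀ w : Place K F, 0 < w.ord (x - algebraMap K F a) →
      w.ord (x - algebraMap K F a) = 1) :
    genus K F =
      ((∑ a ∈ S, ((Module.finrank K⟮x⟯ F : ℤ) - Nat.card (zerosOf K (x - algebraMap K F a)))
          - (Module.finrank K⟮x⟯ F : ℤ) - Nat.card (polesOf K x) + 2).toNat) / 2 :=
  RiemannHurwitz.genus_eq_of_ramification_core x hx S hS
    kaehler_nontrivial (fun w => dCoord_generates w) (fun w => rhDeg_eq_one w)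
    (fun ω => exists_eq_smul_D hx ω) (fun w => differentialCoeff_D_ne_zero w hx)
    (fun w _ hf => ordDifferential_D w hf) (fun w _ hf => rhExists_residue w hf)
    rhConst_or_transcendental (fun w a => ord_algebraMap w a)
    (fun w _ hf h => (mem_iff_ord_nonneg w hf).2 h)
    (fun w _ _ hf hg hfg => ord_add_ge w hf hg hfg)
    (fun _ hf => rhZerosOf_finite hf) (fun _ hf => rhSum_ord_zerosOf hf)
    (fun _ hf => rhPolesOf_finite hf) (fun _ hf => rhSum_ord_polesOf hf)

open RiemannHurwitz in
/-- The degree of the divisor of any nonzero differential (no `toNat`). -/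
theorem degree_canonicalDivisorOf_eq [IsFF1 K F] [HasCanonicalDivisor (K := K) (F := F)]
    (x : F) (hx : Transcendental K x) (S : Finset K)
    (hS : ∀ a : K, a ∉ S → ∀ w : Place K F, 0 < w.ord (x - algebraMap K F a) →
      w.ord (x - algebraMap K F a) = 1) {ω : Ω[F⁄K]} (hω : ω ≠ 0) :
    Divisor.degree (canonicalDivisorOf hω) =
      ∑ a ∈ S, ((Module.finrank K⟮x⟯ F : ℤ) - Nat.card (zerosOf K (x - algebraMap K F a)))
          - (Module.finrank K⟮x⟯ F : ℤ) - Nat.card (polesOf K x) :=
  RiemannHurwitz.degree_canonical_eq x hx S hS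
    kaehler_nontrivial (fun w => dCoord_generates w) (fun w => rhDeg_eq_one w)
    (fun ω => exists_eq_smul_D hx ω) (fun w => differentialCoeff_D_ne_zero w hx)
    (fun w _ hf => ordDifferential_D w hf) (fun w _ hf => rhExists_residue w hf)
    rhConst_or_transcendental (fun w a => ord_algebraMap w a)
    (fun w _ hf h => (mem_iff_ord_nonneg w hf).2 h)
    (fun w _ _ hf hg hfg => ord_add_ge w hf hg hfg)
    (fun _ hf => rhZerosOf_finite hf) (fun _ hf => rhSum_ord_zerosOf hf)
    (fun _ hf => rhPolesOf_finite hf) (fun _ hf => rhSum_ord_polesOf hf) hω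

end Fermat.Agent.S24
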